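import Mathlib
import Fermat.Agent.MU.L.Degen.Cover
import Fermat.Agent.L.Degen.Wreath2
import Fermat.Agent.L.Degen.Bridge
import Fermat.Agent.MU.L.Degen.CoresIndex
import Fermat.Agent.L.Interfaces
import Fermat.Agent.S49.H91Eigen
import Fermat.Agent.S35.Targets
import Fermat.Agent.MU.F3.EigenPadic.Closed
import Fermat.Agent.MU.S49.H91StepC
import Fermat.Agent.MU.S22
import Fermat.Agent.S23.FiniteDim
import Fermat.Agent.MU.S33.OldNew
import Fermat.Agent.MU.S33.NewDefs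
import Fermat.Agent.MU.S35.KernelAt

section MergeWrap_L_Degen_Identities -- from L/Degen/Identities.lean

set_option autoImplicit false

noncomputable section

namespace Fermat.Agent.LDeg

open CongruenceSubgroup Matrix.SpecialLinearGroup ModularCurve.Period
open Fermat.Agent.F3EC Fermat.Agent.L
open scoped MatrixGroups
open P2MW.S_ModularForm_heckeT_slash_eq_self_of_mem_Gamma0.ModularForm.HeckeSlashInvariance

variable {N q : ℕ}

theorem iotaG_comp_incl : (iotaG N).comp (incl N q) = iotaG (N * q) := rfl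

section RealizeInGL

variable [NeZero q]

/-- `α₀ (δ γ δ⁻¹) = γ α₀` for `α₀ = [1, 0; 0, q]`. -/
theorem heckeInt_zero_mul (γ : Gamma0 (N * q)) :
    heckeInt q ((0 : ZMod q) : OnePoint (ZMod q)) *
        (((inclD N q γ : Gamma0 N) : SL(2, ℤ)) : Matrix (Fin 2) (Fin 2) ℤ) =
      ((γ : SL(2, ℤ)) : Matrix (Fin 2) (Fin 2) ℤ) *
        heckeInt q ((0 : ZMod q) : OnePoint (ZMod q)) := by
  obtain ⟨c, hc⟩ := q_dvd_of_mem N q γ.2
  have hq : (q : ℤ) ≠ 0 := by exact_mod_cast NeZero.ne q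
  have hdiv : (γ : SL(2, ℤ)) 1 0 / (q : ℤ) = c := by
    rw [hc, Int.mul_ediv_cancel_left _ hq]
  rw [inclD_coe]
  ext i j
  fin_cases i <;> fin_cases j <;>
    simp [conjDMat, Matrix.mul_apply, Fin.sum_univ_two, hdiv, mul_comm]
  rw [hc, mul_comm]

theorem heckeRep_zero_mul (γ : Gamma0 (N * q)) :
    heckeRep q ((0 : ZMod q) : OnePoint (ZMod q)) * iotaG N (inclD N q γ) =
      iotaG (N * q) γ * heckeRep q ((0 : ZMod q) : OnePoint (ZMod q)) := by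
  have hq : q ≠ 0 := NeZero.ne q
  rw [heckeRep_eq_intGL hq, iotaG_eq_intGL, iotaG_eq_intGL, intGL_mul_eq_mul_iff]
  exact heckeInt_zero_mul γ

theorem coresW_realizes_GL (hq : q.Prime) (hqN : ¬ q ∣ N) :
    (coresW hq hqN).Realizes (iotaG N) (iotaG (N * q)) (fun y => iotaG N (coresRep N q y)) := by
  have h := (coresW_realizes hq hqN).map (iotaG N)
  rwa [MonoidHom.comp_id, iotaG_comp_incl] at h

theorem coresDW_realizes_GL (hq : q.Prime) (hqN : ¬ q ∣ N) :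
    (coresDW hq hqN).Realizes (iotaG N) (iotaG (N * q))
      (fun y => heckeRep q ((0 : ZMod q) : OnePoint (ZMod q)) * iotaG N (coresDRep N q y)) := by
  have h := (coresDW_realizes hq hqN).map (iotaG N)
  rw [MonoidHom.comp_id] at h
  exact h.of_conj _ (fun e => heckeRep_zero_mul e)

end RealizeInGL

section DegD

variable [NeZero q] [Fact q.Prime]

/-- The elements `n_y ∈ Γ₀(N)` with `δ r_y = n_y α_y`. -/
def twistD1 (N q : ℕ) (y : OnePoint (ZMod q)) : Gamma0 N :=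
  y.elim 1 (fun _ => bezM N q)

/-- The elements `n_y ∈ Γ₀(N)` with `α₀ r^δ_y = n_y α_y`. -/
def twistD2 (N q : ℕ) (y : OnePoint (ZMod q)) : Gamma0 N :=
  y.elim (bezN N q) (fun _ => 1)

theorem delta_mul_coresRep (hqN : ¬ q ∣ N) (y : OnePoint (ZMod q)) :
    heckeRep q OnePoint.infty * iotaG N (coresRep N q y) =
      iotaG N (twistD1 N q y) * heckeRep q y := by
  have hq : q.Prime := Fact.out
  have hq0 : q ≠ 0 := hq.ne_zero
  rw [heckeRep_eq_intGL hq0, heckeRep_eq_intGL hq0, iotaG_eq_intGL, iotaG_eq_intGL,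
    intGL_mul_eq_mul_iff]
  induction y using OnePoint.rec with
  | infty =>
    show heckeInt q OnePoint.infty * (((1 : Gamma0 N) : SL(2, ℤ)) : Matrix (Fin 2) (Fin 2) ℤ) =
      (((1 : Gamma0 N) : SL(2, ℤ)) : Matrix (Fin 2) (Fin 2) ℤ) * heckeInt q OnePoint.infty
    simp
  | coe t =>
    show heckeInt q OnePoint.infty *
        (((coresRep N q (t : OnePoint (ZMod q)) : Gamma0 N) : SL(2, ℤ)) :
          Matrix (Fin 2) (Fin 2) ℤ) =
      (((bezM N q : Gamma0 N) : SL(2, ℤ)) : Matrix (Fin 2) (Fin 2) ℤ) *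
        heckeInt q (t : OnePoint (ZMod q))
    rw [coe_coresRep_coe hq hqN, coe_bezM hq hqN]
    ext i j
    fin_cases i <;> fin_cases j <;>
      simp [Matrix.mul_apply, Fin.sum_univ_two, -ZMod.natCast_val] <;> ring

theorem alpha_zero_mul_coresDRep (hqN : ¬ q ∣ N) (y : OnePoint (ZMod q)) :
    heckeRep q ((0 : ZMod q) : OnePoint (ZMod q)) * iotaG N (coresDRep N q y) =
      iotaG N (twistD2 N q y) * heckeRep q y := by
  have hq : q.Prime := Fact.out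
  have hq0 : q ≠ 0 := hq.ne_zero
  rw [heckeRep_eq_intGL hq0, heckeRep_eq_intGL hq0, iotaG_eq_intGL, iotaG_eq_intGL,
    intGL_mul_eq_mul_iff]
  induction y using OnePoint.rec with
  | infty =>
    show heckeInt q ((0 : ZMod q) : OnePoint (ZMod q)) *
        (((coresDRep N q OnePoint.infty : Gamma0 N) : SL(2, ℤ)) : Matrix (Fin 2) (Fin 2) ℤ) =
      (((bezN N q : Gamma0 N) : SL(2, ℤ)) : Matrix (Fin 2) (Fin 2) ℤ) *
        heckeInt q OnePoint.infty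
    rw [coe_coresDRep_infty hq hqN, coe_bezN hq hqN]
    ext i j
    fin_cases i <;> fin_cases j <;>
      simp [Matrix.mul_apply, Fin.sum_univ_two] <;> ring
  | coe t =>
    show heckeInt q ((0 : ZMod q) : OnePoint (ZMod q)) *
        (((coresDRep N q (t : OnePoint (ZMod q)) : Gamma0 N) : SL(2, ℤ)) :
          Matrix (Fin 2) (Fin 2) ℤ) =
      (((1 : Gamma0 N) : SL(2, ℤ)) : Matrix (Fin 2) (Fin 2) ℤ) *
        heckeInt q (t : OnePoint (ZMod q))
    rw [coe_coresDRep_coe]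
    ext i j
    fin_cases i <;> fin_cases j <;>
      simp [Matrix.mul_apply, Fin.sum_univ_two, -ZMod.natCast_val]

/-- **(d1)** at the level of wreath homs: `cores ∘ res_δ = T_q`. -/
theorem coresW_op_resAllD (hqN : ¬ q ∣ N) (A : Type*) [AddCommGroup A]
    (c : Additive (Gamma0 N) →+ A) :
    (coresW Fact.out hqN).op A (resAllD N q A c) = heckeHomAll hqN A c := by
  have hq : q.Prime := Fact.out
  have h1 := (coresW_realizes_GL hq hqN).comp (resDW_realizes N q)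
  have h2 := WreathHom.op_eq_of_realizes (heckeW_realizes hqN) h1 (iotaG_injective N)
    (heckeRep_cosetsDistinct N) (Equiv.punitProd _) (fun ji => twistD1 N q ji.2)
    (fun ji => delta_mul_coresRep hqN ji.2) A
  rw [WreathHom.op_comp, heckeW_op, resDW_op] at h2
  exact congrFun (congrArg DFunLike.coe h2) c

/-- **(d2)** at the level of wreath homs: `cores_δ ∘ res = T_q`. -/
theorem coresDW_op_resAll (hqN : ¬ q ∣ N) (A : Type*) [AddCommGroup A]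
    (c : Additive (Gamma0 N) →+ A) :
    (coresDW Fact.out hqN).op A (resAll N q A c) = heckeHomAll hqN A c := by
  have hq : q.Prime := Fact.out
  have h1 := (coresDW_realizes_GL hq hqN).comp (resW_realizes N q)
  have h2 := WreathHom.op_eq_of_realizes (heckeW_realizes hqN) h1 (iotaG_injective N)
    (heckeRep_cosetsDistinct N) (Equiv.punitProd _) (fun ji => twistD2 N q ji.2)
    (fun ji => by
      show 1 * (heckeRep q ((0 : ZMod q) : OnePoint (ZMod q)) * iotaG N (coresDRep N q ji.2)) = _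
      rw [one_mul]
      exact alpha_zero_mul_coresDRep hqN ji.2) A
  rw [WreathHom.op_comp, heckeW_op, resW_op] at h2
  exact congrFun (congrArg DFunLike.coe h2) c

/-- **DEG-2 (d1).** `cores (res_δ c) = T_q c`. -/
theorem coresAll_resAllD (hqN : ¬ q ∣ N) (A : Type*) [AddCommGroup A]
    (c : Additive (Gamma0 N) →+ A) :
    coresAll N q A (resAllD N q A c) = heckeHomAll hqN A c := by
  rw [coresAll_eq_op Fact.out hqN, coresW_op_resAllD hqN]

/-- **DEG-2 (d2).** `cores_δ (res c) = T_q c`. -/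
theorem coresAllD_resAll (hqN : ¬ q ∣ N) (A : Type*) [AddCommGroup A]
    (c : Additive (Gamma0 N) →+ A) :
    coresAllD N q A (resAll N q A c) = heckeHomAll hqN A c := by
  rw [coresAllD_eq_op Fact.out hqN, coresDW_op_resAll hqN]

end DegD

end Fermat.Agent.LDeg
end
end MergeWrap_L_Degen_Identities

section MergeWrap_L_Degen_HeckeComm -- from L/Degen/HeckeComm.lean

set_option autoImplicit false

noncomputable section

namespace Fermat.Agent.LDeg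

open CongruenceSubgroup Matrix.SpecialLinearGroup ModularCurve.Period
open Fermat.Agent.F3EC Fermat.Agent.L
open scoped MatrixGroups
open P2MW.S_ModularForm_heckeT_slash_eq_self_of_mem_Gamma0.ModularForm.HeckeSlashInvariance

theorem intGL_mul (A B : Matrix (Fin 2) (Fin 2) ℤ) (hA : A.det ≠ 0) (hB : B.det ≠ 0) :
    intGL A hA * intGL B hB = intGL (A * B) (by rw [Matrix.det_mul]; exact mul_ne_zero hA hB) := by
  apply Units.ext
  simp only [Units.val_mul, coe_intGL, map_mul]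

theorem intGL_injective {A B : Matrix (Fin 2) (Fin 2) ℤ} (hA : A.det ≠ 0) (hB : B.det ≠ 0)
    (h : intGL A hA = intGL B hB) : A = B := by
  have h1 := congrArg (fun g : GL (Fin 2) ℝ => (g : Matrix (Fin 2) (Fin 2) ℝ)) h
  simp only [coe_intGL] at h1
  exact mapMatrix_intCast_injective h1

variable {N q ℓ : ℕ} [Fact ℓ.Prime]

section Res

/-- **DEG-2 (e)** for `res`. -/
theorem resAll_heckeHomAll (hℓN : ¬ ℓ ∣ N) (hℓNq : ¬ ℓ ∣ N * q) (A : Type*) [AddCommGroup A]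
    (c : Additive (Gamma0 N) →+ A) :
    resAll N q A (heckeHomAll hℓN A c) = heckeHomAll hℓNq A (resAll N q A c) := by
  have h1 := (resW_realizes N q).comp (heckeW_realizes hℓN)
  have h2 := (heckeW_realizes hℓNq).comp (resW_realizes N q)
  have hd : CosetsDistinct (iotaG N)
      (fun ji : OnePoint (ZMod ℓ) × Unit => heckeRep ℓ ji.1 * (1 : GL (Fin 2) ℝ)) := by
    rintro ⟨x, _⟩ ⟨x', _⟩ n h
    have : x = x' := heckeRep_cosetsDistinct N x x' n (by simpa using h)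
    rw [this]
  have h3 := WreathHom.op_eq_of_realizes h1 h2 (iotaG_injective N) hd
    (Equiv.prodComm Unit (OnePoint (ZMod ℓ))) (fun _ => 1)
    (fun ji => by simp) A
  rw [WreathHom.op_comp, WreathHom.op_comp, heckeW_op, heckeW_op, resW_op] at h3
  exact (congrFun (congrArg DFunLike.coe h3) c).symm

end Res

section ResD

/-- Multiplication by `q` on `ℙ¹(𝔽_ℓ)`. -/
def mulQ (q ℓ : ℕ) (x : OnePoint (ZMod ℓ)) : OnePoint (ZMod ℓ) :=
  x.elim OnePoint.infty (fun k => (((q : ZMod ℓ) * k : ZMod ℓ) : OnePoint (ZMod ℓ)))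

@[simp] theorem mulQ_infty : mulQ q ℓ OnePoint.infty = OnePoint.infty := rfl

@[simp] theorem mulQ_coe (k : ZMod ℓ) :
    mulQ q ℓ (k : OnePoint (ZMod ℓ)) = (((q : ZMod ℓ) * k : ZMod ℓ) : OnePoint (ZMod ℓ)) := rfl

theorem mulQ_injective (hqℓ : ¬ ℓ ∣ q) : Function.Injective (mulQ q ℓ) := by
  have hq0 : (q : ZMod ℓ) ≠ 0 := by
    rwa [Ne, ZMod.natCast_eq_zero_iff]
  intro x x' h
  induction x using OnePoint.rec with
  | infty =>
    induction x' using OnePoint.rec with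
    | infty => rfl
    | coe k' => simp at h
  | coe k =>
    induction x' using OnePoint.rec with
    | infty => simp at h
    | coe k' =>
      simp only [mulQ_coe, OnePoint.coe_eq_coe] at h
      rw [mul_left_cancel₀ hq0 h]

variable [NeZero q]

/-- `δ α_x = τ α_{q x} δ` with `τ ∈ Γ₀(K)` a translation. -/
theorem exists_delta_heckeRep (K : ℕ) (x : OnePoint (ZMod ℓ)) :
    ∃ τ : Gamma0 K, heckeRep q OnePoint.infty * heckeRep ℓ x =
      iotaG K τ * (heckeRep ℓ (mulQ q ℓ x) * heckeRep q OnePoint.infty) := by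
  have hℓ : ℓ ≠ 0 := (Fact.out : ℓ.Prime).ne_zero
  have hq : q ≠ 0 := NeZero.ne q
  induction x using OnePoint.rec with
  | infty =>
    refine ⟨1, ?_⟩
    rw [mulQ_infty, map_one, one_mul, heckeRep_eq_intGL hq, heckeRep_eq_intGL hℓ,
      intGL_mul_eq_mul_iff]
    ext i j
    fin_cases i <;> fin_cases j <;>
      simp [Matrix.mul_apply, Fin.sum_univ_two, mul_comm]
  | coe k =>
    obtain ⟨s, hs⟩ : (ℓ : ℤ) ∣ (q : ℤ) * (k.val : ℤ) - ((((q : ZMod ℓ) * k : ZMod ℓ)).val : ℤ) := by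
      rw [← ZMod.intCast_zmod_eq_zero_iff_dvd]
      push_cast
      rw [ZMod.natCast_zmod_val, ZMod.natCast_zmod_val, sub_self]
    refine ⟨translG K s, ?_⟩
    rw [mulQ_coe, heckeRep_eq_intGL hq, heckeRep_eq_intGL hℓ, heckeRep_eq_intGL hℓ,
      iotaG_eq_intGL, intGL_mul, intGL_mul, intGL_mul]
    congr 1
    rw [coe_translG]
    ext i j
    fin_cases i <;> fin_cases j <;>
      simp [Matrix.mul_apply, Fin.sum_univ_two, -ZMod.natCast_val]
    linear_combination hs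

/-- **DEG-2 (e)** for `res_δ`. -/
theorem resAllD_heckeHomAll (hℓN : ¬ ℓ ∣ N) (hℓNq : ¬ ℓ ∣ N * q) (A : Type*) [AddCommGroup A]
    (c : Additive (Gamma0 N) →+ A) :
    resAllD N q A (heckeHomAll hℓN A c) = heckeHomAll hℓNq A (resAllD N q A c) := by
  have hℓq : ¬ ℓ ∣ q := fun h => hℓNq (Dvd.dvd.mul_left h N)
  have h1 := (resDW_realizes N q).comp (heckeW_realizes hℓN)
  have h2 := (heckeW_realizes hℓNq).comp (resDW_realizes N q)
  have hd : CosetsDistinct (iotaG N)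
      (fun ji : OnePoint (ZMod ℓ) × Unit => heckeRep ℓ ji.1 * heckeRep q OnePoint.infty) := by
    rintro ⟨x, _⟩ ⟨x', _⟩ n h
    have h' : heckeRep ℓ x * heckeRep q OnePoint.infty =
        iotaG N n * (heckeRep ℓ x' * heckeRep q OnePoint.infty) := h
    rw [← mul_assoc] at h'
    have : x = x' := heckeRep_cosetsDistinct N x x' n (mul_right_cancel h')
    rw [this]
  choose τ hτ using fun x : OnePoint (ZMod ℓ) => exists_delta_heckeRep (q := q) N x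
  have hbij : Function.Bijective
      (fun ji : Unit × OnePoint (ZMod ℓ) => ((mulQ q ℓ ji.2, ()) : OnePoint (ZMod ℓ) × Unit)) := by
    rw [Fintype.bijective_iff_injective_and_card]
    refine ⟨?_, by rw [Fintype.card_prod, Fintype.card_prod, mul_comm]⟩
    rintro ⟨_, x⟩ ⟨_, x'⟩ h
    simp only [Prod.mk.injEq, and_true] at h
    rw [mulQ_injective hℓq h]
  have h3 := WreathHom.op_eq_of_realizes h1 h2 (iotaG_injective N) hd
    (Equiv.ofBijective _ hbij) (fun ji => τ ji.2)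
    (fun ji => hτ ji.2) A
  rw [WreathHom.op_comp, WreathHom.op_comp, heckeW_op, heckeW_op, resDW_op] at h3
  exact (congrFun (congrArg DFunLike.coe h3) c).symm

end ResD

section Cores

variable [NeZero q] [Fact q.Prime]

/-- **DEG-2 (e)** for `cores`, at the level of wreath homs. -/
theorem coresW_op_comm (hqN : ¬ q ∣ N) (hℓN : ¬ ℓ ∣ N) (hℓNq : ¬ ℓ ∣ N * q) (A : Type*)
    [AddCommGroup A] :
    ((coresW Fact.out hqN).op A).comp (heckeHomAll hℓNq A) =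
      (heckeHomAll hℓN A).comp ((coresW Fact.out hqN).op A) := by
  have hq : q.Prime := Fact.out
  have hℓ0 : ℓ ≠ 0 := (Fact.out : ℓ.Prime).ne_zero
  have hqℓ : q ≠ ℓ := by
    rintro rfl
    exact hℓNq (Dvd.intro_left _ rfl)
  rw [← heckeW_op, ← heckeW_op]
  refine WreathHom.op_comm_of_transfer (iotaG_injective N) (Subgroup.inclusion_injective _)
    (coresW_realizes hq hqN) (distinct_incl hq hqN) (cover_incl hq hqN)
    (heckeW_realizes hℓN) (heckeRep_cosetsDistinct N)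
    (H' := heckeW hℓNq) (α' := heckeRep ℓ) (heckeW_realizes hℓNq)
    (heckeRep_cosetsDistinct (N * q)) (fun x => ⟨x, 1, by simp⟩) ?_ rfl A
  intro x x'' g n h
  have h' : heckeRep ℓ x * iotaG N g = iotaG (N * q) n * heckeRep ℓ x'' := h
  rw [heckeRep_eq_intGL hℓ0, heckeRep_eq_intGL hℓ0, iotaG_eq_intGL, iotaG_eq_intGL,
    intGL_mul_eq_mul_iff] at h'
  have hdvd := heckeInt_lowerLeft _ _ x x'' h' hq hqℓ (q_dvd_of_Gamma0_mul n)
  exact ⟨⟨(g : SL(2, ℤ)), mem_Gamma0_mul hq hqN (Gamma0_dvd g) hdvd⟩, Subtype.ext rfl⟩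

/-- **DEG-2 (e)** for `cores`. -/
theorem coresAll_heckeHomAll (hqN : ¬ q ∣ N) (hℓN : ¬ ℓ ∣ N) (hℓNq : ¬ ℓ ∣ N * q) (A : Type*)
    [AddCommGroup A] (c : Additive (Gamma0 (N * q)) →+ A) :
    coresAll N q A (heckeHomAll hℓNq A c) = heckeHomAll hℓN A (coresAll N q A c) := by
  rw [coresAll_eq_op Fact.out hqN, coresAll_eq_op Fact.out hqN]
  exact congrFun (congrArg DFunLike.coe (coresW_op_comm hqN hℓN hℓNq A)) c

end Cores

section CoresD

variable [NeZero q]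

/-- Conjugation by `δ = diag(q, 1)` on `GL₂(ℝ)`. -/
def conjDelta (q : ℕ) : GL (Fin 2) ℝ →* GL (Fin 2) ℝ :=
  (MulAut.conj (heckeRep q OnePoint.infty)).toMonoidHom

omit [NeZero q] in
theorem conjDelta_apply (g : GL (Fin 2) ℝ) :
    conjDelta q g = heckeRep q OnePoint.infty * g * (heckeRep q OnePoint.infty)⁻¹ := rfl

theorem delta_mul_iotaG (γ : Gamma0 (N * q)) :
    heckeRep q OnePoint.infty * iotaG (N * q) γ =
      iotaG N (inclD N q γ) * heckeRep q OnePoint.infty :=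
  resDW_realizes N q γ ()

theorem conjDelta_comp_iotaG :
    (conjDelta q).comp (iotaG (N * q)) = (iotaG N).comp (inclD N q) := by
  refine MonoidHom.ext fun γ => ?_
  show heckeRep q OnePoint.infty * iotaG (N * q) γ * (heckeRep q OnePoint.infty)⁻¹ =
    iotaG N (inclD N q γ)
  rw [delta_mul_iotaG, mul_inv_cancel_right]

/-- The scalar matrix `q` in `GL₂(ℝ)`. -/
def scalarQ (q : ℕ) [NeZero q] : GL (Fin 2) ℝ :=
  intGL !![(q : ℤ), 0; 0, (q : ℤ)] (by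
    rw [Matrix.det_fin_two_of]
    simpa using NeZero.ne q)

theorem alpha_zero_mul_delta :
    heckeRep q ((0 : ZMod q) : OnePoint (ZMod q)) * heckeRep q OnePoint.infty = scalarQ q := by
  have hq : q ≠ 0 := NeZero.ne q
  rw [heckeRep_eq_intGL hq, heckeRep_eq_intGL hq, scalarQ, intGL_mul]
  congr 1
  ext i j
  fin_cases i <;> fin_cases j <;> simp [Matrix.mul_apply, Fin.sum_univ_two]

theorem scalarQ_comm (g : GL (Fin 2) ℝ) : scalarQ q * g = g * scalarQ q := by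
  apply Units.ext
  ext i j
  fin_cases i <;> fin_cases j <;>
    simp [scalarQ, Matrix.mul_apply, Fin.sum_univ_two, mul_comm]

variable [Fact q.Prime]

/-- The key divisibility for `cores_δ`. -/
theorem q_dvd_of_conjDelta (hℓq : q ≠ ℓ) (x x'' : OnePoint (ZMod ℓ)) (g : Gamma0 N)
    (n : Gamma0 (N * q))
    (h : conjDelta q (heckeRep ℓ x) * iotaG N g =
      iotaG N (inclD N q n) * conjDelta q (heckeRep ℓ x'')) :
    (q : ℤ) ∣ (g : SL(2, ℤ)) 0 1 := by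
  have hq : q.Prime := Fact.out
  have hq0 : q ≠ 0 := hq.ne_zero
  have hℓ0 : ℓ ≠ 0 := (Fact.out : ℓ.Prime).ne_zero
  set δ := heckeRep q OnePoint.infty with hδ
  set A₀ := heckeRep q ((0 : ZMod q) : OnePoint (ZMod q)) with hA₀
  have hZ : A₀ * δ = scalarQ q := alpha_zero_mul_delta
  have key : heckeRep ℓ x * A₀ * iotaG N g * δ =
      scalarQ q * (iotaG (N * q) n * heckeRep ℓ x'') := by
    have hA : A₀ = scalarQ q * δ⁻¹ := by rw [← hZ, mul_inv_cancel_right]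
    have h1 : δ * heckeRep ℓ x * δ⁻¹ * iotaG N g =
        iotaG N (inclD N q n) * (δ * heckeRep ℓ x'' * δ⁻¹) := h
    have h2 : iotaG N (inclD N q n) * δ = δ * iotaG (N * q) n := (delta_mul_iotaG n).symm
    calc heckeRep ℓ x * A₀ * iotaG N g * δ
        = heckeRep ℓ x * scalarQ q * δ⁻¹ * iotaG N g * δ := by rw [hA]; group
      _ = scalarQ q * (δ⁻¹ * (δ * heckeRep ℓ x * δ⁻¹ * iotaG N g) * δ) := by
          rw [← scalarQ_comm (heckeRep ℓ x)]; group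
      _ = scalarQ q * (δ⁻¹ * (iotaG N (inclD N q n) * δ) * heckeRep ℓ x'') := by
          rw [h1]; group
      _ = scalarQ q * (iotaG (N * q) n * heckeRep ℓ x'') := by
          rw [h2]; group
  rw [hδ, hA₀, heckeRep_eq_intGL hℓ0, heckeRep_eq_intGL hℓ0, heckeRep_eq_intGL hq0,
    heckeRep_eq_intGL hq0, iotaG_eq_intGL, iotaG_eq_intGL, scalarQ, intGL_mul, intGL_mul,
    intGL_mul, intGL_mul, intGL_mul] at key
  have key2 := intGL_injective _ _ key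
  have e01 := congrFun (congrFun key2 0) 1
  simp only [Matrix.mul_apply, Fin.sum_univ_two] at e01
  have hqp : Prime (q : ℤ) := Nat.prime_iff_prime_int.mp hq
  have hqℓ' : ¬ (q : ℤ) ∣ (ℓ : ℤ) := by
    intro h1
    have h2 : q ∣ ℓ := by exact_mod_cast h1
    exact hℓq ((Nat.prime_dvd_prime_iff_eq hq Fact.out).mp h2)
  induction x using OnePoint.rec with
  | infty =>
    simp at e01
    have h1 : (q : ℤ) ∣ (ℓ : ℤ) * (g : SL(2, ℤ)) 0 1 := ⟨_, e01⟩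
    exact (hqp.dvd_or_dvd h1).resolve_left hqℓ'
  | coe k =>
    simp [-ZMod.natCast_val] at e01
    exact ⟨_, eq_sub_of_add_eq e01 |>.trans (by
      rw [mul_assoc, mul_comm (k.val : ℤ), mul_assoc, ← mul_sub])⟩

/-- **DEG-2 (e)** for `cores_δ`, at the level of wreath homs. -/
theorem coresDW_op_comm (hqN : ¬ q ∣ N) (hℓN : ¬ ℓ ∣ N) (hℓNq : ¬ ℓ ∣ N * q) (A : Type*)
    [AddCommGroup A] :
    ((coresDW Fact.out hqN).op A).comp (heckeHomAll hℓNq A) =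
      (heckeHomAll hℓN A).comp ((coresDW Fact.out hqN).op A) := by
  have hq : q.Prime := Fact.out
  have hqℓ : q ≠ ℓ := by
    rintro rfl
    exact hℓNq (Dvd.intro_left _ rfl)
  rw [← heckeW_op, ← heckeW_op]
  have hH' : (heckeW hℓNq).Realizes ((iotaG N).comp (inclD N q)) ((iotaG N).comp (inclD N q))
      (fun x => conjDelta q (heckeRep ℓ x)) := by
    have := (heckeW_realizes hℓNq).map (conjDelta q)
    rwa [conjDelta_comp_iotaG] at this
  have hα' : CosetsDistinct ((iotaG N).comp (inclD N q))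
      (fun x : OnePoint (ZMod ℓ) => conjDelta q (heckeRep ℓ x)) := by
    intro x x' n h
    have h1 : conjDelta q (heckeRep ℓ x) =
        ((iotaG N).comp (inclD N q)) n * conjDelta q (heckeRep ℓ x') := h
    rw [← conjDelta_comp_iotaG, MonoidHom.comp_apply, ← map_mul] at h1
    have h2 := (MulAut.conj (heckeRep q OnePoint.infty)).injective h1
    exact heckeRep_cosetsDistinct (N * q) x x' n h2
  refine WreathHom.op_comm_of_transfer (iotaG_injective N) (inclD_injective N q)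
    (coresDW_realizes hq hqN) (distinct_inclD hq hqN) (cover_inclD hq hqN)
    (heckeW_realizes hℓN) (heckeRep_cosetsDistinct N)
    (H' := heckeW hℓNq) hH' hα' ?_ ?_ rfl A
  · intro x
    obtain ⟨τ, hτ⟩ := exists_delta_heckeRep (q := q) N x
    refine ⟨mulQ q ℓ x, τ, ?_⟩
    show heckeRep q OnePoint.infty * heckeRep ℓ x * (heckeRep q OnePoint.infty)⁻¹ = _
    rw [hτ, ← mul_assoc, mul_inv_cancel_right]
  · intro x x'' g n h
    exact exists_inclD_eq g (q_dvd_of_conjDelta hqℓ x x'' g n h) |>.imp fun m hm => hm.symm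

/-- **DEG-2 (e)** for `cores_δ`. -/
theorem coresAllD_heckeHomAll (hqN : ¬ q ∣ N) (hℓN : ¬ ℓ ∣ N) (hℓNq : ¬ ℓ ∣ N * q) (A : Type*)
    [AddCommGroup A] (c : Additive (Gamma0 (N * q)) →+ A) :
    coresAllD N q A (heckeHomAll hℓNq A c) = heckeHomAll hℓN A (coresAllD N q A c) := by
  rw [coresAllD_eq_op Fact.out hqN, coresAllD_eq_op Fact.out hqN]
  exact congrFun (congrArg DFunLike.coe (coresDW_op_comm hqN hℓN hℓNq A)) c

end CoresD

end Fermat.Agent.LDeg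
end
end MergeWrap_L_Degen_HeckeComm

section MergeWrap_L_Degen_Main -- from L/Degen/Main.lean

set_option autoImplicit false

noncomputable section

namespace Fermat.Agent.LDeg

open CongruenceSubgroup Matrix.SpecialLinearGroup ModularCurve.Period
open Fermat.Agent.F3EC Fermat.Agent.L
open scoped MatrixGroups

variable (N q : ℕ) [NeZero q]

/-- **WP DEG.** The degeneracy maps on `Hom_par`: `β α = [[q + 1, T_q], [T_q, q + 1]]`, and
`α`, `β` commute with `T_ℓ`, `ℓ ∤ N q`. -/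
theorem degStatement : L.DegStatement N q := by
  intro hq hqN
  have : Fact q.Prime := ⟨hq⟩
  have hNℓ : ∀ ℓ : Nat.Primes, ¬ (ℓ : ℕ) ∣ N * q → ¬ (ℓ : ℕ) ∣ N :=
    fun ℓ h h' => h (Dvd.dvd.mul_right h' q)
  refine ⟨coresPar N q, coresParD N q, isCoresPair N q, coresPar_resPar_eq hq hqN,
    coresParD_resParD_eq hq hqN, ?_, ?_, ?_, ?_, ?_, ?_⟩
  · intro c
    apply Subtype.ext
    rw [coresPar_coe, heckeHom_coe ⟨q, hq⟩ hqN]
    exact coresAll_resAllD hqN ℤ c.1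
  · intro c
    apply Subtype.ext
    rw [coresParD_coe, heckeHom_coe ⟨q, hq⟩ hqN]
    exact coresAllD_resAll hqN ℤ c.1
  · intro ℓ hℓ c
    have : Fact (ℓ : ℕ).Prime := ⟨ℓ.2⟩
    apply Subtype.ext
    rw [heckeHom_coe ℓ hℓ]
    show resAll N q ℤ ((heckeHom N ℓ c : HomPar N) : Additive (Gamma0 N) →+ ℤ) = _
    rw [heckeHom_coe ℓ (hNℓ ℓ hℓ)]
    exact resAll_heckeHomAll (hNℓ ℓ hℓ) hℓ ℤ c.1
  · intro ℓ hℓ c
    have : Fact (ℓ : ℕ).Prime := ⟨ℓ.2⟩
    apply Subtype.ext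
    rw [heckeHom_coe ℓ hℓ]
    show resAllD N q ℤ ((heckeHom N ℓ c : HomPar N) : Additive (Gamma0 N) →+ ℤ) = _
    rw [heckeHom_coe ℓ (hNℓ ℓ hℓ)]
    exact resAllD_heckeHomAll (hNℓ ℓ hℓ) hℓ ℤ c.1
  · intro ℓ hℓ c
    have : Fact (ℓ : ℕ).Prime := ⟨ℓ.2⟩
    apply Subtype.ext
    rw [coresPar_coe, heckeHom_coe ℓ hℓ, heckeHom_coe ℓ (hNℓ ℓ hℓ), coresPar_coe]
    exact coresAll_heckeHomAll hqN (hNℓ ℓ hℓ) hℓ ℤ c.1
  · intro ℓ hℓ c
    have : Fact (ℓ : ℕ).Prime := ⟨ℓ.2⟩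
    apply Subtype.ext
    rw [coresParD_coe, heckeHom_coe ℓ hℓ, heckeHom_coe ℓ (hNℓ ℓ hℓ), coresParD_coe]
    exact coresAllD_heckeHomAll hqN (hNℓ ℓ hℓ) hℓ ℤ c.1

end Fermat.Agent.LDeg
end
end MergeWrap_L_Degen_Main

section MergeWrap_F3_EigenChar_Deg -- from F3/EigenChar/Deg.lean

set_option autoImplicit false

noncomputable section

namespace Fermat.Agent.LDeg

open CongruenceSubgroup Matrix.SpecialLinearGroup ModularCurve.Period
open Fermat.Agent.F3EC Fermat.Agent.L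
open scoped MatrixGroups

variable {N q : ℕ} [NeZero q]

/-- The transfer `HomPar (N q) → HomPar N` commutes with `T_ℓ`, `ℓ ∤ N q`. -/
theorem coresPar_heckeHom (hq : q.Prime) (hqN : ¬ q ∣ N) (ℓ : Nat.Primes)
    (hℓ : ¬ (ℓ : ℕ) ∣ N * q) (c : HomPar (N * q)) :
    coresPar N q (heckeHom (N * q) ℓ c) = heckeHom N ℓ (coresPar N q c) := by
  have : Fact q.Prime := ⟨hq⟩
  have : Fact (ℓ : ℕ).Prime := ⟨ℓ.2⟩
  have hℓN : ¬ (ℓ : ℕ) ∣ N := fun h' => hℓ (Dvd.dvd.mul_right h' q)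
  apply Subtype.ext
  rw [coresPar_coe, heckeHom_coe ℓ hℓ, heckeHom_coe ℓ hℓN, coresPar_coe]
  exact coresAll_heckeHomAll hqN hℓN hℓ ℤ c.1

/-- The twisted transfer `HomPar (N q) → HomPar N` commutes with `T_ℓ`, `ℓ ∤ N q`. -/
theorem coresParD_heckeHom (hq : q.Prime) (hqN : ¬ q ∣ N) (ℓ : Nat.Primes)
    (hℓ : ¬ (ℓ : ℕ) ∣ N * q) (c : HomPar (N * q)) :
    coresParD N q (heckeHom (N * q) ℓ c) = heckeHom N ℓ (coresParD N q c) := by
  have : Fact q.Prime := ⟨hq⟩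
  have : Fact (ℓ : ℕ).Prime := ⟨ℓ.2⟩
  have hℓN : ¬ (ℓ : ℕ) ∣ N := fun h' => hℓ (Dvd.dvd.mul_right h' q)
  apply Subtype.ext
  rw [coresParD_coe, heckeHom_coe ℓ hℓ, heckeHom_coe ℓ hℓN, coresParD_coe]
  exact coresAllD_heckeHomAll hqN hℓN hℓ ℤ c.1

omit [NeZero q] in
/-- The restriction `HomPar N → HomPar (N q)` commutes with `T_ℓ`, `ℓ ∤ N q`. -/
theorem resPar_heckeHom (ℓ : Nat.Primes) (hℓ : ¬ (ℓ : ℕ) ∣ N * q) (c : HomPar N) :
    resPar N q (heckeHom N ℓ c) = heckeHom (N * q) ℓ (resPar N q c) := by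
  have : Fact (ℓ : ℕ).Prime := ⟨ℓ.2⟩
  have hℓN : ¬ (ℓ : ℕ) ∣ N := fun h' => hℓ (Dvd.dvd.mul_right h' q)
  apply Subtype.ext
  rw [heckeHom_coe ℓ hℓ]
  show resAll N q ℤ ((heckeHom N ℓ c : HomPar N) : Additive (Gamma0 N) →+ ℤ) = _
  rw [heckeHom_coe ℓ hℓN]
  exact resAll_heckeHomAll hℓN hℓ ℤ c.1

/-- The twisted restriction `HomPar N → HomPar (N q)` commutes with `T_ℓ`, `ℓ ∤ N q`. -/
theorem resParD_heckeHom (ℓ : Nat.Primes) (hℓ : ¬ (ℓ : ℕ) ∣ N * q) (c : HomPar N) :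
    resParD N q (heckeHom N ℓ c) = heckeHom (N * q) ℓ (resParD N q c) := by
  have : Fact (ℓ : ℕ).Prime := ⟨ℓ.2⟩
  have hℓN : ¬ (ℓ : ℕ) ∣ N := fun h' => hℓ (Dvd.dvd.mul_right h' q)
  apply Subtype.ext
  rw [heckeHom_coe ℓ hℓ]
  show resAllD N q ℤ ((heckeHom N ℓ c : HomPar N) : Additive (Gamma0 N) →+ ℤ) = _
  rw [heckeHom_coe ℓ hℓN]
  exact resAllD_heckeHomAll hℓN hℓ ℤ c.1

/-- `tr ∘ res_δ = T_q`. -/
theorem coresPar_resParD_eq (hq : q.Prime) (hqN : ¬ q ∣ N) (c : HomPar N) :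
    coresPar N q (resParD N q c) = heckeHom N ⟨q, hq⟩ c := by
  have : Fact q.Prime := ⟨hq⟩
  apply Subtype.ext
  rw [coresPar_coe, heckeHom_coe ⟨q, hq⟩ hqN]
  exact coresAll_resAllD hqN ℤ c.1

/-- `tr_δ ∘ res = T_q`. -/
theorem coresParD_resPar_eq (hq : q.Prime) (hqN : ¬ q ∣ N) (c : HomPar N) :
    coresParD N q (resPar N q c) = heckeHom N ⟨q, hq⟩ c := by
  have : Fact q.Prime := ⟨hq⟩
  apply Subtype.ext
  rw [coresParD_coe, heckeHom_coe ⟨q, hq⟩ hqN]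
  exact coresAllD_resAll hqN ℤ c.1

end Fermat.Agent.LDeg
end
end MergeWrap_F3_EigenChar_Deg

section MergeWrap_L_NewC_Eigen -- from L/NewC/Eigen.lean

set_option autoImplicit false

noncomputable section

namespace Fermat.Agent.LNewC

open Module

variable {V : Type*} [AddCommGroup V] [Module ℂ V] {ι : Type*}

theorem exists_common_eigenvector_family [FiniteDimensional ℂ V] [Nontrivial V]
    (T : ι → Module.End ℂ V) (hcomm : ∀ i j, Commute (T i) (T j)) :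
    ∃ v : V, v ≠ 0 ∧ ∃ μ : ι → ℂ, ∀ i, T i v = μ i • v := by
  classical
  have hcomm' : ∀ x ∈ Set.range T, ∀ y ∈ Set.range T, x * y = y * x := by
    rintro _ ⟨i, rfl⟩ _ ⟨j, rfl⟩
    exact (hcomm i j).eq
  letI : CommRing (Algebra.adjoin ℤ (Set.range T)) := Algebra.adjoinCommRingOfComm ℤ hcomm'
  let ρ : Algebra.adjoin ℤ (Set.range T) →+* Module.End ℂ V :=
    (Algebra.adjoin ℤ (Set.range T)).val.toRingHom
  have hρ : ∀ t : Algebra.adjoin ℤ (Set.range T), ρ t = (t : Module.End ℂ V) := fun _ => rfl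
  haveI : Nontrivial (Algebra.adjoin ℤ (Set.range T)) := by
    refine ⟨⟨0, 1, fun h => ?_⟩⟩
    have h1 : ρ 0 = ρ 1 := congrArg ρ h
    rw [map_zero, map_one] at h1
    exact zero_ne_one h1
  obtain ⟨m₀, hm₀⟩ := Ideal.exists_maximal (Algebra.adjoin ℤ (Set.range T))
  haveI : m₀.IsPrime := hm₀.isPrime
  obtain ⟨v, hv, χ, hχ, -⟩ := Fermat.Agent.S49h91.exists_common_eigenvector_of_prime ρ m₀
    (fun t ht => by
      have : t = 0 := Subtype.ext (by rw [← hρ, ht]; rfl)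
      rw [this]
      exact m₀.zero_mem)
  refine ⟨v, hv, fun i => χ ⟨T i, Algebra.subset_adjoin ⟨i, rfl⟩⟩, fun i => ?_⟩
  exact hχ ⟨T i, Algebra.subset_adjoin ⟨i, rfl⟩⟩

/-- Common eigenvector in a nonzero stable subspace. -/
theorem exists_common_eigenvector_submodule [FiniteDimensional ℂ V]
    (T : ι → Module.End ℂ V) (hcomm : ∀ i j, Commute (T i) (T j))
    (X : Submodule ℂ V) (hX : ∀ i, ∀ v ∈ X, T i v ∈ X) (x₀ : V) (hx₀ : x₀ ∈ X) (hx₀' : x₀ ≠ 0) :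
    ∃ v : V, v ∈ X ∧ v ≠ 0 ∧ ∃ μ : ι → ℂ, ∀ i, T i v = μ i • v := by
  haveI : Nontrivial X := ⟨⟨⟨x₀, hx₀⟩, 0, fun h => hx₀' (congrArg Subtype.val h)⟩⟩
  obtain ⟨v, hv, μ, hμ⟩ := exists_common_eigenvector_family
    (fun i => (T i).restrict (hX i))
    (fun i j => LinearMap.ext fun v => Subtype.ext
      (show T i (T j (v : V)) = T j (T i (v : V)) from
        congrArg (fun S : Module.End ℂ V => S (v : V)) (hcomm i j).eq))
  exact ⟨(v : V), v.2, fun h => hv (Subtype.ext h), μ,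
    fun i => congrArg Subtype.val (hμ i)⟩

end Fermat.Agent.LNewC
end
end MergeWrap_L_NewC_Eigen

section MergeWrap_S35_NewVector -- from S35/NewVector.lean

set_option autoImplicit false
set_option linter.style.haveILetI false
set_option linter.unusedSectionVars false

noncomputable section

namespace Fermat.Agent.S35

open CongruenceSubgroup ModularFormClass ModularCurve.Period Fermat.Agent.F3EC Fermat.Agent.F3EP
open CuspForm
open scoped TensorProduct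

/-! ### every complex character of the Hecke algebra is the eigensystem of an eigenform -/

section Character

variable {N : ℕ} [NeZero N] {S : Set ℕ}

/-- A common eigenvector in `S₂(Γ₀(N))` of the `T_ℓ`, `ℓ ∉ S`, with the eigenvalues prescribed by a
character `Ψ` of the Hecke algebra. -/
theorem nv_exists_eigenvector_of_character (hNS : ∀ q : ℕ, q.Prime → q ∣ N → q ∈ S)
    (Ψ : heckeAlgebra N 2 S →+* ℂ) :
    ∃ w : CuspForm (Gamma0 N) 2, w ≠ 0 ∧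
      ∀ (ℓ : ℕ) (hℓ : ℓ.Prime) (hℓN : ¬ ℓ ∣ N) (hℓS : ℓ ∉ S),
        heckeTLin 2 hℓ hℓN w = Ψ (heckeAlgebra.T hℓ hℓN hℓS) • w := by
  obtain ⟨x, hx0, hx⟩ := exists_eigenvector_homPar' hNS Ψ
  set v : CuspForm (Gamma0 N) 2 × CuspForm (Gamma0 N) 2 := (periodEquiv N).symm x with hv
  have hv0 : v ≠ 0 := by
    intro h
    apply hx0
    have := congrArg (periodEquiv N) h
    rwa [hv, LinearEquiv.apply_symm_apply, map_zero] at this
  have hTv : ∀ (ℓ : ℕ) (hℓ : ℓ.Prime) (hℓN : ¬ ℓ ∣ N) (hℓS : ℓ ∉ S),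
      ((heckeTLin 2 hℓ hℓN).prodMap (heckeTLin 2 hℓ hℓN)) v =
        Ψ (heckeAlgebra.T hℓ hℓN hℓS) • v := by
    intro ℓ hℓ hℓN hℓS
    apply (periodEquiv N).injective
    have h1 := tauHom_apply N (heckeTLin 2 hℓ hℓN) x
    rw [← hv] at h1
    rw [← h1, tauHom_heckeTLin N (heckeInvolutionComm N) hℓ hℓN, hx ℓ hℓ hℓN hℓS, map_smul, hv,
      LinearEquiv.apply_symm_apply]
  by_cases h1 : v.1 = 0
  · refine ⟨v.2, fun h2 => hv0 (Prod.ext h1 h2), fun ℓ hℓ hℓN hℓS => ?_⟩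
    have := congrArg Prod.snd (hTv ℓ hℓ hℓN hℓS)
    simpa using this
  · refine ⟨v.1, h1, fun ℓ hℓ hℓN hℓS => ?_⟩
    have := congrArg Prod.fst (hTv ℓ hℓ hℓN hℓS)
    simpa using this

/-- The family of all Hecke operators of level `N`, indexed by the primes. -/
def nvHeckeFamily (N : ℕ) [NeZero N] (p : Nat.Primes) : Module.End ℂ (CuspForm (Gamma0 N) 2) :=
  if h : (p : ℕ) ∣ N then heckeULin 2 h else heckeTLin 2 p.2 h

theorem nvHeckeFamily_mem (p : Nat.Primes) :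
    nvHeckeFamily N p ∈ heckeGenerators N 2 (∅ : Set ℕ) := by
  unfold nvHeckeFamily
  split_ifs with h
  · exact heckeULin_mem_heckeGenerators p.2 h (Set.notMem_empty _)
  · exact heckeTLin_mem_heckeGenerators p.2 h (Set.notMem_empty _)

theorem nvHeckeFamily_commute (p p' : Nat.Primes) :
    Commute (nvHeckeFamily N p) (nvHeckeFamily N p') :=
  commute_of_mem_heckeGenerators (nvHeckeFamily_mem p) (nvHeckeFamily_mem p')

theorem nvHeckeFamily_commute_T (p : Nat.Primes) {ℓ : ℕ} (hℓ : ℓ.Prime) (hℓN : ¬ ℓ ∣ N) :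
    Commute (heckeTLin 2 hℓ hℓN) (nvHeckeFamily N p) :=
  commute_of_mem_heckeGenerators
    (heckeTLin_mem_heckeGenerators (S := (∅ : Set ℕ)) hℓ hℓN (Set.notMem_empty _))
    (nvHeckeFamily_mem p)

/-- **Every complex character of the Hecke algebra away from `S` (`S` containing the primes of the
level) is the eigensystem away from `S` of a normalised eigenform.** -/
theorem nv_exists_eigenform_of_character (hNS : ∀ q : ℕ, q.Prime → q ∣ N → q ∈ S)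
    (Ψ : heckeAlgebra N 2 S →+* ℂ) :
    ∃ g₀ : CuspForm (Gamma0 N) 2, g₀.IsNormalizedEigenform ∧
      ∀ (ℓ : ℕ) (hℓ : ℓ.Prime) (hℓN : ¬ ℓ ∣ N) (hℓS : ℓ ∉ S),
        qCoeff g₀ ℓ = Ψ (heckeAlgebra.T hℓ hℓN hℓS) := by
  classical
  haveI : FiniteDimensional ℂ (CuspForm (Gamma0 N) 2) :=
    Fermat.Agent.S23.finiteDimensional_cuspForm N 2
  obtain ⟨w, hw0, hw⟩ := nv_exists_eigenvector_of_character hNS Ψ
  -- the joint eigenspace
  let X : Submodule ℂ (CuspForm (Gamma0 N) 2) :=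
    { carrier := {u | ∀ (ℓ : ℕ) (hℓ : ℓ.Prime) (hℓN : ¬ ℓ ∣ N) (hℓS : ℓ ∉ S),
        heckeTLin 2 hℓ hℓN u = Ψ (heckeAlgebra.T hℓ hℓN hℓS) • u}
      add_mem' := by
        intro a b ha hb ℓ hℓ hℓN hℓS
        rw [map_add, ha ℓ hℓ hℓN hℓS, hb ℓ hℓ hℓN hℓS, smul_add]
      zero_mem' := by
        intro ℓ hℓ hℓN hℓS
        rw [map_zero, smul_zero]
      smul_mem' := by
        intro c a ha ℓ hℓ hℓN hℓS
        rw [map_smul, ha ℓ hℓ hℓN hℓS, smul_comm] }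
  have hXmem : ∀ u, u ∈ X ↔ ∀ (ℓ : ℕ) (hℓ : ℓ.Prime) (hℓN : ¬ ℓ ∣ N) (hℓS : ℓ ∉ S),
      heckeTLin 2 hℓ hℓN u = Ψ (heckeAlgebra.T hℓ hℓN hℓS) • u := fun u => Iff.rfl
  have hXstab : ∀ p : Nat.Primes, ∀ u ∈ X, nvHeckeFamily N p u ∈ X := by
    intro p u hu ℓ hℓ hℓN hℓS
    have hc := (nvHeckeFamily_commute_T (N := N) p hℓ hℓN).eq
    have h1 := congrArg (fun f : Module.End ℂ (CuspForm (Gamma0 N) 2) => f u) hc
    simp only [Module.End.mul_apply] at h1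
    rw [h1, hu ℓ hℓ hℓN hℓS, map_smul]
  obtain ⟨v, hvX, hv0, μ, hμ⟩ := Fermat.Agent.LNewC.exists_common_eigenvector_submodule
    (nvHeckeFamily N) nvHeckeFamily_commute X hXstab w ((hXmem w).mpr hw) hw0
  set θ : ℕ → ℂ := fun n => if h : n.Prime then μ ⟨n, h⟩ else 0 with hθ
  have hθp : ∀ (ℓ : ℕ) (hℓ : ℓ.Prime), θ ℓ = μ ⟨ℓ, hℓ⟩ := fun ℓ hℓ => by
    simp only [hθ, dif_pos hℓ]
  have hT : ∀ (ℓ : ℕ) (hℓ : ℓ.Prime) (hℓN : ¬ ℓ ∣ N), heckeTLin 2 hℓ hℓN v = θ ℓ • v := by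
    intro ℓ hℓ hℓN
    have h := hμ ⟨ℓ, hℓ⟩
    rw [hθp ℓ hℓ, ← h]
    simp only [nvHeckeFamily, dif_neg hℓN]
  have hU : ∀ (ℓ : ℕ) (_ : ℓ.Prime) (hℓN : ℓ ∣ N), heckeULin 2 hℓN v = θ ℓ • v := by
    intro ℓ hℓ hℓN
    have h := hμ ⟨ℓ, hℓ⟩
    rw [hθp ℓ hℓ, ← h]
    simp only [nvHeckeFamily, dif_pos hℓN]
  obtain ⟨g₀, hg₀, hgθ⟩ :=
    Fermat.Agent.S49h91.exists_normalizedEigenform_of_eigenvector v hv0 θ hT hU
  refine ⟨g₀, hg₀, fun ℓ hℓ hℓN hℓS => ?_⟩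
  rw [hgθ ℓ hℓ]
  have h1 := hT ℓ hℓ hℓN
  have h2 := (hXmem v).mp hvX ℓ hℓ hℓN hℓS
  rw [h1] at h2
  have h3 : (θ ℓ - Ψ (heckeAlgebra.T hℓ hℓN hℓS)) • v = 0 := by
    rw [sub_smul, h2, sub_self]
  rcases smul_eq_zero.mp h3 with h | h
  · exact sub_eq_zero.mp h
  · exact absurd h hv0

end Character

/-! ### from an eigenvector with coefficients in `O` to a complex character -/

section Eigen

/-- A ring homomorphism from a domain integral over `ℤ` to a domain of characteristic zero is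
injective. -/
theorem nv_injective_of_isIntegral {R₀ : Type*} [CommRing R₀] [IsDomain R₀]
    [Algebra.IsIntegral ℤ R₀] {O : Type*} [CommRing O] [IsDomain O] [CharZero O] (ι : R₀ →+* O) :
    Function.Injective ι := by
  rw [injective_iff_map_eq_zero]
  intro x hx
  by_contra hx0
  have hmem : x ∈ RingHom.ker ι := hx
  have h := Ideal.comap_ne_bot_of_integral_mem (R := ℤ) hx0 hmem
    (Algebra.IsIntegral.isIntegral x)
  apply h
  rw [eq_bot_iff]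
  intro n hn
  rw [Ideal.mem_comap, RingHom.mem_ker, eq_intCast, map_intCast] at hn
  rw [Ideal.mem_bot]
  exact_mod_cast hn

variable {N : ℕ} [NeZero N] {S : Set ℕ}

/-- The action of the Hecke algebra on `O ⊗ Hom_par`. -/
def nvRho (hNS : ∀ q : ℕ, q.Prime → q ∣ N → q ∈ S) (O : Type*) [CommRing O] :
    heckeAlgebra N 2 S →+* Module.End O (O ⊗[ℤ] HomPar N) :=
  (Module.End.baseChangeHom ℤ O (HomPar N)).toRingHom.comp (theta (heckeInvolutionComm N) hNS)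

theorem nvRho_apply (hNS : ∀ q : ℕ, q.Prime → q ∣ N → q ∈ S) (O : Type*) [CommRing O]
    (t : heckeAlgebra N 2 S) :
    nvRho hNS O t = (theta (heckeInvolutionComm N) hNS t).baseChange O := rfl

theorem nvRho_T (hNS : ∀ q : ℕ, q.Prime → q ∣ N → q ∈ S) (O : Type*) [CommRing O]
    {ℓ : ℕ} (hℓ : ℓ.Prime) (hℓN : ¬ ℓ ∣ N) (hℓS : ℓ ∉ S) :
    nvRho hNS O (heckeAlgebra.T hℓ hℓN hℓS) = (heckeHom N ⟨ℓ, hℓ⟩).baseChange O := by
  rw [nvRho_apply, theta_T]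

/-- Every element of the Hecke algebra acts on an eigenvector of the generators by a scalar coming
from `R₀`. -/
theorem nv_exists_scalar (hNS : ∀ q : ℕ, q.Prime → q ∣ N → q ∈ S)
    {O : Type*} [CommRing O] {R₀ : Type*} [CommRing R₀] (ι : R₀ →+* O) (r : ℕ → R₀)
    (y : O ⊗[ℤ] HomPar N)
    (hy : ∀ (ℓ : ℕ) (hℓ : ℓ.Prime), ¬ ℓ ∣ N → ℓ ∉ S →
      (heckeHom N ⟨ℓ, hℓ⟩).baseChange O y = ι (r ℓ) • y)
    (t : heckeAlgebra N 2 S) : ∃ s : R₀, nvRho hNS O t y = ι s • y := by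
  obtain ⟨t, ht⟩ := t
  induction ht using Algebra.adjoin_induction with
  | mem x hx =>
    rcases hx with ⟨ℓ, hℓ, hℓN, hℓS, rfl⟩ | ⟨q, hqN, hq, hqS, rfl⟩
    · refine ⟨r ℓ, ?_⟩
      have h := nvRho_T hNS O hℓ hℓN hℓS
      have h2 : (⟨heckeTLin 2 hℓ hℓN, Algebra.subset_adjoin
          (Or.inl ⟨ℓ, hℓ, hℓN, hℓS, rfl⟩)⟩ : heckeAlgebra N 2 S) =
          heckeAlgebra.T hℓ hℓN hℓS := rfl
      rw [h2, h]
      exact hy ℓ hℓ hℓN hℓS
    · exact absurd (hNS q hq hqN) hqS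
  | algebraMap n =>
    refine ⟨(n : R₀), ?_⟩
    have h2 : (⟨algebraMap ℤ (Module.End ℂ (CuspForm (Gamma0 N) 2)) n,
        Subalgebra.algebraMap_mem _ n⟩ : heckeAlgebra N 2 S) =
        ((n : ℤ) : heckeAlgebra N 2 S) := by
      apply Subtype.ext
      simp
    rw [h2, map_intCast, map_intCast]
    simp only [Module.End.intCast_apply]
    exact (Int.cast_smul_eq_zsmul O n y).symm
  | add a b ha hb iha ihb =>
    obtain ⟨sa, hsa⟩ := iha
    obtain ⟨sb, hsb⟩ := ihb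
    refine ⟨sa + sb, ?_⟩
    have h2 : (⟨a + b, add_mem ha hb⟩ : heckeAlgebra N 2 S) = ⟨a, ha⟩ + ⟨b, hb⟩ := rfl
    rw [h2, map_add, LinearMap.add_apply, hsa, hsb, map_add, add_smul]
  | mul a b ha hb iha ihb =>
    obtain ⟨sa, hsa⟩ := iha
    obtain ⟨sb, hsb⟩ := ihb
    refine ⟨sa * sb, ?_⟩
    have h2 : (⟨a * b, mul_mem ha hb⟩ : heckeAlgebra N 2 S) = ⟨a, ha⟩ * ⟨b, hb⟩ := rfl
    rw [h2, map_mul, Module.End.mul_apply, hsb, map_smul, hsa, smul_smul, map_mul, mul_comm]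

/-- **From an eigenvector to a complex character.**  A nonzero vector of `O ⊗ Hom_par(Γ₀(N), ℤ)`
on which the `T_ℓ`, `ℓ ∉ S`, act by `ι (r ℓ)`, `r ℓ` in a ring `R₀` embedded in `O` and mapping
to `ℂ`, gives a character of the Hecke algebra with `Ψ (T_ℓ) = r ℓ`. -/
theorem nv_exists_character_of_eigenvector (hNS : ∀ q : ℕ, q.Prime → q ∣ N → q ∈ S)
    {O : Type*} [CommRing O] [IsDomain O] {R₀ : Type*} [CommRing R₀] (ι : R₀ →+* O)
    (hι : Function.Injective ι) (emb : R₀ →+* ℂ) (r : ℕ → R₀)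
    (y : O ⊗[ℤ] HomPar N) (hy0 : y ≠ 0)
    (hy : ∀ (ℓ : ℕ) (hℓ : ℓ.Prime), ¬ ℓ ∣ N → ℓ ∉ S →
      (heckeHom N ⟨ℓ, hℓ⟩).baseChange O y = ι (r ℓ) • y) :
    ∃ Ψ : heckeAlgebra N 2 S →+* ℂ,
      ∀ (ℓ : ℕ) (hℓ : ℓ.Prime) (hℓN : ¬ ℓ ∣ N) (hℓS : ℓ ∉ S),
        Ψ (heckeAlgebra.T hℓ hℓN hℓS) = emb (r ℓ) := by
  classical
  have huniq : ∀ s s' : R₀, ι s • y = ι s' • y → s = s' := by
    intro s s' h
    have h1 : (ι s - ι s') • y = 0 := by rw [sub_smul, h, sub_self]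
    rcases smul_eq_zero.mp h1 with h2 | h2
    · exact hι (sub_eq_zero.mp h2)
    · exact absurd h2 hy0
  choose Φ hΦ using nv_exists_scalar hNS ι r y hy
  have hone : Φ 1 = 1 := by
    apply huniq
    rw [← hΦ, map_one, Module.End.one_apply, map_one, one_smul]
  have hmul : ∀ a b, Φ (a * b) = Φ a * Φ b := by
    intro a b
    apply huniq
    rw [← hΦ, map_mul, Module.End.mul_apply, hΦ b, map_smul, hΦ a, smul_smul, map_mul, mul_comm]
  have hzero : Φ 0 = 0 := by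
    apply huniq
    rw [← hΦ, map_zero, LinearMap.zero_apply, map_zero, zero_smul]
  have hadd : ∀ a b, Φ (a + b) = Φ a + Φ b := by
    intro a b
    apply huniq
    rw [← hΦ, map_add, LinearMap.add_apply, hΦ a, hΦ b, map_add, add_smul]
  let Φr : heckeAlgebra N 2 S →+* R₀ :=
    { toFun := Φ, map_one' := hone, map_mul' := hmul, map_zero' := hzero, map_add' := hadd }
  refine ⟨emb.comp Φr, ?_⟩
  intro ℓ hℓ hℓN hℓS
  show emb (Φ (heckeAlgebra.T hℓ hℓN hℓS)) = emb (r ℓ)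
  congr 1
  apply huniq
  rw [← hΦ, nvRho_T hNS O hℓ hℓN hℓS]
  exact hy ℓ hℓ hℓN hℓS

end Eigen

/-! ### WP C -/

/-- The form of (weak) strong multiplicity one consumed by WP C (WP S, helper68). -/
def WeakSMOAt (N q : ℕ) : Prop :=
  ∀ (g : CuspForm (Gamma0 (N * q)) 2) (g₀ : CuspForm (Gamma0 N) 2) (S : Finset ℕ),
    g.IsNormalizedEigenform → g₀.IsNormalizedEigenform →
    (∀ ℓ : ℕ, ℓ.Prime → ℓ ∉ S → qCoeff g₀ ℓ = qCoeff g ℓ) →
    ∀ ℓ : ℕ, ℓ.Prime → ¬ ℓ ∣ N * q → qCoeff g₀ ℓ = qCoeff g ℓ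

/-- The key step of WP C for an abstract Hecke-equivariant map `τ` from level `N q` to level `N`. -/
theorem nv_baseChange_eq_zero (N q : ℕ) [NeZero N] [NeZero q] (hq : q.Prime)
    (hSMO : WeakSMOAt N q)
    (g : CuspForm (Gamma0 (N * q)) 2) (hg : g.IsNewform)
    (S : Finset ℕ) (hS : ∀ r : ℕ, r.Prime → r ∣ N * q → r ∈ S)
    (O : Type) [CommRing O] [IsDomain O] [CharZero O]
    (chig : CuspForm.heckeAlgebra (N * q) 2 (↑S : Set ℕ) →+* ℂ)
    (hchig : ∀ (ℓ : ℕ) (hℓ : ℓ.Prime) (hℓM : ¬ ℓ ∣ N * q) (hℓS : ℓ ∉ (↑S : Set ℕ)),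
      chig (CuspForm.heckeAlgebra.T hℓ hℓM hℓS) = ModularFormClass.qCoeff g ℓ)
    (iota : chig.range →+* O) (x : O ⊗[ℤ] HomPar (N * q))
    (hx : ∀ (ℓ : ℕ) (hℓ : ℓ.Prime) (hℓM : ¬ ℓ ∣ N * q) (hℓS : ℓ ∉ (↑S : Set ℕ)),
      (heckeHom (N * q) ⟨ℓ, hℓ⟩).baseChange O x =
        (iota.comp chig.rangeRestrict) (CuspForm.heckeAlgebra.T hℓ hℓM hℓS) • x)
    (τ : HomPar (N * q) →ₗ[ℤ] HomPar N)
    (hτ : ∀ (ℓ : Nat.Primes), ¬ (ℓ : ℕ) ∣ N * q → ∀ c : HomPar (N * q),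
      τ (heckeHom (N * q) ℓ c) = heckeHom N ℓ (τ c)) :
    τ.baseChange O x = 0 := by
  classical
  by_contra hy0
  set y := τ.baseChange O x with hy
  -- integrality and injectivity of `iota`
  haveI : Module.Finite ℤ (heckeAlgebra (N * q) 2 (↑S : Set ℕ)) :=
    Fermat.Agent.S22.result (N * q) 2 ↑S
  haveI : Algebra.IsIntegral ℤ chig.range := by
    refine ⟨fun z => ?_⟩
    obtain ⟨t, rfl⟩ := chig.rangeRestrict_surjective z
    exact (Algebra.IsIntegral.isIntegral (R := ℤ) t).map chig.rangeRestrict.toIntAlgHom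
  have hι : Function.Injective iota := nv_injective_of_isIntegral iota
  have hNS : ∀ r : ℕ, r.Prime → r ∣ N → r ∈ (↑S : Set ℕ) := fun r hr hrN =>
    Finset.mem_coe.mpr (hS r hr (Dvd.dvd.mul_right hrN q))
  have hnd : ∀ ℓ : ℕ, ℓ.Prime → ℓ ∉ (↑S : Set ℕ) → ¬ ℓ ∣ N * q := fun ℓ hℓ hℓS h =>
    hℓS (Finset.mem_coe.mpr (hS ℓ hℓ h))
  set r : ℕ → chig.range := fun ℓ =>
    if h : ℓ.Prime ∧ ¬ ℓ ∣ N * q ∧ ℓ ∉ (↑S : Set ℕ) then
      chig.rangeRestrict (heckeAlgebra.T h.1 h.2.1 h.2.2) else 0 with hr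
  have hrℓ : ∀ (ℓ : ℕ) (hℓ : ℓ.Prime) (hℓM : ¬ ℓ ∣ N * q) (hℓS : ℓ ∉ (↑S : Set ℕ)),
      r ℓ = chig.rangeRestrict (heckeAlgebra.T hℓ hℓM hℓS) := fun ℓ hℓ hℓM hℓS => by
    simp only [hr, dif_pos (show ℓ.Prime ∧ ¬ ℓ ∣ N * q ∧ ℓ ∉ (↑S : Set ℕ) from ⟨hℓ, hℓM, hℓS⟩)]
  have hyeig : ∀ (ℓ : ℕ) (hℓ : ℓ.Prime), ¬ ℓ ∣ N → ℓ ∉ (↑S : Set ℕ) →
      (heckeHom N ⟨ℓ, hℓ⟩).baseChange O y = iota (r ℓ) • y := by
    intro ℓ hℓ _ hℓS
    have hℓM := hnd ℓ hℓ hℓS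
    have hcomm : (heckeHom N ⟨ℓ, hℓ⟩).baseChange O ∘ₗ τ.baseChange O =
        τ.baseChange O ∘ₗ (heckeHom (N * q) ⟨ℓ, hℓ⟩).baseChange O := by
      rw [← LinearMap.baseChange_comp, ← LinearMap.baseChange_comp]
      congr 1
      refine LinearMap.ext fun c => ?_
      rw [LinearMap.comp_apply, LinearMap.comp_apply]
      exact (hτ ⟨ℓ, hℓ⟩ hℓM c).symm
    have h1 := congrArg (fun f => f x) hcomm
    simp only [LinearMap.comp_apply] at h1
    rw [hy, h1, hx ℓ hℓ hℓM hℓS, map_smul, hrℓ ℓ hℓ hℓM hℓS]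
    rfl
  obtain ⟨Ψ, hΨ⟩ := nv_exists_character_of_eigenvector hNS iota hι chig.range.subtype r y hy0 hyeig
  obtain ⟨g₀, hg₀, hg₀Ψ⟩ := nv_exists_eigenform_of_character hNS Ψ
  have hagree : ∀ ℓ : ℕ, ℓ.Prime → ℓ ∉ S → qCoeff g₀ ℓ = qCoeff g ℓ := by
    intro ℓ hℓ hℓS
    have hℓS' : ℓ ∉ (↑S : Set ℕ) := fun h => hℓS (Finset.mem_coe.mp h)
    have hℓM := hnd ℓ hℓ hℓS'
    have hℓN : ¬ ℓ ∣ N := fun h => hℓM (Dvd.dvd.mul_right h q)
    rw [hg₀Ψ ℓ hℓ hℓN hℓS', hΨ ℓ hℓ hℓN hℓS', hrℓ ℓ hℓ hℓM hℓS', ← hchig ℓ hℓ hℓM hℓS']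
    rfl
  have hall := hSMO g g₀ S hg.1 hg₀ hagree
  have hNne : N ≠ N * q := by
    intro h
    have hN0 : N ≠ 0 := NeZero.ne N
    have h1 : N * 1 = N * q := by rw [mul_one]; exact h
    have := Nat.eq_of_mul_eq_mul_left (Nat.pos_of_ne_zero hN0) h1
    exact hq.one_lt.ne this
  exact hg.2 N (dvd_mul_right N q) hNne ⟨g₀, hg₀, hall⟩

/-- **WP C**: `NewVectorAt N q` from (weak) strong multiplicity one. -/
theorem newVectorAt (N q : ℕ) [NeZero N] [NeZero q] (hq : q.Prime) (hqN : ¬ q ∣ N)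
    (hSMO : WeakSMOAt N q) : NewVectorAt N q := by
  intro g hg S hS O _ _ _ chig hchig iota x hx
  exact ⟨nv_baseChange_eq_zero N q hq hSMO g hg S hS O chig hchig iota x hx _
      (fun ℓ hℓ c => Fermat.Agent.LDeg.coresPar_heckeHom hq hqN ℓ hℓ c),
    nv_baseChange_eq_zero N q hq hSMO g hg S hS O chig hchig iota x hx _
      (fun ℓ hℓ c => Fermat.Agent.LDeg.coresParD_heckeHom hq hqN ℓ hℓ c)⟩

end Fermat.Agent.S35
end
end MergeWrap_S35_NewVector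

section MergeWrap_S33_PNew -- from S33/PNew.lean

set_option autoImplicit false
set_option linter.style.haveILetI false
set_option linter.unusedSectionVars false
set_option linter.unusedVariables false

noncomputable section

namespace Fermat.Agent.S33

open CongruenceSubgroup ModularFormClass ModularCurve ModularCurve.Period AlgebraicCurve
open Fermat.Agent.F3EC Fermat.Agent.F3EP Fermat.Agent.F3 Fermat.Agent.F3Deg Fermat.Agent.F3DegW
  Fermat.Agent.LDeg Fermat.Agent.S35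
open Fermat.Agent.AtkinLehner (ALData)
open CuspForm
open scoped TensorProduct

local notation "Qb" => AlgebraicClosure ℚ

/-! ### from an eigenvector to a character with values in `O` -/

section Character

variable {N : ℕ} [NeZero N] {S : Set ℕ}

/-- **From an eigenvector to a character.**  A nonzero vector of `O ⊗ Hom_par(Γ₀(N), ℤ)` on which
the `T_ℓ`, `ℓ ∉ S`, act by the scalars `r ℓ ∈ O` gives a character of the Hecke algebra with values
in `O` and `Ψ (T_ℓ) = r ℓ`. -/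
theorem pnew_exists_character (hNS : ∀ q : ℕ, q.Prime → q ∣ N → q ∈ S)
    {O : Type*} [CommRing O] [IsDomain O] (r : ℕ → O)
    (y : O ⊗[ℤ] HomPar N) (hy0 : y ≠ 0)
    (hy : ∀ (ℓ : ℕ) (hℓ : ℓ.Prime), ¬ ℓ ∣ N → ℓ ∉ S →
      (heckeHom N ⟨ℓ, hℓ⟩).baseChange O y = r ℓ • y) :
    ∃ Ψ : heckeAlgebra N 2 S →+* O,
      ∀ (ℓ : ℕ) (hℓ : ℓ.Prime) (hℓN : ¬ ℓ ∣ N) (hℓS : ℓ ∉ S),
        Ψ (heckeAlgebra.T hℓ hℓN hℓS) = r ℓ := by
  classical
  have huniq : ∀ s s' : O, s • y = s' • y → s = s' := by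
    intro s s' h
    have h1 : (s - s') • y = 0 := by rw [sub_smul, h, sub_self]
    rcases smul_eq_zero.mp h1 with h2 | h2
    · exact sub_eq_zero.mp h2
    · exact absurd h2 hy0
  have hy' : ∀ (ℓ : ℕ) (hℓ : ℓ.Prime), ¬ ℓ ∣ N → ℓ ∉ S →
      (heckeHom N ⟨ℓ, hℓ⟩).baseChange O y = (RingHom.id O) (r ℓ) • y := hy
  choose Φ hΦ using nv_exists_scalar hNS (RingHom.id O) r y hy'
  have hΦ' : ∀ t, nvRho hNS O t y = Φ t • y := hΦ
  have hone : Φ 1 = 1 := by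
    apply huniq
    rw [← hΦ', map_one, Module.End.one_apply, one_smul]
  have hmul : ∀ a b, Φ (a * b) = Φ a * Φ b := by
    intro a b
    apply huniq
    rw [← hΦ', map_mul, Module.End.mul_apply, hΦ' b, map_smul, hΦ' a, smul_smul, mul_comm]
  have hzero : Φ 0 = 0 := by
    apply huniq
    rw [← hΦ', map_zero, LinearMap.zero_apply, zero_smul]
  have hadd : ∀ a b, Φ (a + b) = Φ a + Φ b := by
    intro a b
    apply huniq
    rw [← hΦ', map_add, LinearMap.add_apply, hΦ' a, hΦ' b, add_smul]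
  let Φr : heckeAlgebra N 2 S →+* O :=
    { toFun := Φ, map_one' := hone, map_mul' := hmul, map_zero' := hzero, map_add' := hadd }
  refine ⟨Φr, ?_⟩
  intro ℓ hℓ hℓN hℓS
  show Φ (heckeAlgebra.T hℓ hℓN hℓS) = r ℓ
  apply huniq
  rw [← hΦ', nvRho_T hNS O hℓ hℓN hℓS]
  exact hy ℓ hℓ hℓN hℓS

end Character

/-! ### eigenvectors of a point not occurring at level `N₀` -/

/-- The key step for an abstract Hecke-equivariant map `τ` from level `N₀ p` to level `N₀`: if the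
point `χ` does not occur at level `N₀`, every `χ`-eigenvector is killed by `O ⊗ τ`. -/
theorem pnew_baseChange_eq_zero (N₀ p : ℕ) [NeZero N₀] [NeZero p]
    (S : Finset ℕ) (hS : ∀ r : ℕ, r.Prime → r ∣ N₀ * p → r ∈ S)
    (O : Type) [CommRing O] [IsDomain O]
    (χ : CuspForm.heckeAlgebra (N₀ * p) 2 (↑S : Set ℕ) →+* O)
    (hχ : ¬ OccursAtLevel N₀ (N₀ * p) S χ)
    (x : O ⊗[ℤ] HomPar (N₀ * p))
    (hx : ∀ (ℓ : ℕ) (hℓ : ℓ.Prime) (hℓM : ¬ ℓ ∣ N₀ * p) (hℓS : ℓ ∉ (↑S : Set ℕ)),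
      (heckeHom (N₀ * p) ⟨ℓ, hℓ⟩).baseChange O x =
        χ (CuspForm.heckeAlgebra.T hℓ hℓM hℓS) • x)
    (τ : HomPar (N₀ * p) →ₗ[ℤ] HomPar N₀)
    (hτ : ∀ (ℓ : Nat.Primes), ¬ (ℓ : ℕ) ∣ N₀ * p → ∀ c : HomPar (N₀ * p),
      τ (heckeHom (N₀ * p) ℓ c) = heckeHom N₀ ℓ (τ c)) :
    τ.baseChange O x = 0 := by
  classical
  by_contra hy0
  set y := τ.baseChange O x with hy
  have hNS : ∀ r : ℕ, r.Prime → r ∣ N₀ → r ∈ (↑S : Set ℕ) := fun r hr hrN =>
    Finset.mem_coe.mpr (hS r hr (Dvd.dvd.mul_right hrN p))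
  have hnd : ∀ ℓ : ℕ, ℓ.Prime → ℓ ∉ (↑S : Set ℕ) → ¬ ℓ ∣ N₀ * p := fun ℓ hℓ hℓS h =>
    hℓS (Finset.mem_coe.mpr (hS ℓ hℓ h))
  set r : ℕ → O := fun ℓ =>
    if h : ℓ.Prime ∧ ¬ ℓ ∣ N₀ * p ∧ ℓ ∉ (↑S : Set ℕ) then
      χ (heckeAlgebra.T h.1 h.2.1 h.2.2) else 0 with hr
  have hrℓ : ∀ (ℓ : ℕ) (hℓ : ℓ.Prime) (hℓM : ¬ ℓ ∣ N₀ * p) (hℓS : ℓ ∉ (↑S : Set ℕ)),
      r ℓ = χ (heckeAlgebra.T hℓ hℓM hℓS) := fun ℓ hℓ hℓM hℓS => by
    simp only [hr, dif_pos (show ℓ.Prime ∧ ¬ ℓ ∣ N₀ * p ∧ ℓ ∉ (↑S : Set ℕ) from ⟨hℓ, hℓM, hℓS⟩)]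
  have hyeig : ∀ (ℓ : ℕ) (hℓ : ℓ.Prime), ¬ ℓ ∣ N₀ → ℓ ∉ (↑S : Set ℕ) →
      (heckeHom N₀ ⟨ℓ, hℓ⟩).baseChange O y = r ℓ • y := by
    intro ℓ hℓ _ hℓS
    have hℓM := hnd ℓ hℓ hℓS
    have hcomm : (heckeHom N₀ ⟨ℓ, hℓ⟩).baseChange O ∘ₗ τ.baseChange O =
        τ.baseChange O ∘ₗ (heckeHom (N₀ * p) ⟨ℓ, hℓ⟩).baseChange O := by
      rw [← LinearMap.baseChange_comp, ← LinearMap.baseChange_comp]
      congr 1
      refine LinearMap.ext fun c => ?_
      rw [LinearMap.comp_apply, LinearMap.comp_apply]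
      exact (hτ ⟨ℓ, hℓ⟩ hℓM c).symm
    have h1 := congrArg (fun f => f x) hcomm
    simp only [LinearMap.comp_apply] at h1
    rw [hy, h1, hx ℓ hℓ hℓM hℓS, map_smul, hrℓ ℓ hℓ hℓM hℓS]
  obtain ⟨Ψ, hΨ⟩ := pnew_exists_character hNS r y hy0 hyeig
  apply hχ
  refine ⟨Ψ, fun ℓ hℓ hℓN hℓN₀ hℓS => ?_⟩
  rw [hΨ ℓ hℓ hℓN₀ hℓS, hrℓ ℓ hℓ hℓN hℓS]

/-- **P-NEW, vector form**: if the point `χ` of level `N₀ p` does not occur at level `N₀`, every
`χ`-eigenvector of `O ⊗ Hom_par(Γ₀(N₀ p), ℤ)` is killed by the two corestrictions to level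
`N₀`. -/
theorem pnew_vector (N₀ p : ℕ) [NeZero N₀] [NeZero p] (hp : p.Prime) (hpN : ¬ p ∣ N₀)
    (S : Finset ℕ) (hS : ∀ r : ℕ, r.Prime → r ∣ N₀ * p → r ∈ S)
    (O : Type) [CommRing O] [IsDomain O]
    (χ : CuspForm.heckeAlgebra (N₀ * p) 2 (↑S : Set ℕ) →+* O)
    (hχ : ¬ OccursAtLevel N₀ (N₀ * p) S χ)
    (x : O ⊗[ℤ] HomPar (N₀ * p))
    (hx : ∀ (ℓ : ℕ) (hℓ : ℓ.Prime) (hℓM : ¬ ℓ ∣ N₀ * p) (hℓS : ℓ ∉ (↑S : Set ℕ)),
      (heckeHom (N₀ * p) ⟨ℓ, hℓ⟩).baseChange O x =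
        χ (CuspForm.heckeAlgebra.T hℓ hℓM hℓS) • x) :
    (coresPar N₀ p).baseChange O x = 0 ∧ (coresParD N₀ p).baseChange O x = 0 :=
  ⟨pnew_baseChange_eq_zero N₀ p S hS O χ hχ x hx _
      (fun ℓ hℓ c => coresPar_heckeHom hp hpN ℓ hℓ c),
    pnew_baseChange_eq_zero N₀ p S hS O χ hχ x hx _
      (fun ℓ hℓ c => coresParD_heckeHom hp hpN ℓ hℓ c)⟩

/-- **P-NEW, vector form at a level `N = N₀ * p`.** -/
theorem pnew_vector_cast {N N₀ p : ℕ} [NeZero N] [NeZero N₀] [NeZero p] (h : N = N₀ * p)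
    (hp : p.Prime) (hpN : ¬ p ∣ N₀)
    (S : Finset ℕ) (hS : ∀ r : ℕ, r.Prime → r ∣ N → r ∈ S)
    (O : Type) [CommRing O] [IsDomain O]
    (χ : CuspForm.heckeAlgebra N 2 (↑S : Set ℕ) →+* O)
    (hχ : ¬ OccursAtLevel N₀ N S χ)
    (x : O ⊗[ℤ] HomPar N)
    (hx : ∀ (ℓ : ℕ) (hℓ : ℓ.Prime) (hℓM : ¬ ℓ ∣ N) (hℓS : ℓ ∉ (↑S : Set ℕ)),
      (heckeHom N ⟨ℓ, hℓ⟩).baseChange O x = χ (CuspForm.heckeAlgebra.T hℓ hℓM hℓS) • x) :
    (coresParAt h).baseChange O x = 0 ∧ (coresParDAt h).baseChange O x = 0 := by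
  subst h
  exact pnew_vector N₀ p hp hpN S hS O χ hχ x hx

/-! ### (G0): the two degeneracy maps -/

section Deg

variable {N N₀ p : ℕ} [NeZero N] [NeZero N₀] [NeZero p]

/-- **(G0)** `α_* : J₀(N) → J₀(N₀)` for `N = N₀ * p`. -/
def pnewAlpha (h : N = N₀ * p) : JZero N →+ JZero N₀ := pushAlphaAt h

/-- **(G0)** `β_* = α_* ∘ w_* : J₀(N) → J₀(N₀)` for `N = N₀ * p = D.Q * D.R`. -/
def pnewBeta (h : N = N₀ * p) (D : ALData) (hM : N = D.Q * D.R) : JZero N →+ JZero N₀ :=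
  (pushAlphaAt h).comp (pushWAt D hM)

theorem pnewAlpha_smul (h : N = N₀ * p) (σ : Qb ≃ₐ[ℚ] Qb) (y : JZero N) :
    pnewAlpha h (σ • y) = σ • pnewAlpha h y :=
  pushAlphaAt_smul h σ y

theorem pnewBeta_smul (h : N = N₀ * p) (D : ALData) (hM : N = D.Q * D.R) (σ : Qb ≃ₐ[ℚ] Qb)
    (y : JZero N) : pnewBeta h D hM (σ • y) = σ • pnewBeta h D hM y := by
  unfold pnewBeta
  rw [AddMonoidHom.comp_apply, pushWAt_smul, pushAlphaAt_smul]
  rfl

/-- **(G3)**, abstract form: an `x₀` killed by the two corestrictions has its explicit eigen-class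
killed by `O ⊗ α_*` and `O ⊗ β_*`. -/
theorem pnew_class_of (h : N = N₀ * p) (hp : p.Prime) (hpN : ¬ p ∣ N₀)
    (D : ALData) (hQ : D.Q = p) (hR : D.R = N₀) (hM : N = D.Q * D.R)
    {O : Type*} [CommRing O] {x₀ : O ⊗[ℤ] HomPar N}
    (hx₀ : (coresParAt h).baseChange O x₀ = 0 ∧ (coresParDAt h).baseChange O x₀ = 0)
    (m n : ℕ) :
    ((pnewAlpha h).toIntLinearMap ∘ₗ (Jtors N (m ^ n)).subtype).baseChange O
        (newClass N m O x₀ n) = 0 ∧
      ((pnewBeta h D hM).toIntLinearMap ∘ₗ (Jtors N (m ^ n)).subtype).baseChange O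
        (newClass N m O x₀ n) = 0 := by
  refine ⟨newClass_ker (pnewAlpha h).toIntLinearMap (coresParAt h) n
      ((Jtors N₀ (m ^ n)).subtype ∘ₗ kappaC N₀ (m ^ n)) (fun c => ?_) hx₀.1,
    newClass_ker (pnewBeta h D hM).toIntLinearMap (coresParDAt h) n
      ((Jtors N₀ (m ^ n)).subtype ∘ₗ kappaC N₀ (m ^ n)) (fun c => ?_) hx₀.2⟩
  · exact pushAlphaAt_kappaC h hp hpN (m ^ n) c
  · exact pushAlphaAt_pushWAt_kappaC h hp hpN D hQ hR hM (m ^ n) c

/-- **(G3) = P-NEW**: if the point `χ` of level `N = N₀ * p` does not occur at level `N₀`, the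
explicit eigen-class `(O ⊗ κ_{mⁿ}) x₀` of every `χ`-eigenvector `x₀` is killed by `O ⊗ α_*` and
`O ⊗ β_*` (any exponent `m`, in particular `m = p`). -/
theorem pnew_class (h : N = N₀ * p) (hp : p.Prime) (hpN : ¬ p ∣ N₀)
    (D : ALData) (hQ : D.Q = p) (hR : D.R = N₀) (hM : N = D.Q * D.R)
    (S : Finset ℕ) (hS : ∀ r : ℕ, r.Prime → r ∣ N → r ∈ S)
    (O : Type) [CommRing O] [IsDomain O]
    (χ : CuspForm.heckeAlgebra N 2 (↑S : Set ℕ) →+* O)
    (hχ : ¬ OccursAtLevel N₀ N S χ)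
    (x₀ : O ⊗[ℤ] HomPar N)
    (hx : ∀ (ℓ : ℕ) (hℓ : ℓ.Prime) (hℓM : ¬ ℓ ∣ N) (hℓS : ℓ ∉ (↑S : Set ℕ)),
      (heckeHom N ⟨ℓ, hℓ⟩).baseChange O x₀ = χ (CuspForm.heckeAlgebra.T hℓ hℓM hℓS) • x₀)
    (m n : ℕ) :
    ((pnewAlpha h).toIntLinearMap ∘ₗ (Jtors N (m ^ n)).subtype).baseChange O
        (newClass N m O x₀ n) = 0 ∧
      ((pnewBeta h D hM).toIntLinearMap ∘ₗ (Jtors N (m ^ n)).subtype).baseChange O
        (newClass N m O x₀ n) = 0 :=
  pnew_class_of h hp hpN D hQ hR hM (pnew_vector_cast h hp hpN S hS O χ hχ x₀ hx) m n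

end Deg

/-! ### the target `NewEigenclassAt` -/

/-- **P-NEW = (G3)**, in the shape consumed by `S33/NewTateJ.lean`: every point `χ` of the Hecke
algebra of level `M` which does not occur at level `M / p` (`p = i.1 ‖ M`) has a nonzero compatible
eigen-class killed by `𝒪' ⊗ newUAt i`. -/
theorem newEigenclassAt (M : ℕ) [NeZero M] (S : Finset ℕ)
    (hMS : ∀ q : ℕ, q.Prime → q ∣ M → q ∈ S) (i : Fermat.Agent.S35.NewIdx M 0) :
    NewEigenclassAt M S i := by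
  haveI := i.neZero_N
  haveI := i.neZero_q
  intro 𝒪' _ _ _ _ _ _ hp𝒪' χ hχ
  have hMS' : ∀ q : ℕ, q.Prime → q ∣ M → q ∈ (↑S : Set ℕ) := fun q hq hqM =>
    Finset.mem_coe.mpr (hMS q hq hqM)
  obtain ⟨x₀, hx₀, hx⟩ := Fermat.Agent.F3EP.exists_eigenvector_homPar' hMS' χ
  have hpu : ¬ IsUnit ((i.1 : ℕ) : 𝒪') := fun hu =>
    (IsLocalRing.mem_maximalIdeal _).mp hp𝒪' hu
  have hcor := pnew_vector_cast i.level_eq i.prime i.not_dvd_N S hMS 𝒪' χ hχ x₀ hx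
  refine ⟨fun n => newClass M i.1 𝒪' x₀ n, newClass_ne_zero i.prime hpu hx₀,
    fun n => newClass_compat i.prime x₀ n,
    fun n ℓ hℓ hℓN hℓS => newClass_eig ⟨ℓ, hℓ⟩ hℓN (hx ℓ hℓ hℓN hℓS) n, fun n => ?_⟩
  refine newClass_ker (newUAt i) (LinearMap.prod i.corA i.corB) n
    (LinearMap.prodMap ((Jtors (M / i.1) (i.1 ^ n)).subtype ∘ₗ kappaC (M / i.1) (i.1 ^ n))
      ((Jtors (M / i.1) (i.1 ^ n)).subtype ∘ₗ kappaC (M / i.1) (i.1 ^ n))) ?_ ?_
  · intro c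
    rw [newUAt_apply, i.degA_kappaC, i.degB_kappaC]
    rfl
  · exact baseChange_prod_eq_zero _ _ x₀ hcor.1 hcor.2

end Fermat.Agent.S33
end
end MergeWrap_S33_PNew
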