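import Mathlib
import Fermat.Agent.MU.S35.KernelAt
import Fermat.Agent.MU.S33.OldNew
import Fermat.Agent.S30.Iface

section MergeWrap_S33_NewDefs -- from S33/NewDefs.lean

/-!
# S33, the new part: the TARGETS of the geometric seats (owner: helper11; definitions only)

`M` a level, `i : S35.NewIdx M 0` a prime `p = i.1` with `p ‖ M` (use `S33.pIdx`), `N₀ = M / p`.

* `newUAt i : J₀(M) → J₀(M/p)²`, `y ↦ (α_* y, α_* w_* y)` — the kernel condition "`y` is `p`-new"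
  (`i.degA`, `i.degB` of `S35/KernelAt.lean`).
* `TorsionSplitAt M i` (**P-BR**: (G1) + (G2)): for every place `P ∣ p` there is a subgroup
  `Sp ≤ J₀(M)` with
    (G1) `τ y - y ∈ Sp` for `τ` in the inertia group of `P` and `y ∈ J₀(M)[pⁿ]` `p`-new;
    (G2) `σ s + s = 0` for `s ∈ Sp`, `p s = 0`, and `σ` in the inertia group of `P` which inverts
         the `p`-th roots of unity.
* `NewEigenclassAt M S i` (**P-NEW**: (G3)): every point `χ` of the Hecke algebra of level `M`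
  which does not occur at level `M / p` has a nonzero compatible eigen-class
  `x n ∈ 𝒪' ⊗ J₀(M)[pⁿ]` killed by `𝒪' ⊗ newUAt i`.

Consumer: `S33/NewTateJ.lean` (`newSplitLattices_of_torsion`), then `S33/NewWire.lean`.
-/

set_option autoImplicit false
set_option linter.style.haveILetI false

noncomputable section

namespace Fermat.Agent.S33

open ModularCurve AlgebraicCurve IsLocalRing
open scoped TensorProduct

local notation "GQ" => (AlgebraicClosure ℚ ≃ₐ[ℚ] AlgebraicClosure ℚ)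
local notation "Qb" => (AlgebraicClosure ℚ)

/-- The prime `p ‖ M` as an index of `S35/KernelAt.lean`. -/
def pIdx {M p : ℕ} (hp : p.Prime) (hpM : p ∣ M) (hp2 : ¬ p ^ 2 ∣ M) : Fermat.Agent.S35.NewIdx M 0 :=
  ⟨p, hp, hp.ne_zero, hpM, hp2⟩

@[simp] theorem pIdx_val {M p : ℕ} (hp : p.Prime) (hpM : p ∣ M) (hp2 : ¬ p ^ 2 ∣ M) :
    (pIdx hp hpM hp2).1 = p := rfl

variable {M : ℕ} [NeZero M]

/-- **The kernel condition at `p`**: `y ↦ (α_* y, α_* w_* y)`. -/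
def newUAt (i : Fermat.Agent.S35.NewIdx M 0) :
    JZero M →ₗ[ℤ] JZero (M / i.1) × JZero (M / i.1) :=
  LinearMap.prod i.degA.toIntLinearMap i.degB.toIntLinearMap

theorem newUAt_apply (i : Fermat.Agent.S35.NewIdx M 0) (y : JZero M) :
    newUAt i y = (i.degA y, i.degB y) := rfl

theorem newUAt_eq_zero_iff (i : Fermat.Agent.S35.NewIdx M 0) (y : JZero M) :
    newUAt i y = 0 ↔ i.degA y = 0 ∧ i.degB y = 0 := by
  rw [newUAt_apply]
  exact Prod.mk_eq_zero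

/-- The kernel of `newUAt i` is Galois-stable. -/
theorem newUAt_smul (i : Fermat.Agent.S35.NewIdx M 0) (σ : GQ) (y : JZero M)
    (h : newUAt i y = 0) : newUAt i (σ • y) = 0 := by
  rw [newUAt_eq_zero_iff] at h ⊢
  have h0 : σ • (0 : JZero (M / i.1)) = 0 := smul_zero (A := JZero (M / i.1)) σ
  exact ⟨by rw [i.degA_smul, h.1]; exact h0, by rw [i.degB_smul, h.2]; exact h0⟩

/-- **P-BR** ((G1) + (G2)): the split classes at the places over `p = i.1`. -/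
def TorsionSplitAt (M : ℕ) [NeZero M] (i : Fermat.Agent.S35.NewIdx M 0) : Prop :=
  ∀ P : ValuationSubring Qb, P.LiesOverPrime i.1 → ∃ Sp : AddSubgroup (JZero M),
    (∀ τ ∈ P.inertiaSubgroupIn ℚ, ∀ (n : ℕ) (y : JZero M),
      i.1 ^ n • y = 0 → newUAt i y = 0 → τ • y - y ∈ Sp) ∧
    (∀ σ ∈ P.inertiaSubgroupIn ℚ, (∀ ζ : Qb, ζ ^ i.1 = 1 → σ ζ = ζ⁻¹) →
      ∀ s ∈ Sp, i.1 • s = 0 → σ • s + s = 0)

/-- **P-NEW** ((G3)): a point of the Hecke algebra of level `M` which does not occur at level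
`M / p` has a nonzero compatible eigen-class killed by `newUAt i`. -/
def NewEigenclassAt (M : ℕ) [NeZero M] (S : Finset ℕ) (i : Fermat.Agent.S35.NewIdx M 0) : Prop :=
  haveI := i.neZero_N
  ∀ (𝒪' : Type) [CommRing 𝒪'] [IsDomain 𝒪'] [IsDiscreteValuationRing 𝒪']
    [IsAdicComplete (IsLocalRing.maximalIdeal 𝒪') 𝒪'] [Finite (IsLocalRing.ResidueField 𝒪')]
    [CharZero 𝒪'] (_hp𝒪' : (i.1 : 𝒪') ∈ IsLocalRing.maximalIdeal 𝒪')
    (χ : CuspForm.heckeAlgebra M 2 (↑S : Set ℕ) →+* 𝒪'),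
    ¬ OccursAtLevel (M / i.1) M S χ →
      ∃ x : (n : ℕ) → 𝒪' ⊗[ℤ] F3.Jtors M (i.1 ^ n),
        (∃ n, x n ≠ 0) ∧
        (∀ n, (Fermat.Agent.S30.mulPTors M i.1 n).baseChange 𝒪' (x (n + 1)) = x n) ∧
        (∀ (n ℓ : ℕ) (hℓ : ℓ.Prime) (hℓN : ¬ ℓ ∣ M) (hℓS : ℓ ∉ (↑S : Set ℕ)),
          (F3.heckeTors M (i.1 ^ n) ⟨ℓ, hℓ⟩).baseChange 𝒪' (x n) =
            χ (CuspForm.heckeAlgebra.T hℓ hℓN hℓS) • x n) ∧
        (∀ n, (newUAt i ∘ₗ (F3.Jtors M (i.1 ^ n)).subtype).baseChange 𝒪' (x n) = 0)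

end Fermat.Agent.S33
end
end MergeWrap_S33_NewDefs
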