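import Mathlib
import Fermat.Statements.S19
import Fermat.Agent.MU.Lib.FFL.Defs
import Fermat.Agent.Lib.FlatMod.Defs
import Fermat.Agent.MU.E.Desc.FlatAsmK
import Fermat.Agent.MU.Lib.FF.Kum.KumFinal
import Fermat.Agent.Lib.Frobenius.Exists
import Fermat.Agent.MU.Lib.BadRed.Final.Main
import Fermat.Agent.MU.Lib.TraceRigidity.Density
import Fermat.Agent.MU.Lib.TraceRigidity.Points
import Fermat.Agent.MU.S34.Transfer
import Fermat.Agent.MU.S33.OldNew
import Fermat.Agent.MU.Lib.Cyclo.CharData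
import Fermat.Agent.MU.F3.FrobDensityLiteFinal
import Fermat.Agent.MU.F3.I2.Final
import Fermat.Agent.MU.Lib.GaussInt.KeyAux
import Fermat.Agent.S30.Iface
import Fermat.Agent.MU.S35.TransferCond
import Fermat.Agent.MU.S33.NewDefs
import Fermat.Agent.MU.R38.S.Final
import Fermat.Agent.MU.S33.PNew
import Fermat.Agent.MU.Lib.BadRed.Bridge.AuxLevel
import Fermat.Agent.MU.Lib.BadRed.Final.FrobKey

section MergeWrap_Lib_FFL_Ord -- from Lib/FFL/Ord.lean

set_option autoImplicit false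
set_option linter.style.haveILetI false
set_option linter.unusedSectionVars false

namespace Fermat.Agent.FFL

open Fermat.Agent.FlatMod GaloisRep

local notation "Kb" => AlgebraicClosure ℚ
local notation "GK" => (AlgebraicClosure ℚ ≃ₐ[ℚ] AlgebraicClosure ℚ)

/-- **Dichotomy over a PID**: a submodule `U` of a finite free module `V` is killed by a nonzero
functional, or contains `a • V` for some `a ≠ 0`. -/
theorem exists_functional_or_smul_le {A : Type*} [CommRing A] [IsDomain A]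
    [IsPrincipalIdealRing A] {V : Type*} [AddCommGroup V] [Module A V] [Module.Free A V]
    [Module.Finite A V] (U : Submodule A V) :
    (∃ ℓ : V →ₗ[A] A, ℓ ≠ 0 ∧ ∀ u ∈ U, ℓ u = 0) ∨ (∃ a : A, a ≠ 0 ∧ ∀ v : V, a • v ∈ U) := by
  classical
  let b := Module.Free.chooseBasis A V
  obtain ⟨n, snf⟩ := Submodule.smithNormalForm b U
  by_cases hsurj : Function.Surjective snf.f
  · right
    have ha : ∀ i, snf.a i ≠ 0 := by
      intro i h0
      have h1 := snf.snf i
      rw [h0, zero_smul] at h1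
      exact snf.bN.ne_zero i (Subtype.ext h1)
    refine ⟨∏ i, snf.a i, Finset.prod_ne_zero_iff.2 (fun i _ => ha i), fun v => ?_⟩
    have hb : ∀ j, (∏ i, snf.a i) • snf.bM j ∈ U := by
      intro j
      obtain ⟨i, rfl⟩ := hsurj j
      rw [← Finset.mul_prod_erase Finset.univ snf.a (Finset.mem_univ i), mul_comm, mul_smul,
        ← snf.snf i]
      exact U.smul_mem _ (snf.bN i).2
    rw [← snf.bM.sum_repr v, Finset.smul_sum]
    refine U.sum_mem (fun j _ => ?_)
    rw [smul_comm]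
    exact U.smul_mem _ (hb j)
  · left
    simp only [Function.Surjective, not_forall, not_exists] at hsurj
    obtain ⟨j, hj⟩ := hsurj
    refine ⟨snf.bM.coord j, ?_, fun u hu => ?_⟩
    · intro h0
      have := congrArg (fun ℓ : V →ₗ[A] A => ℓ (snf.bM j)) h0
      simp at this
    · have h1 : u = ((∑ i, snf.bN.repr ⟨u, hu⟩ i • snf.bN i : U) : V) := by
        rw [snf.bN.sum_repr]
      rw [h1, Submodule.coe_sum, map_sum]
      apply Finset.sum_eq_zero
      intro i _
      rw [Submodule.coe_smul, snf.snf i, map_smul, map_smul, Module.Basis.coord_apply,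
        Module.Basis.repr_self, Finsupp.single_apply, if_neg (hj i), smul_zero, smul_zero]

section Ord

variable {p : ℕ} {P : ValuationSubring Kb}
  {A : Type} [CommRing A] [IsDomain A] [IsDiscreteValuationRing A]

/-- The `A`-span of the `ρ σ v - v`, `σ` in the inertia group of `P`. -/
def inertiaSpan (P : ValuationSubring Kb) (ρ : GaloisRepAdic A) : Submodule A ρ.V :=
  Submodule.span A {x : ρ.V | ∃ σ ∈ P.inertiaSubgroupIn ℚ, ∃ v : ρ.V, x = ρ.ρ σ v - v}

theorem levelAction_mk (ρ : GaloisRepAdic A) (J : Ideal A) (σ : GK) (v : ρ.V) :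
    ρ.levelAction J σ (Submodule.Quotient.mk v) = Submodule.Quotient.mk (ρ.ρ σ v) := rfl

/-- The augmentation subgroup of inertia of a level is stable under scalars. -/
theorem smul_mem_augI_level (ρ : GaloisRepAdic A) (J : Ideal A) (a : A)
    {z : ρ.V ⧸ (J • (⊤ : Submodule A ρ.V))}
    (hz : z ∈ augI P (fun σ x => ρ.levelAction J σ x)) :
    a • z ∈ augI P (fun σ x => ρ.levelAction J σ x) := by
  unfold augI augOn at hz ⊢
  induction hz using AddSubgroup.closure_induction with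
  | mem x hx =>
    obtain ⟨σ, hσ, y, -, rfl⟩ := hx
    refine AddSubgroup.subset_closure ⟨σ, hσ, a • y, Set.mem_univ _, ?_⟩
    beta_reduce
    rw [smul_sub, map_smul]
  | zero =>
    rw [smul_zero]
    exact AddSubgroup.zero_mem _
  | add x y _ _ hx hy =>
    rw [smul_add]
    exact AddSubgroup.add_mem _ hx hy
  | neg x _ hx =>
    rw [smul_neg]
    exact AddSubgroup.neg_mem _ hx

/-- The image of the inertia span in a level lies in the augmentation subgroup of inertia. -/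
theorem mk_mem_augI_of_mem_inertiaSpan (ρ : GaloisRepAdic A) (J : Ideal A) {u : ρ.V}
    (hu : u ∈ inertiaSpan P ρ) :
    (Submodule.Quotient.mk u : ρ.V ⧸ (J • (⊤ : Submodule A ρ.V))) ∈
      augI P (fun σ x => ρ.levelAction J σ x) := by
  unfold inertiaSpan at hu
  induction hu using Submodule.span_induction with
  | mem x hx =>
    obtain ⟨σ, hσ, v, rfl⟩ := hx
    unfold augI augOn
    refine AddSubgroup.subset_closure ⟨σ, hσ, Submodule.Quotient.mk v, Set.mem_univ _, ?_⟩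
    beta_reduce
    rw [levelAction_mk, ← Submodule.Quotient.mk_sub]
  | zero =>
    rw [Submodule.Quotient.mk_zero]
    exact AddSubgroup.zero_mem _
  | add x y _ _ hx hy =>
    rw [Submodule.Quotient.mk_add]
    exact AddSubgroup.add_mem _ hx hy
  | smul a x _ hx =>
    rw [Submodule.Quotient.mk_smul]
    exact smul_mem_augI_level ρ J a hx

/-- The subgroup `c • (V / J V)` of a level. -/
def smulLevel (ρ : GaloisRepAdic A) (J : Ideal A) (c : A) :
    AddSubgroup (ρ.V ⧸ (J • (⊤ : Submodule A ρ.V))) where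
  carrier := {x | ∃ v : ρ.V, x = Submodule.Quotient.mk (c • v)}
  zero_mem' := ⟨0, by rw [smul_zero, Submodule.Quotient.mk_zero]⟩
  add_mem' := by
    rintro _ _ ⟨v, rfl⟩ ⟨v', rfl⟩
    exact ⟨v + v', by rw [smul_add, Submodule.Quotient.mk_add]⟩
  neg_mem' := by
    rintro _ ⟨v, rfl⟩
    exact ⟨-v, by rw [smul_neg, Submodule.Quotient.mk_neg]⟩

theorem smulLevel_stable (ρ : GaloisRepAdic A) (J : Ideal A) (c : A) (σ : GK) :
    ∀ n ∈ smulLevel ρ J c, ρ.levelAction J σ n ∈ smulLevel ρ J c := by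
  rintro _ ⟨v, rfl⟩
  exact ⟨ρ.ρ σ v, by rw [levelAction_mk, map_smul]⟩

/-- The augmentation of inertia on `c • (V / J V)` is `c` times the image of the inertia span. -/
theorem exists_of_mem_augOn_smulLevel (ρ : GaloisRepAdic A) (J : Ideal A) (c : A)
    {x : ρ.V ⧸ (J • (⊤ : Submodule A ρ.V))}
    (hx : x ∈ augOn P (fun σ x => ρ.levelAction J σ x) (smulLevel ρ J c : Set _)) :
    ∃ u ∈ inertiaSpan P ρ, x = Submodule.Quotient.mk (c • u) := by
  unfold augOn at hx
  induction hx using AddSubgroup.closure_induction with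
  | mem x hx =>
    obtain ⟨σ, hσ, y, ⟨v, rfl⟩, rfl⟩ := hx
    refine ⟨ρ.ρ σ v - v, Submodule.subset_span ⟨σ, hσ, v, rfl⟩, ?_⟩
    beta_reduce
    rw [levelAction_mk, ← Submodule.Quotient.mk_sub, map_smul, smul_sub]
  | zero => exact ⟨0, Submodule.zero_mem _, by rw [smul_zero, Submodule.Quotient.mk_zero]⟩
  | add x y _ _ hx hy =>
    obtain ⟨u, hu, rfl⟩ := hx
    obtain ⟨u', hu', rfl⟩ := hy
    exact ⟨u + u', Submodule.add_mem _ hu hu', by rw [smul_add, Submodule.Quotient.mk_add]⟩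
  | neg x _ hx =>
    obtain ⟨u, hu, rfl⟩ := hx
    exact ⟨-u, Submodule.neg_mem _ hu, by rw [smul_neg, Submodule.Quotient.mk_neg]⟩

/-- **FFL-ORD**: a representation over a discrete valuation ring which is flat at `p` and whose
residual inertia coinvariants are non-trivial has a nonzero inertia-invariant functional. -/
theorem exists_inertia_invariant_functional (hex : ExactProp p P)
    [Finite (IsLocalRing.ResidueField A)] (ρ : GaloisRepAdic A) (hfl : ρ.IsFlatAt p)
    (hres : inertiaSpan P ρ ⊔ IsLocalRing.maximalIdeal A • (⊤ : Submodule A ρ.V) ≠ ⊤) :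
    ∃ ℓ : ρ.V →ₗ[A] A, ℓ ≠ 0 ∧
      ∀ σ ∈ P.inertiaSubgroupIn ℚ, ∀ v : ρ.V, ℓ (ρ.ρ σ v) = ℓ v := by
  rcases exists_functional_or_smul_le (inertiaSpan P ρ) with ⟨ℓ, hℓ0, hℓ⟩ | ⟨a, ha0, ha⟩
  · refine ⟨ℓ, hℓ0, fun σ hσ v => ?_⟩
    have h1 : ℓ (ρ.ρ σ v - v) = 0 := hℓ _ (Submodule.subset_span ⟨σ, hσ, v, rfl⟩)
    rw [map_sub, sub_eq_zero] at h1
    exact h1
  · exfalso
    apply hres
    obtain ⟨ϖ, hϖ⟩ := IsDiscreteValuationRing.exists_irreducible A
    obtain ⟨m, w, hw⟩ := IsDiscreteValuationRing.eq_unit_mul_pow_irreducible ha0 hϖ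
    have hm : ∀ v : ρ.V, ϖ ^ m • v ∈ inertiaSpan P ρ := by
      intro v
      have h1 := (inertiaSpan P ρ).smul_mem ((w⁻¹ : Aˣ) : A) (ha v)
      rw [hw, smul_smul, ← mul_assoc, Units.inv_mul, one_mul] at h1
      exact h1
    have hϖ0 : ϖ ^ m ≠ 0 := pow_ne_zero m hϖ.ne_zero
    -- the level
    set J : Ideal A := IsLocalRing.maximalIdeal A ^ (m + 1) with hJ
    have hJspan : J = Ideal.span {ϖ ^ (m + 1)} := by
      rw [hJ, hϖ.maximalIdeal_eq, Ideal.span_singleton_pow]
    haveI : Finite (A ⧸ IsLocalRing.maximalIdeal A) :=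
      inferInstanceAs (Finite (IsLocalRing.ResidueField A))
    haveI hfin : Finite (A ⧸ J) :=
      Ideal.finite_quotient_pow (IsNoetherian.noetherian _) (m + 1)
    have hflat : IsFlatGaloisModule p (ρ.V ⧸ (J • (⊤ : Submodule A ρ.V)))
        (fun σ x => ρ.levelAction J σ x) := ((isFlatAt_iff ρ p).1 hfl).2 J hfin
    rw [eq_top_iff]
    intro v _
    have h1 : (Submodule.Quotient.mk (ϖ ^ m • v) : ρ.V ⧸ (J • (⊤ : Submodule A ρ.V))) ∈
        smulLevel ρ J (ϖ ^ m) := ⟨v, rfl⟩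
    have h2 := hex _ _ hflat (smulLevel ρ J (ϖ ^ m)) (fun σ => smulLevel_stable ρ J _ σ) _ h1
      (mk_mem_augI_of_mem_inertiaSpan ρ J (hm v))
    obtain ⟨u, hu, h3⟩ := exists_of_mem_augOn_smulLevel ρ J _ h2
    rw [Submodule.Quotient.eq, hJspan, Submodule.ideal_span_singleton_smul,
      Submodule.mem_smul_pointwise_iff_exists] at h3
    obtain ⟨v', -, h4⟩ := h3
    have h5 : ϖ ^ m • (ϖ • v') = ϖ ^ m • (v - u) := by
      rw [smul_smul, ← pow_succ, h4, smul_sub]
    have h6 : ϖ • v' = v - u := smul_right_injective _ hϖ0 h5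
    have h7 : v = u + ϖ • v' := by rw [h6]; abel
    rw [h7]
    refine Submodule.add_mem _ (Submodule.mem_sup_left hu) (Submodule.mem_sup_right ?_)
    exact Submodule.smul_mem_smul (hϖ.maximalIdeal_eq ▸ Ideal.mem_span_singleton_self ϖ)
      Submodule.mem_top

end Ord

end Fermat.Agent.FFL
end MergeWrap_Lib_FFL_Ord

section MergeWrap_Lib_FlatMod_Pi -- from Lib/FlatMod/Pi.lean

set_option autoImplicit false
set_option linter.style.haveILetI false
set_option linter.unusedSectionVars false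

namespace Fermat.Agent.FlatMod

local notation "GK" => (AlgebraicClosure ℚ ≃ₐ[ℚ] AlgebraicClosure ℚ)

variable {p : ℕ}

/-- Subquotients: `Q` is the image under an equivariant additive map of a Galois-stable subgroup
of a flat module. -/
theorem IsFlatGaloisModule.subquotient [Fact p.Prime] {M Q : Type} [AddCommGroup M]
    [AddCommGroup Q] {act : GK → M → M} {actQ : GK → Q → Q}
    (h : IsFlatGaloisModule p M act) (N : AddSubgroup M) (hN : ∀ σ, ∀ x ∈ N, act σ x ∈ N)
    (π : N →+ Q) (hπ : Function.Surjective π)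
    (hact : ∀ (σ : GK) (x : N), π ⟨act σ x.1, hN σ x.1 x.2⟩ = actQ σ (π x)) :
    IsFlatGaloisModule p Q actQ :=
  (h.sub N hN).quot π hπ hact

/-- Subquotients, stated with an injective and a surjective equivariant additive map
`M ←ι N' →π Q`. -/
theorem IsFlatGaloisModule.of_inj_surj [Fact p.Prime] {M N' Q : Type} [AddCommGroup M]
    [AddCommGroup N'] [AddCommGroup Q] {act : GK → M → M} {actN : GK → N' → N'}
    {actQ : GK → Q → Q} (h : IsFlatGaloisModule p M act)
    (ι : N' →+ M) (hι : Function.Injective ι) (hιact : ∀ σ x, ι (actN σ x) = act σ (ι x))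
    (π : N' →+ Q) (hπ : Function.Surjective π) (hπact : ∀ σ x, π (actN σ x) = actQ σ (π x)) :
    IsFlatGaloisModule p Q actQ :=
  (h.of_injective ι hι hιact).quot π hπ hπact

/-- Powers indexed by `Fin n`. -/
theorem IsFlatGaloisModule.pi_fin [Fact p.Prime] {M : Type} [AddCommGroup M]
    {act : GK → M → M} (h : IsFlatGaloisModule p M act) (n : ℕ) :
    IsFlatGaloisModule p (Fin n → M) (fun σ f i => act σ (f i)) := by
  induction n with
  | zero => exact isFlatGaloisModule_of_subsingleton _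
  | succ n ih =>
    have h1 := h.prod ih
    let e : M × (Fin n → M) ≃+ (Fin (n + 1) → M) :=
      { toFun := fun x => Fin.cons x.1 x.2
        invFun := fun f => (f 0, Fin.tail f)
        left_inv := fun x => by simp
        right_inv := fun f => by simp
        map_add' := fun x y => by
          funext i
          refine Fin.cases ?_ (fun j => ?_) i
          · simp
          · simp }
    refine h1.of_equiv e (fun σ x => ?_)
    funext i
    refine Fin.cases ?_ (fun j => ?_) i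
    · simp [e]
    · simp [e]

/-- Finite powers of a flat Galois module are flat. -/
theorem IsFlatGaloisModule.pi [Fact p.Prime] {M : Type} [AddCommGroup M]
    {act : GK → M → M} (h : IsFlatGaloisModule p M act) (ι : Type) [Finite ι] :
    IsFlatGaloisModule p (ι → M) (fun σ f i => act σ (f i)) := by
  obtain ⟨n, ⟨e'⟩⟩ := Finite.exists_equiv_fin ι
  let e : (Fin n → M) ≃+ (ι → M) :=
    { toFun := fun f i => f (e' i)
      invFun := fun g j => g (e'.symm j)
      left_inv := fun f => by funext j; simp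
      right_inv := fun g => by funext i; simp
      map_add' := fun _ _ => rfl }
  exact (h.pi_fin n).of_equiv e (fun _ _ => rfl)

/-- Finite products of flat Galois modules are flat. -/
theorem IsFlatGaloisModule.pi_family [Fact p.Prime] {n : ℕ} {M : Fin n → Type}
    [∀ i, AddCommGroup (M i)] {act : ∀ i, GK → M i → M i}
    (h : ∀ i, IsFlatGaloisModule p (M i) (act i)) :
    IsFlatGaloisModule p (∀ i, M i) (fun σ f i => act i σ (f i)) := by
  induction n with
  | zero => exact isFlatGaloisModule_of_subsingleton _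
  | succ n ih =>
    have h1 := (h 0).prod (ih (M := fun j => M j.succ) (act := fun j => act j.succ)
      (fun j => h j.succ))
    let e : M 0 × (∀ j : Fin n, M j.succ) ≃+ (∀ i, M i) :=
      { toFun := fun x => Fin.cons (α := M) x.1 x.2
        invFun := fun f => (f 0, fun j => f j.succ)
        left_inv := fun x => by simp
        right_inv := fun f => by
          funext i
          refine Fin.cases ?_ (fun j => ?_) i
          · simp
          · simp
        map_add' := fun x y => by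
          funext i
          refine Fin.cases ?_ (fun j => ?_) i
          · simp
          · simp }
    refine h1.of_equiv e (fun σ x => ?_)
    funext i
    refine Fin.cases ?_ (fun j => ?_) i
    · simp [e]
    · simp [e]

end Fermat.Agent.FlatMod
end MergeWrap_Lib_FlatMod_Pi

section MergeWrap_S19 -- from S19.lean

set_option autoImplicit false
open ModularCurve
open ModularCurve

namespace Fermat.Agent.S19

theorem result
    (p : ℕ) [NeZero p] (ℓ : ℕ) [Fact ℓ.Prime] (hℓp : ¬ ℓ ∣ p) (k : ℕ) :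
    ∃ (H : Type) (_ : CommRing H) (_ : HopfAlgebra (GaloisRep.ratLocalizedAt ℓ) H),
      Module.Finite (GaloisRep.ratLocalizedAt ℓ) H ∧ Module.Flat (GaloisRep.ratLocalizedAt ℓ) H ∧
      Coalgebra.IsCocomm (GaloisRep.ratLocalizedAt ℓ) H ∧
      ∃ e : WithConv (H →ₐ[GaloisRep.ratLocalizedAt ℓ] AlgebraicClosure ℚ) ≃
          ↥(Submodule.torsionBy ℤ (JZero p) ((ℓ : ℤ) ^ k)),
        (∀ f g, e (f * g) = e f + e g) ∧
        ∀ (σ : AlgebraicClosure ℚ ≃ₐ[ℚ] AlgebraicClosure ℚ)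
          (f g : WithConv (H →ₐ[GaloisRep.ratLocalizedAt ℓ] AlgebraicClosure ℚ)),
          (∀ h : H, g h = σ (f h)) → ((e g : JZero p)) = σ • (e f : JZero p) := by
  have hS : Fermat.Agent.FF.S19Statement :=
    Fermat.Agent.FF.s19_of_goodFibres fun M ℓ' k' _ hℓ' hℓM h49 => by
      obtain ⟨A₀, hA⟩ := Fermat.Agent.FrobExists.exists_valuationSubring_liesOver ℓ' hℓ'
      haveI : Finite ↥(Submodule.torsionBy ℤ (JZero M) ((ℓ' : ℤ) ^ k')) := by
        have := Fermat.Agent.FF.finite_torsionBy M (ℓ' ^ k') (pow_pos hℓ'.pos k')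
        simpa using this
      exact ⟨A₀, hA, Fermat.Agent.FFGoodEll.nonempty_goodFibres_modular A₀ ℓ' M hℓ' hA hℓM h49
        (Fermat.Agent.FF.torsIncl M ((ℓ' : ℤ) ^ k'))⟩
  exact hS p ℓ hℓp k

end Fermat.Agent.S19
end MergeWrap_S19

section MergeWrap_S32_Plane -- from S32/Plane.lean

set_option autoImplicit false
set_option linter.unusedSectionVars false

/-!
# Wiles' algebra, sub-lattice form (owner: helper62; adapted from `S30/WilesMain.lean`,
`S30/WilesPlane.lean` of helper68)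

`Λ ≠ 0` finite free over a discrete valuation ring `R` of characteristic zero, `G` acting on `Λ`
with the quadratic relation `QuadRel ρ ε t`, and an involution `c ∈ G` with `ε c = -1`.  Then
either `Λ` contains a `G`-stable line, or a saturated `G`-stable submodule `M`, free of rank two,
on which the characteristic polynomial of `ρ g` is `X² - t(g) X + ε(g)` for every `g`
(`line_or_plane_of_quadRel`).
-/

namespace Fermat.Agent.S32

open Module Polynomial IsLocalRing Fermat.Agent.S30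

section Concl

variable {R : Type} [CommRing R] [IsDomain R] [IsDiscreteValuationRing R]
  {G : Type*} [Group G]
  {Λ : Type} [AddCommGroup Λ] [Module R Λ] [Module.Free R Λ] [Module.Finite R Λ]

/-- A saturated stable plane in `Λ` with characteristic polynomials `X² - t(g) X + ε(g)`. -/
def PlaneConclusion (ρ : G →* Module.End R Λ) (ε : G →* Rˣ) (t : G → R) : Prop :=
  ∃ (M : Submodule R Λ) (hM : ∀ (g : G) (x : Λ), x ∈ M → ρ g x ∈ M),
    IsSatSub M ∧ Module.finrank R M = 2 ∧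
    ∀ g : G, LinearMap.charpoly (restrictRepR ρ M hM g) =
      X ^ 2 - C (t g) * X + C ((ε g : Rˣ) : R)

end Concl

section Plane

variable {R : Type} [CommRing R] [IsDomain R] [IsDiscreteValuationRing R] [CharZero R]
  {G : Type*} [Group G]
  {Λ : Type} [AddCommGroup Λ] [Module R Λ] [Module.Free R Λ] [Module.Finite R Λ]

/-- **Plane case.** -/
theorem planeConclusion_of_plane (ρ : G →* Module.End R Λ) (ε : G →* Rˣ) (t : G → R)
    (hQ : QuadRel ρ ε t) (c : G) (hc : c * c = 1) (htc : t c = 0)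
    (s : R) (hs : s * s = 1)
    (M : Submodule R Λ) (hMsat : IsSatSub M) (hMstab : ∀ (g : G) (x : Λ), x ∈ M → ρ g x ∈ M)
    (u w : Λ) (huM : u ∈ M) (hwM : w ∈ M) (hu0 : u ≠ 0) (hw0 : w ≠ 0)
    (hcu : ρ c u = s • u) (hcw : ρ c w = (-s) • w)
    (hplus : ∀ x ∈ M, ρ c x = s • x → x ∈ Submodule.span R {u})
    (hminus : ∀ x ∈ M, ρ c x = (-s) • x → x ∈ Submodule.span R {w}) :
    PlaneConclusion ρ ε t := by
  classical
  have h2R : (2 : R) ≠ 0 := two_ne_zero
  have h2 : ∀ y : Λ, (2 : R) • y = 0 → y = 0 := fun y hy =>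
    (smul_eq_zero.mp hy).resolve_left h2R
  have hs' : (-s) * (-s) = 1 := by rw [neg_mul_neg, hs]
  -- finrank M = 2
  have hli : LinearIndependent R ![(⟨u, huM⟩ : M), ⟨w, hwM⟩] := by
    rw [LinearIndependent.pair_iff]
    intro a b hab
    have hab' : a • u + b • w = 0 := by
      have := congrArg (Subtype.val) hab
      simpa using this
    have h1 : a • u - b • w = 0 := by
      have := congrArg (fun y => s • ρ c y) hab'
      simp only [map_add, map_smul, hcu, hcw, smul_zero, map_zero] at this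
      rw [← this]
      simp only [smul_add, smul_smul]
      have e1 : s * (a * s) = a := by linear_combination a * hs
      have e2 : s * (b * -s) = -b := by linear_combination -b * hs
      rw [e1, e2, neg_smul, sub_eq_add_neg]
    have ha : (2 : R) • (a • u) = 0 := by
      have : (2 : R) • (a • u) = (a • u + b • w) + (a • u - b • w) := by
        rw [two_smul]; abel
      rw [this, hab', h1, add_zero]
    have ha0 : a = 0 := (smul_eq_zero.mp (h2 _ ha)).resolve_right hu0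
    refine ⟨ha0, ?_⟩
    rw [ha0, zero_smul, zero_add] at hab'
    exact (smul_eq_zero.mp hab').resolve_right hw0
  have hge : 2 ≤ Module.finrank R M := by
    have := hli.fintype_card_le_finrank
    simpa using this
  have hmem2 : ∀ x ∈ M, (2 : R) • x ∈ Submodule.span R ((({u, w} : Finset Λ)) : Set Λ) := by
    intro x hx
    have hcx : ρ c x ∈ M := hMstab c x hx
    have hp : x + s • ρ c x ∈ Submodule.span R {u} := by
      apply hplus _ (M.add_mem hx (M.smul_mem s hcx))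
      rw [map_add, map_smul, rho_invol_apply ρ hc, smul_add, smul_smul, hs, one_smul, add_comm]
    have hm : x + (-s) • ρ c x ∈ Submodule.span R {w} := by
      apply hminus _ (M.add_mem hx (M.smul_mem (-s) hcx))
      rw [map_add, map_smul, rho_invol_apply ρ hc, smul_add, smul_smul, hs', one_smul, add_comm]
    have e : (2 : R) • x = (x + s • ρ c x) + (x + (-s) • ρ c x) := by
      rw [two_smul, neg_smul]; abel
    rw [e]
    refine Submodule.add_mem _ ?_ ?_
    · exact Submodule.span_mono (by simp) hp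
    · exact Submodule.span_mono (by simp) hm
  have hle : Module.finrank R M ≤ 2 := by
    let P : Submodule R Λ := Submodule.span R ((({u, w} : Finset Λ)) : Set Λ)
    let f : M →ₗ[R] P := LinearMap.codRestrict P ((2 : R) • M.subtype) (fun x => hmem2 x x.2)
    have hf : Function.Injective f := by
      intro x y hxy
      have h : (2 : R) • (x : Λ) = (2 : R) • (y : Λ) := congrArg (fun z : P => (z : Λ)) hxy
      have : (2 : R) • ((x : Λ) - y) = 0 := by rw [smul_sub, h, sub_self]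
      exact Subtype.ext (sub_eq_zero.mp (h2 _ this))
    calc Module.finrank R M ≤ Module.finrank R P := LinearMap.finrank_le_finrank_of_injective hf
      _ ≤ ({u, w} : Finset Λ).card := finrank_span_finset_le_card _
      _ ≤ 2 := Finset.card_le_two
  have hfin : Module.finrank R M = 2 := le_antisymm hle hge
  have : Nontrivial M := ⟨⟨⟨u, huM⟩, 0, fun h => hu0 (congrArg Subtype.val h)⟩⟩
  refine ⟨M, hMstab, hMsat, hfin, ?_⟩
  intro g
  apply charpoly_eq_of_quad hfin _ _ _ (quadRel_restrict hQ M hMstab g) _ h2R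
  intro r σ hrσ
  -- apply to `u` and `w`
  have hu1 : r • ρ g u = σ • u := by
    have := congrArg (fun F : Module.End R M => ((F ⟨u, huM⟩ : M) : Λ)) hrσ
    simpa using this
  have hw1 : r • ρ g w = σ • w := by
    have := congrArg (fun F : Module.End R M => ((F ⟨w, hwM⟩ : M) : Λ)) hrσ
    simpa using this
  have eu := hQ.sign_eigen hc htc h2 s hs g u hcu
  have ew := hQ.sign_eigen hc htc h2 (-s) hs' g w hcw
  have eu1 : r • (ρ g u + s • ρ c (ρ g u)) = σ • u + s • ρ c (σ • u) := by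
    rw [smul_add, smul_comm r s, ← map_smul (ρ c), hu1]
  have eu' : (r * (t g + s * t (c * g))) • u = (2 * σ) • u := by
    rw [mul_smul, ← eu, eu1, map_smul, hcu, smul_smul, smul_smul, ← add_smul]
    congr 1
    linear_combination σ * hs
  have ew1 : r • (ρ g w + (-s) • ρ c (ρ g w)) = σ • w + (-s) • ρ c (σ • w) := by
    rw [smul_add, smul_comm r (-s), ← map_smul (ρ c), hw1]
  have ew' : (r * (t g + -s * t (c * g))) • w = (2 * σ) • w := by
    rw [mul_smul, ← ew, ew1, map_smul, hcw, smul_smul, smul_smul, ← add_smul]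
    congr 1
    linear_combination σ * hs
  have eu'' := smul_left_injective R hu0 eu'
  have ew'' := smul_left_injective R hw0 ew'

  have h4 : (2 : R) * (r * t g) = 2 * (2 * σ) := by linear_combination eu'' + ew''
  exact mul_left_cancel₀ h2R h4

end Plane

section Main

variable {R : Type} [CommRing R] [IsDomain R] [IsDiscreteValuationRing R] [CharZero R]
  {G : Type*} [Group G]
  {Λ : Type} [AddCommGroup Λ] [Module R Λ] [Module.Free R Λ] [Module.Finite R Λ] [Nontrivial Λ]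

omit [Nontrivial Λ] in
/-- One step of the case analysis: from an `s`-eigenvector `u ≠ 0` of `ρ(c)` we get either the
line case, or a nonzero `(-s)`-eigenvector in the saturated orbit module of `u`. -/
theorem line_or_eigen_sub (ρ : G →* Module.End R Λ) (ε : G →* Rˣ) (t : G → R)
    (hQ : QuadRel ρ ε t) (c : G) (hc : c * c = 1) (htc : t c = 0)
    (s : R) (hs : s * s = 1) (u : Λ) (hu0 : u ≠ 0) (hcu : ρ c u = s • u) :
    (∃ u₁ : Λ, u₁ ≠ 0 ∧ ∀ g : G, ρ g u₁ ∈ Submodule.span R {u₁}) ∨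
      ∃ w ∈ satSub (gSpan ρ u), w ≠ 0 ∧ ρ c w = (-s) • w := by
  classical
  have h2R : (2 : R) ≠ 0 := two_ne_zero
  by_cases hex : ∃ w ∈ satSub (gSpan ρ u), w ≠ 0 ∧ ρ c w = (-s) • w
  · exact Or.inr hex
  · left
    simp only [not_exists, not_and] at hex
    have hMstab : ∀ (g : G) (x : Λ), x ∈ satSub (gSpan ρ u) → ρ g x ∈ satSub (gSpan ρ u) :=
      fun g x hx => map_mem_satSub (ρ g) (gSpan_stable ρ u g) hx
    -- every element of `M` is an `s`-eigenvector
    have hall : ∀ x ∈ satSub (gSpan ρ u), x ∈ satSub (Submodule.span R {u}) := by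
      intro x hx
      have hcx : ρ c x ∈ satSub (gSpan ρ u) := hMstab c x hx
      have hm : x + (-s) • ρ c x ∈ satSub (gSpan ρ u) :=
        Submodule.add_mem _ hx (Submodule.smul_mem _ _ hcx)
      have hm0 : x + (-s) • ρ c x = 0 := by
        by_contra hne
        refine hex _ hm hne ?_
        rw [map_add, map_smul, rho_invol_apply ρ hc, smul_add, smul_smul, neg_mul_neg, hs,
          one_smul, add_comm]
      have hcx' : ρ c x = s • x := by
        have h1 : x = s • ρ c x := by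
          rw [neg_smul, ← sub_eq_add_neg, sub_eq_zero] at hm0
          exact hm0
        conv_rhs => rw [h1]
        rw [smul_smul, hs, one_smul]
      exact eigen_mem_satSub_span hQ hc htc h2R s hs u hcu x hx hcx'
    obtain ⟨r, u₁, hr, hru, hprim⟩ := exists_primVec_of_ne_zero (R := R) hu0
    have hu₁0 : u₁ ≠ 0 := by
      rintro rfl
      rw [smul_zero] at hru
      exact hu0 hru
    have hle : satSub (Submodule.span R {u}) ≤ Submodule.span R {u₁} := by
      rw [← hprim.satSub_span]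
      apply satSub_mono
      rw [Submodule.span_singleton_le_iff_mem, hru]
      exact Submodule.smul_mem _ _ (Submodule.mem_span_singleton_self u₁)
    have hu₁M : u₁ ∈ satSub (gSpan ρ u) := by
      apply isSatSub_satSub _ r u₁ hr
      rw [← hru]
      exact le_satSub _ (mem_gSpan_self ρ u)
    exact ⟨u₁, hu₁0, fun g => hle (hall _ (hMstab g u₁ hu₁M))⟩

/-- **Wiles' algebra, sub-lattice form.** -/
theorem line_or_plane_of_quadRel (ρ : G →* Module.End R Λ) (ε : G →* Rˣ) (t : G → R)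
    (hQ : QuadRel ρ ε t) (c : G) (hc : c * c = 1) (hεc : ε c = -1) :
    (∃ u₁ : Λ, u₁ ≠ 0 ∧ ∀ g : G, ρ g u₁ ∈ Submodule.span R {u₁}) ∨ PlaneConclusion ρ ε t := by
  classical
  have h2R : (2 : R) ≠ 0 := two_ne_zero
  obtain ⟨x₀, hx₀⟩ := exists_ne (0 : Λ)
  have htc : t c = 0 :=
    hQ.t_invol hc hεc x₀ (fun r hr => (smul_eq_zero.mp hr).resolve_right hx₀)
  -- a nonzero eigenvector of `ρ c`
  have hex : ∃ (s : R) (u : Λ), s * s = 1 ∧ u ≠ 0 ∧ ρ c u = s • u := by
    by_cases h1 : x₀ + ρ c x₀ = 0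
    · refine ⟨-1, x₀ + (-1 : R) • ρ c x₀, by ring, ?_, ?_⟩
      · intro h
        have : (2 : R) • x₀ = 0 := by
          have e : (2 : R) • x₀ = (x₀ + ρ c x₀) + (x₀ + (-1 : R) • ρ c x₀) := by
            rw [two_smul, neg_one_smul]; abel
          rw [e, h1, h, add_zero]
        exact hx₀ ((smul_eq_zero.mp this).resolve_left h2R)
      · rw [map_add, map_smul, rho_invol_apply ρ hc, smul_add, smul_smul]
        simp only [neg_mul_neg, one_smul, mul_one]
        rw [add_comm]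
    · refine ⟨1, x₀ + ρ c x₀, by ring, h1, ?_⟩
      rw [map_add, rho_invol_apply ρ hc, one_smul, add_comm]
  obtain ⟨s, u, hs, hu0, hcu⟩ := hex
  have hs' : (-s) * (-s) = 1 := by rw [neg_mul_neg, hs]
  rcases line_or_eigen_sub ρ ε t hQ c hc htc s hs u hu0 hcu with h | ⟨w, hwM, hw0, hcw⟩
  · exact Or.inl h
  rcases line_or_eigen_sub ρ ε t hQ c hc htc (-s) hs' w hw0 hcw with h | ⟨u', hu'M, hu'0, hcu'⟩
  · exact Or.inl h
  rw [neg_neg] at hcu'
  -- plane case, with `M' = satSub (gSpan ρ w)`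
  have hMstab : ∀ (g : G) (x : Λ), x ∈ satSub (gSpan ρ u) → ρ g x ∈ satSub (gSpan ρ u) :=
    fun g x hx => map_mem_satSub (ρ g) (gSpan_stable ρ u g) hx
  have hM'stab : ∀ (g : G) (x : Λ), x ∈ satSub (gSpan ρ w) → ρ g x ∈ satSub (gSpan ρ w) :=
    fun g x hx => map_mem_satSub (ρ g) (gSpan_stable ρ w g) hx
  have hM'M : satSub (gSpan ρ w) ≤ satSub (gSpan ρ u) :=
    satSub_le (gSpan_le ρ w _ hwM hMstab) (isSatSub_satSub _)
  obtain ⟨r, u₁, hr, hru, hprimu⟩ := exists_primVec_of_ne_zero (R := R) hu0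
  obtain ⟨r', w₁, hr', hrw, hprimw⟩ := exists_primVec_of_ne_zero (R := R) hw0
  have hleu : satSub (Submodule.span R {u}) ≤ Submodule.span R {u₁} := by
    rw [← hprimu.satSub_span]
    apply satSub_mono
    rw [Submodule.span_singleton_le_iff_mem, hru]
    exact Submodule.smul_mem _ _ (Submodule.mem_span_singleton_self u₁)
  have hlew : satSub (Submodule.span R {w}) ≤ Submodule.span R {w₁} := by
    rw [← hprimw.satSub_span]
    apply satSub_mono
    rw [Submodule.span_singleton_le_iff_mem, hrw]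
    exact Submodule.smul_mem _ _ (Submodule.mem_span_singleton_self w₁)
  have hplus : ∀ x ∈ satSub (gSpan ρ w), ρ c x = s • x → x ∈ Submodule.span R {u₁} :=
    fun x hx hcx => hleu (eigen_mem_satSub_span hQ hc htc h2R s hs u hcu x (hM'M hx) hcx)
  have hminus : ∀ x ∈ satSub (gSpan ρ w), ρ c x = (-s) • x → x ∈ Submodule.span R {w₁} :=
    fun x hx hcx => hlew (eigen_mem_satSub_span hQ hc htc h2R (-s) hs' w hcw x hx hcx)
  -- `u₁`, `w₁` lie in `M'` and are eigenvectors
  obtain ⟨a, ha⟩ := Submodule.mem_span_singleton.mp (hplus u' hu'M hcu')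
  have ha0 : a ≠ 0 := by
    rintro rfl
    rw [zero_smul] at ha
    exact hu'0 ha.symm
  have hu₁M' : u₁ ∈ satSub (gSpan ρ w) := by
    apply isSatSub_satSub _ a u₁ ha0
    rw [ha]; exact hu'M
  have hu₁0 : u₁ ≠ 0 := by
    rintro rfl
    rw [smul_zero] at hru
    exact hu0 hru
  have hw₁0 : w₁ ≠ 0 := by
    rintro rfl
    rw [smul_zero] at hrw
    exact hw0 hrw
  have hcu₁ : ρ c u₁ = s • u₁ := by
    have h1 : r • (ρ c u₁ - s • u₁) = 0 := by
      rw [smul_sub, ← map_smul, ← hru, hcu, hru, smul_comm, sub_self]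
    exact sub_eq_zero.mp ((smul_eq_zero.mp h1).resolve_left hr)
  have hw₁M' : w₁ ∈ satSub (gSpan ρ w) := by
    apply isSatSub_satSub _ r' w₁ hr'
    rw [← hrw]
    exact le_satSub _ (mem_gSpan_self ρ w)
  have hcw₁ : ρ c w₁ = (-s) • w₁ := by
    have h1 : r' • (ρ c w₁ - (-s) • w₁) = 0 := by
      rw [smul_sub, ← map_smul, ← hrw, hcw, hrw, smul_comm, sub_self]
    exact sub_eq_zero.mp ((smul_eq_zero.mp h1).resolve_left hr')
  exact Or.inr <| planeConclusion_of_plane ρ ε t hQ c hc htc s hs (satSub (gSpan ρ w)) (isSatSub_satSub _)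
    hM'stab u₁ w₁ hu₁M' hw₁M' hu₁0 hw₁0 hcu₁ hcw₁ hplus hminus

end Main

end Fermat.Agent.S32
end MergeWrap_S32_Plane

section MergeWrap_S32_NoLine -- from S32/NoLine.lean

/-!
# S32 glue, piece P2a: a representation whose trace is a sum of two characters has no four
matrices spanning `M₂(R)`
(architect: helper62; proof: helper12)

Proof: `D g := diagonal ![η g, η' g]` is multiplicative with the same trace as `r`, so
`gramMat r g = gramMat D g` (entries `trace (r (g j * g l))`); the row `(0, 1)` of `coordMat D g`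
is zero, so `det (coordMat D g) = 0`, so `det (gramMat D g) = 0` (`gramMat_eq`), while
`IsUnit (gramMat r g).det` by `isUnit_det_gramMat_iff`.
-/

set_option autoImplicit false

namespace Fermat.Agent.S32

open Matrix Fermat.Agent.TraceRigidity

/-- the diagonal family of two characters. -/
def noLineDiag {R : Type*} [CommRing R] {G : Type*} (η η' : G → R) (x : G) :
    Matrix (Fin 2) (Fin 2) R :=
  Matrix.diagonal ![η x, η' x]

theorem noLineDiag_mul {R : Type*} [CommRing R] {G : Type*} [Monoid G] (η η' : G →* R)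
    (x y : G) : noLineDiag η η' (x * y) = noLineDiag η η' x * noLineDiag η η' y := by
  unfold noLineDiag
  rw [Matrix.diagonal_mul_diagonal]
  congr 1
  ext i
  fin_cases i <;> simp

theorem noLineDiag_trace {R : Type*} [CommRing R] {G : Type*} (η η' : G → R) (x : G) :
    (noLineDiag η η' x).trace = η x + η' x := by
  unfold noLineDiag
  rw [Matrix.trace_diagonal, Fin.sum_univ_two]
  rfl

theorem det_coordMat_noLineDiag {R : Type*} [CommRing R] {G : Type*} (η η' : G → R)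
    (g : Fin 2 × Fin 2 → G) : (coordMat (noLineDiag η η') g).det = 0 := by
  refine Matrix.det_eq_zero_of_row_eq_zero ((0 : Fin 2), (1 : Fin 2)) fun j => ?_
  show noLineDiag η η' (g j) 0 1 = 0
  unfold noLineDiag
  exact Matrix.diagonal_apply_ne _ (by decide)

/-- **P2a.** -/
theorem not_isUnit_det_coordMat_of_trace_eq_add {R : Type*} [CommRing R] [Nontrivial R]
    {G : Type*} [Monoid G] (r : G →* Matrix (Fin 2) (Fin 2) R) (η η' : G →* R)
    (htr : ∀ x : G, (r x).trace = η x + η' x) (g : Fin 2 × Fin 2 → G) :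
    ¬ IsUnit (coordMat (fun x => r x) g).det := by
  intro hu
  have hG : gramMat (fun x => r x) g = gramMat (noLineDiag η η') g := by
    ext j l
    simp only [gramMat, Matrix.of_apply]
    rw [← map_mul, htr, ← noLineDiag_mul, noLineDiag_trace]
  have h1 : IsUnit (gramMat (fun x => r x) g).det := (isUnit_det_gramMat_iff _ g).2 hu
  rw [hG, gramMat_eq, Matrix.det_mul, Matrix.det_transpose, det_coordMat_noLineDiag,
    zero_mul] at h1
  exact not_isUnit_zero h1

end Fermat.Agent.S32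
end MergeWrap_S32_NoLine

section MergeWrap_S32_PlaneRep -- from S32/PlaneRep.lean

/-!
# S32 glue, piece P2: a residually absolutely irreducible representation with the Frobenius
characteristic polynomials of a `FrobLattice` embeds in the lattice
(owner: helper62)

`exists_embedding_of_frobLattice`: let `L` be a `FrobLattice` over a discrete valuation ring `O`
(characteristic zero) for the eigenvalues `a`, and `ρ₁ : GaloisRepAdic O` a representation, four of
whose matrices span `M₂(O)`, with `charpoly ρ₁(Frob_ℓ) = X² - a_ℓ X + ℓ` for the primes `ℓ ∉ S`.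
Then there is an injective `G_ℚ`-equivariant `O`-linear map `ρ₁.V → L.Λ` with saturated image.
-/

set_option autoImplicit false
set_option linter.unusedSectionVars false
set_option linter.style.haveILetI false

namespace Fermat.Agent.S32

open Module Polynomial IsLocalRing Matrix Fermat.Agent.S30 Fermat.Agent.TraceRigidity

local notation "GQ" => (AlgebraicClosure ℚ ≃ₐ[ℚ] AlgebraicClosure ℚ)

section

variable {p N : ℕ} {S : Finset ℕ} {O : Type} [CommRing O] [IsDomain O]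
  [IsDiscreteValuationRing O] [CharZero O]

/-- The representation on a saturated stable submodule of rank two of a `FrobLattice`. -/
noncomputable def planeRep (a : ℕ → O) (L : FrobLattice p N S O a) (M : Submodule O L.Λ)
    (hM : ∀ (g : GQ) (x : L.Λ), x ∈ M → L.ρ g x ∈ M) (hsat : IsSatSub M)
    (hfin : Module.finrank O M = 2) : GaloisRepAdic O :=
  { V := M
    finrank_eq := hfin
    ρ := restrictRepR L.ρ M hM
    isAdicContinuous := by
      intro n
      obtain ⟨L₁, hL₁fin, hL₁⟩ := L.cont n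
      refine ⟨L₁, hL₁fin, fun σ hσ y => ?_⟩
      obtain ⟨ϖ, hϖ⟩ := IsDiscreteValuationRing.exists_irreducible O
      obtain ⟨z, hz⟩ := (mem_maximalIdeal_pow_smul_top hϖ n _).mp (hL₁ σ hσ (y : L.Λ))
      have hzM : z ∈ M := by
        apply hsat (ϖ ^ n) z (pow_ne_zero _ hϖ.ne_zero)
        rw [← hz]
        exact M.sub_mem (hM σ _ y.2) y.2
      rw [mem_maximalIdeal_pow_smul_top hϖ]
      refine ⟨⟨z, hzM⟩, ?_⟩
      apply Subtype.ext
      simpa using hz }

/-- **P2.** -/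
theorem exists_embedding_of_frobLattice (hdens : Fermat.Agent.F3.FrobDensityLite) (hpS : p ∈ S) (a : ℕ → O)
    (L : FrobLattice p N S O a) (E : CycloCharData p O)
    (ρ₁ : GaloisRepAdic O) (b₁ : Basis (Fin 2) O ρ₁.V) (g : Fin 2 × Fin 2 → GQ)
    (hg : IsUnit (coordMat (fun σ => LinearMap.toMatrix b₁ b₁ (ρ₁.ρ σ)) g).det)
    (hfrob : ∀ ℓ : ℕ, ℓ.Prime → ℓ ∉ S →
      ∀ A : ValuationSubring (AlgebraicClosure ℚ), A.LiesOverPrime ℓ →
        ∀ σ : GQ, A.IsFrobeniusAt σ ℓ →
          LinearMap.charpoly (ρ₁.ρ σ) = X ^ 2 - C (a ℓ) * X + C ((ℓ : O))) :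
    ∃ f : ρ₁.V →ₗ[O] L.Λ, Function.Injective f ∧
      (∀ (σ : GQ) (v : ρ₁.V), f (ρ₁.ρ σ v) = L.ρ σ (f v)) ∧
      ∀ (c : O) (x : L.Λ), c ≠ 0 → c • x ∈ LinearMap.range f → x ∈ LinearMap.range f := by
  classical
  obtain ⟨t, hQ, ht⟩ := exists_quadRel_of_frobLattice hdens hpS a L E
  -- the abstract representation of S30 and the trace of `ρ₁`
  have htr₁ : ∀ σ : GQ, LinearMap.trace O ρ₁.V (ρ₁.ρ σ) = t σ := by
    obtain ⟨V, iV1, iV2, iV3, iV4, ρ', hfin, hchar, hcont, hker⟩ :=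
      repConclusion_of_quadRel L.ρ E.ε t hQ complexConjugation complexConjugation_mul_self E.conj
    have hadic : GaloisActionIsAdicContinuous O ρ' := by
      intro n
      obtain ⟨L₁, hL₁fin, hL₁⟩ := L.cont n
      obtain ⟨L₂, hL₂fin, hL₂⟩ := E.level n
      refine ⟨L₁ ⊔ L₂, IntermediateField.finiteDimensional_sup L₁ L₂, ?_⟩
      intro σ hσ v
      exact hcont n σ (hL₁ σ (fun x hx => hσ x (le_sup_left (a := L₁) (b := L₂) hx)))
        (hL₂ σ (fun x hx => hσ x (le_sup_right (a := L₁) (b := L₂) hx))) v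
    set ρA : GaloisRepAdic O :=
      { V := V, finrank_eq := hfin, ρ := ρ', isAdicContinuous := hadic } with hρA
    intro σ
    have h1 := trace_eq_of_charpoly_frob_eq hdens ρ₁ ρA S (fun ℓ hℓ hℓS A hA τ hτ => by
      have hℓp : ℓ ≠ p := fun h => hℓS (h ▸ hpS)
      rw [hfrob ℓ hℓ hℓS A hA τ hτ]
      show _ = LinearMap.charpoly (ρ' τ)
      rw [hchar τ, ht ℓ hℓ hℓS A hA τ hτ, E.frob ℓ hℓ hℓp A hA τ hτ]) σ
    rw [h1]
    exact (Fermat.Agent.S34.trace_det_of_charpoly_eq hfin (ρ' σ) _ _ (hchar σ)).1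
  rcases line_or_plane_of_quadRel L.ρ E.ε t hQ complexConjugation complexConjugation_mul_self
    E.conj with ⟨u, hu0, hu⟩ | ⟨M, hM, hsat, hfinM, hcharM⟩
  · -- the line case is impossible
    exfalso
    have hsmul : ∀ {c d : O}, c • u = d • u → c = d := fun {c d} h =>
      smul_left_injective O hu0 h
    choose η hη using fun σ : GQ => Submodule.mem_span_singleton.mp (hu σ)
    -- hη : η σ • u = L.ρ σ u
    have hη1 : η 1 = 1 := by
      apply hsmul
      rw [hη, map_one, Module.End.one_apply, one_smul]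
    have hηmul : ∀ σ τ : GQ, η (σ * τ) = η σ * η τ := by
      intro σ τ
      apply hsmul
      rw [hη, map_mul, Module.End.mul_apply, ← hη τ, map_smul, ← hη σ, smul_smul, mul_comm]
    let ηh : GQ →* O := { toFun := η, map_one' := hη1, map_mul' := hηmul }
    have hinv : ∀ σ : GQ, η σ * η σ⁻¹ = 1 := fun σ => by
      rw [← hηmul, mul_inv_cancel, hη1]
    let η₂ : GQ →* O :=
      { toFun := fun σ => ((E.ε σ : Oˣ) : O) * η σ⁻¹
        map_one' := by simp [hη1]
        map_mul' := fun σ τ => by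
          simp only [map_mul, Units.val_mul, _root_.mul_inv_rev, hηmul]
          ring }
    have hquad : ∀ σ : GQ, η σ * η σ - t σ * η σ + ((E.ε σ : Oˣ) : O) = 0 := by
      intro σ
      apply hsmul
      have h1 := hQ.apply σ u
      rw [zero_smul, ← h1, ← hη σ, map_smul, ← hη σ]
      simp only [add_smul, sub_smul, mul_smul]
    have ht2 : ∀ σ : GQ, t σ = η σ + ((E.ε σ : Oˣ) : O) * η σ⁻¹ := by
      intro σ
      have h1 := hquad σ
      have h2 := hinv σ
      linear_combination (-(η σ⁻¹)) * h1 + (η σ - t σ) * h2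
    set r : GQ →* Matrix (Fin 2) (Fin 2) O :=
      ((LinearMap.toMatrixAlgEquiv b₁ : Module.End O ρ₁.V ≃ₐ[O] Matrix (Fin 2) (Fin 2) O) :
        Module.End O ρ₁.V →* Matrix (Fin 2) (Fin 2) O).comp ρ₁.ρ with hr
    have hra : ∀ σ, r σ = LinearMap.toMatrix b₁ b₁ (ρ₁.ρ σ) := fun σ => rfl
    refine not_isUnit_det_coordMat_of_trace_eq_add r ηh η₂ (fun σ => ?_) g hg
    rw [hra, ← LinearMap.trace_eq_matrix_trace O b₁, htr₁, ht2]
    rfl
  · -- the plane case
    have htrM : ∀ σ : GQ, LinearMap.trace O (planeRep a L M hM hsat hfinM).V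
        ((planeRep a L M hM hsat hfinM).ρ σ) = t σ := fun σ =>
      (Fermat.Agent.S34.trace_det_of_charpoly_eq hfinM (restrictRepR L.ρ M hM σ) _ _
        (hcharM σ)).1
    obtain ⟨e⟩ := isEquiv_of_trace_eq_of_basis ρ₁ (planeRep a L M hM hsat hfinM) b₁ g hg
      (fun σ => (htr₁ σ).trans (htrM σ).symm)
    let e' : ρ₁.V ≃ₗ[O] M := e.toLinearEquiv
    have he' : ∀ (σ : GQ) (v : ρ₁.V), e' (ρ₁.ρ σ v) = restrictRepR L.ρ M hM σ (e' v) :=
      fun σ v => e.map_apply σ v
    refine ⟨M.subtype ∘ₗ (e' : ρ₁.V →ₗ[O] M), ?_, ?_, ?_⟩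
    · exact (Submodule.injective_subtype M).comp e'.injective
    · intro σ v
      show ((e' (ρ₁.ρ σ v) : M) : L.Λ) = L.ρ σ ((e' v : M) : L.Λ)
      rw [he']
      rfl
    · rintro c x hc ⟨v, hv⟩
      have hxM : x ∈ M := by
        apply hsat c x hc
        rw [← hv]
        exact (e' v).2
      refine ⟨e'.symm ⟨x, hxM⟩, ?_⟩
      show ((e' (e'.symm ⟨x, hxM⟩) : M) : L.Λ) = x
      rw [LinearEquiv.apply_symm_apply]

end

end Fermat.Agent.S32
end MergeWrap_S32_PlaneRep

section MergeWrap_S32_LatticeEval -- from S32/LatticeEval.lean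

/-!
# S32 glue, piece P3: the Tate eigen-lattice of `J₀(N)` with its evaluation maps
(architect: helper62; proof: helper65)

Same construction as `Fermat.Agent.S30.frobLattice_of_interfaces` (the lattice is
`S30Tate.eigenTate`, the action `eigenTateRep (galBC 𝒪 J)`), keeping in addition the evaluation
maps `ev m : Λ → 𝒪 ⊗ J`, `X ↦ X m` (`S30Tate.tateEval`): they are Galois-equivariant, land in the
`p ^ m`-torsion (`S30Tate.eigenTate_pow_smul_self`) and have kernel `p ^ m Λ`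
(`S30Tate.exists_eq_pow_smul` + `S30Tate.eigenTate_saturated`).

* `exists_eigenLattice_eval` : the abstract form (`S30Tate.exists_eigenLattice` with the
  evaluation maps);
* `exists_frobLattice_eval` : **P3**.
-/

set_option autoImplicit false
set_option linter.unusedSectionVars false
set_option linter.style.haveILetI false

noncomputable section

namespace Fermat.Agent.S32

open ModularCurve AlgebraicCurve IsLocalRing Fermat.Agent.S30 Fermat.Agent.S30Tate
open scoped TensorProduct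

/-- **the eigen-lattice with its evaluation maps, abstract form**
(`S30Tate.exists_eigenLattice` + `ev`). -/
theorem exists_eigenLattice_eval
    {O : Type} [CommRing O] [IsDomain O] [IsDiscreteValuationRing O]
    [IsAdicComplete (maximalIdeal O) O] [CharZero O]
    {p : ℕ} (hp : p.Prime) (hpO : (p : O) ∈ maximalIdeal O)
    {J : Type} [AddCommGroup J] {G : Type} [Group G] [DistribMulAction G J]
    {ι : Type} (T : ι → Module.End ℤ J) (c : ι → O)
    (hT : ∀ i (σ : G) (x : J), T i (σ • x) = σ • T i x)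
    (hfin : {x : J | p • x = 0}.Finite)
    (μ : ∀ n, Submodule.torsionBy ℤ J ((p ^ (n + 1) : ℕ) : ℤ) →ₗ[ℤ]
      Submodule.torsionBy ℤ J ((p ^ n : ℕ) : ℤ))
    (hμ : ∀ n (y : Submodule.torsionBy ℤ J ((p ^ (n + 1) : ℕ) : ℤ)),
      ((μ n y : Submodule.torsionBy ℤ J ((p ^ n : ℕ) : ℤ)) : J) = (p : ℤ) • (y : J))
    (Tt : ∀ (_ : ι) (n : ℕ), Submodule.torsionBy ℤ J ((p ^ n : ℕ) : ℤ) →ₗ[ℤ]
      Submodule.torsionBy ℤ J ((p ^ n : ℕ) : ℤ))
    (hTt : ∀ i n (y : Submodule.torsionBy ℤ J ((p ^ n : ℕ) : ℤ)),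
      ((Tt i n y : Submodule.torsionBy ℤ J ((p ^ n : ℕ) : ℤ)) : J) = T i (y : J))
    (x : (n : ℕ) → O ⊗[ℤ] Submodule.torsionBy ℤ J ((p ^ n : ℕ) : ℤ))
    (hx0 : ∃ n, x n ≠ 0)
    (hcompat : ∀ n, (μ n).baseChange O (x (n + 1)) = x n)
    (heig : ∀ i n, (Tt i n).baseChange O (x n) = c i • x n) :
    ∃ (Λ : Type) (_ : AddCommGroup Λ) (_ : Module O Λ) (_ : Module.Free O Λ)
      (_ : Module.Finite O Λ) (_ : Nontrivial Λ) (ρ : G →* Module.End O Λ)
      (ev : ℕ → Λ →ₗ[O] O ⊗[ℤ] J),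
      (∀ (n : ℕ) (σ : G), (∀ y : J, p ^ n • y = 0 → σ • y = y) →
          ∀ v : Λ, ρ σ v - v ∈ (maximalIdeal O ^ n) • (⊤ : Submodule O Λ)) ∧
      (∀ σ : G, (∀ (n : ℕ) (y : J), p ^ n • y = 0 → σ • y = y) → ρ σ = 1) ∧
      (∀ (σ : G) (i : ι) (ℓ : ℕ),
          (∀ (n : ℕ) (y : J), p ^ n • y = 0 → σ • σ • y - T i (σ • y) + ℓ • y = 0) →
          ρ σ * ρ σ - c i • ρ σ + (ℓ : O) • (1 : Module.End O Λ) = 0) ∧
      (∀ (m : ℕ) (σ : G) (v : Λ), ev m (ρ σ v) = galBC O J σ (ev m v)) ∧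
      (∀ (m : ℕ) (v : Λ), (p : O) ^ m • ev m v = 0) ∧
      (∀ (m : ℕ) (v : Λ), ev m v = 0 → ∃ y : Λ, v = (p : O) ^ m • y) := by
  have hπ0 : (p : O) ≠ 0 := Nat.cast_ne_zero.mpr hp.ne_zero
  have hfg : (Submodule.torsionBy O (O ⊗[ℤ] J) (p : O)).FG := torsionBy_tensor_fg O p hfin
  have hcomm : ∀ (σ : G) (i : ι) (m : O ⊗[ℤ] J),
      (T i).baseChange O (galBC O J σ m) = galBC O J σ ((T i).baseChange O m) :=
    fun σ i m => galBC_comm O (T i) (hT i) σ m
  have hcast : ∀ (n : ℕ) (m : O ⊗[ℤ] J), (p : O) ^ n • m = 0 →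
      ((p ^ n : ℕ) : O) • m = 0 := fun n m hm => by
    rw [Nat.cast_pow]; exact hm
  obtain ⟨X, hX, hXne⟩ := exists_mem_eigenTate_ne_zero T c μ hμ Tt hTt x hx0 hcompat heig
  refine ⟨eigenTate (p : O) (fun i => (T i).baseChange O) c, inferInstance, inferInstance,
    eigenTate_free hpO hπ0 hfg, eigenTate_finite hpO hπ0 hfg,
    ⟨⟨⟨X, hX⟩, 0, fun h => hXne (congrArg Subtype.val h)⟩⟩,
    eigenTateRep (galBC O J) hcomm,
    fun m => (LinearMap.proj m).comp
      (eigenTate (p : O) (fun i => (T i).baseChange O) c).subtype, ?_, ?_, ?_, ?_, ?_, ?_⟩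
  · intro n σ hfix v
    exact eigenTateRep_sub_mem (galBC O J) hcomm hpO hπ0
      (fun m hm => galBC_fix O (p ^ n) σ hfix m (hcast n m hm)) v
  · intro σ hfix
    apply eigenTateRep_eq_one
    intro n m hm
    exact galBC_fix O (p ^ n) σ (hfix n) m (hcast n m hm)
  · intro σ i ℓ hq
    exact eigenTateRep_quadratic (h := fun i => (T i).baseChange O) (galBC O J) hcomm i (ℓ : O)
      (fun n m hm => galBC_quadratic O (p ^ n) σ (T i) ℓ (hq n) m (hcast n m hm))
  · -- equivariance of the evaluation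
    intro m σ v
    rfl
  · -- the values are killed by `p ^ m`
    intro m v
    exact eigenTate_pow_smul_self v m
  · -- the kernel of the evaluation
    intro m v hv
    obtain ⟨y, hy, hy'⟩ := exists_eq_pow_smul v.2.1 (m := m) hv
    have hy2 : y ∈ eigenTate (p : O) (fun i => (T i).baseChange O) c :=
      eigenTate_saturated hpO (pow_ne_zero m hπ0) hy (hy' ▸ v.2)
    exact ⟨⟨y, hy2⟩, Subtype.ext hy'⟩

/-- **P3.** The Tate eigen-lattice at a point `χ` of the Hecke algebra, with evaluation maps. -/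
theorem exists_frobLattice_eval (N : ℕ) [NeZero N]
    (hE : EigenclassPadic N) (hFin : F3.TorsionFinite N)
    (hUnr : F3.TorsionUnramified N) (hFrob : F3.TorsionFrobQuadratic N)
    (hOpen : F3.TorsionOpenStab N) (hComm : F3.HeckeGaloisComm N)
    (p : ℕ) [Fact p.Prime] (S : Finset ℕ) (hpS : p ∈ S)
    (hNS : ∀ q : ℕ, q.Prime → q ∣ N → q ∈ S)
    (𝒪 : Type) [CommRing 𝒪] [IsDomain 𝒪] [IsDiscreteValuationRing 𝒪]
    [IsAdicComplete (maximalIdeal 𝒪) 𝒪] [Finite (ResidueField 𝒪)] [CharZero 𝒪]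
    (hp𝒪 : (p : 𝒪) ∈ maximalIdeal 𝒪) (χ : CuspForm.heckeAlgebra N 2 (↑S : Set ℕ) →+* 𝒪) :
    ∃ (L : FrobLattice p N S 𝒪 (heckeEigenvalue χ))
      (ev : ℕ → L.Λ →ₗ[𝒪] 𝒪 ⊗[ℤ] JZero N),
      (∀ (m : ℕ) (σ : GQ) (x : L.Λ), ev m (L.ρ σ x) = galBC 𝒪 (JZero N) σ (ev m x)) ∧
      (∀ (m : ℕ) (x : L.Λ), (p : 𝒪) ^ m • ev m x = 0) ∧
      (∀ (m : ℕ) (x : L.Λ), ev m x = 0 → ∃ y : L.Λ, x = (p : 𝒪) ^ m • y) := by
  have hp : p.Prime := Fact.out
  obtain ⟨x, hx0, hcompat, heig⟩ := hE p S hpS hNS 𝒪 hp𝒪 χ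
  obtain ⟨Λ, _, _, _, _, _, ρ, ev, hcont, hunr, hfrob, hev1, hev2, hev3⟩ :=
    exists_eigenLattice_eval (O := 𝒪) (G := GQ) (J := JZero N) (ι := HeckeIdx N S) hp hp𝒪
      (fun i => heckeOperatorBar N ⟨i.1, i.2.1⟩)
      (fun i => χ (CuspForm.heckeAlgebra.T i.2.1 i.2.2.1 i.2.2.2))
      (fun i σ y => hComm ⟨i.1, i.2.1⟩ σ y)
      (hFin p hp.pos)
      (fun n => mulPTors N p n)
      (fun n y => mulPTors_coe N p n y)
      (fun i n => F3.heckeTors N (p ^ n) ⟨i.1, i.2.1⟩)
      (fun i n y => rfl)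
      x hx0 hcompat
      (fun i n => heig n i.1 i.2.1 i.2.2.1 i.2.2.2)
  refine ⟨{
    Λ := Λ
    ρ := ρ
    cont := ?_
    unram := ?_
    frob := ?_ }, ev, hev1, hev2, hev3⟩
  · -- adic continuity
    intro n
    have hpos : 0 < p ^ n := pow_pos hp.pos n
    haveI : Finite {y : JZero N // p ^ n • y = 0} := (hFin (p ^ n) hpos).to_subtype
    choose L hLfin hL using fun y : {y : JZero N // p ^ n • y = 0} => hOpen (p ^ n) hpos y.1 y.2
    haveI : ∀ y, FiniteDimensional ℚ (L y) := hLfin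
    refine ⟨⨆ y, L y, inferInstance, fun σ hσ v => ?_⟩
    have hfix : ∀ y : JZero N, p ^ n • y = 0 → σ • y = y := fun y hy =>
      hL ⟨y, hy⟩ σ (fun z hz => hσ z (le_iSup L ⟨y, hy⟩ hz))
    exact hcont n σ hfix v
  · -- unramified
    intro q hq hqN hqp P hP σ hσ
    exact hunr σ (fun n y hy =>
      hUnr (p ^ n) q hq (not_dvd_mul_pow hp hq hqN hqp n) P hP σ hσ y hy)
  · -- Frobenius relation
    intro ℓ hℓ hℓS A hA σ hσ
    have hℓS' : ℓ ∉ (↑S : Set ℕ) := fun h => hℓS (Finset.mem_coe.mp h)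
    have hℓN : ¬ ℓ ∣ N := fun h => hℓS (hNS ℓ hℓ h)
    have hℓp : ℓ ≠ p := fun h => hℓS (h ▸ hpS)
    rw [heckeEigenvalue_eq χ hℓ hℓN hℓS']
    exact hfrob σ (⟨ℓ, hℓ, hℓN, hℓS'⟩ : HeckeIdx N S) ℓ (fun n y hy =>
      hFrob (p ^ n) ℓ hℓ (not_dvd_mul_pow hp hℓ hℓN hℓp n) A hA σ hσ y hy)

end Fermat.Agent.S32
end
end MergeWrap_S32_LatticeEval

section MergeWrap_S32_TensorFlat -- from S32/TensorFlat.lean

/-!
# S32 glue, piece P4: Galois modules which embed into `∏ᵢ (Oᵢ ⊗ J)[p ^ m]` are flat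
(architect: helper62; proof: helper57)

`J` an abelian group with an action of `G_ℚ` such that `J[p ^ m]` is the module of points of a
finite flat group scheme over `ℤ_(p)` (hypothesis `hW`, in the exact shape of the frozen S19).
Let `O i` (`i : Fin d`) be flat `ℤ`-algebras with `O i ⧸ (p ^ m)` finite, and
`Φ : V →+ ∏ᵢ O i ⊗ J` an equivariant additive map with values in the `p ^ m`-torsion.  Then every
equivariant quotient `q : V ↠ Q` with `ker Φ ≤ ker q` is flat.

Proof sketch: `X := (ι → J[p ^ m])`, `ι := Σ i, O i ⧸ (p ^ m)` (finite), is flat (`.pi`);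
`π : X →+ ∏ᵢ O i ⊗ J`, `w ↦ (∑_a ã ⊗ w (i, a))ᵢ` (`ã` a lift of `a`) is equivariant and its image is
the whole `p ^ m`-torsion (`S30Tate.exists_torsion_lift` + pure tensors `c ⊗ y`, `y ∈ J[p ^ m]`,
depend only on `c` mod `p ^ m`); `Y := π ⁻¹ (range Φ)` is a stable subgroup and
`Y → range Φ ≅ V ⧸ ker Φ → Q` is onto: `.subquotient`.
-/

set_option autoImplicit false
set_option linter.style.haveILetI false
set_option linter.unusedSectionVars false

noncomputable section

namespace Fermat.Agent.S32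

open Fermat.Agent.S30Tate Fermat.Agent.FlatMod
open scoped TensorProduct

local notation "GK" => (AlgebraicClosure ℚ ≃ₐ[ℚ] AlgebraicClosure ℚ)

section Factor

variable (O : Type) [CommRing O] {J : Type} [AddCommGroup J] (k : ℤ)

/-- The `k`-torsion of `O ⊗ J` is the image of `O ⊗ J[k]` (`k` an integer). -/
theorem tf_exists_lift [Module.Flat ℤ O] (t : O ⊗[ℤ] J) (ht : (k : O) • t = 0) :
    ∃ z : O ⊗[ℤ] Submodule.torsionBy ℤ J k,
      (Submodule.torsionBy ℤ J k).subtype.baseChange O z = t := by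
  have hex : Function.Exact (Submodule.torsionBy ℤ J k).subtype
      (k • (LinearMap.id : J →ₗ[ℤ] J)) := by
    intro y
    simp only [LinearMap.smul_apply, LinearMap.id_coe, id_eq, Submodule.coe_subtype,
      Set.mem_range, Subtype.exists, exists_prop, exists_eq_right, Submodule.mem_torsionBy_iff]
  have h1 := Module.Flat.lTensor_exact O hex
  have h2 : ((k • (LinearMap.id : J →ₗ[ℤ] J)).lTensor O) t = 0 := by
    rw [LinearMap.lTensor_smul, LinearMap.lTensor_id, LinearMap.smul_apply, LinearMap.id_apply]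
    rw [← ht, Int.cast_smul_eq_zsmul]
  obtain ⟨z, hz⟩ := (h1 t).mp h2
  exact ⟨z, hz⟩

/-- Pure tensors `r ⊗ y`, `r ∈ (k)`, `y ∈ J[k]`, vanish. -/
theorem tf_tmul_eq_zero {r : O} (hr : r ∈ Ideal.span {(k : O)})
    (y : Submodule.torsionBy ℤ J k) : r ⊗ₜ[ℤ] (y : J) = 0 := by
  obtain ⟨s, rfl⟩ := Ideal.mem_span_singleton'.1 hr
  have h1 : s * (k : O) = k • s := by rw [zsmul_eq_mul, mul_comm]
  rw [h1, TensorProduct.smul_tmul]
  have := y.2
  rw [Submodule.mem_torsionBy_iff] at this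
  rw [this, TensorProduct.tmul_zero]

variable [Fintype (O ⧸ Ideal.span {(k : O)})]

/-- The map `w ↦ ∑_c c̃ ⊗ w c` from `(O ⧸ k) → J[k]` to `O ⊗ J`. -/
def tfSum : ((O ⧸ Ideal.span {(k : O)}) → Submodule.torsionBy ℤ J k) →+ O ⊗[ℤ] J :=
  AddMonoidHom.mk' (fun w => ∑ c, (Quotient.out c : O) ⊗ₜ[ℤ] ((w c : Submodule.torsionBy ℤ J k) : J))
    (fun w w' => by
      simp only [Pi.add_apply, Submodule.coe_add, TensorProduct.tmul_add,
        Finset.sum_add_distrib])

theorem tfSum_apply (w : (O ⧸ Ideal.span {(k : O)}) → Submodule.torsionBy ℤ J k) :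
    tfSum O k w = ∑ c, (Quotient.out c : O) ⊗ₜ[ℤ] ((w c : Submodule.torsionBy ℤ J k) : J) := rfl

/-- The image of `tfSum` contains the image of `O ⊗ J[k]`. -/
theorem tf_exists_tfSum (z : O ⊗[ℤ] Submodule.torsionBy ℤ J k) :
    ∃ w, tfSum O k w = (Submodule.torsionBy ℤ J k).subtype.baseChange O z := by
  classical
  induction z with
  | zero => exact ⟨0, by rw [map_zero, map_zero]⟩
  | tmul o y =>
    refine ⟨Pi.single (Ideal.Quotient.mk _ o) y, ?_⟩
    rw [tfSum_apply, LinearMap.baseChange_tmul, Submodule.subtype_apply]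
    refine (Finset.sum_eq_single (Ideal.Quotient.mk (Ideal.span {(k : O)}) o) ?_ ?_).trans ?_
    rotate_left 2
    · rw [Pi.single_eq_same]
      have h1 : (Quotient.out (Ideal.Quotient.mk (Ideal.span {(k : O)}) o) : O) - o ∈
          Ideal.span {(k : O)} := by
        rw [← Ideal.Quotient.eq]
        exact Ideal.Quotient.mk_out _
      have h2 := tf_tmul_eq_zero O k h1 y
      rw [TensorProduct.sub_tmul, sub_eq_zero] at h2
      exact h2
    · intro c _ hc
      rw [Pi.single_eq_of_ne hc, Submodule.coe_zero, TensorProduct.tmul_zero]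
    · intro h
      exact absurd (Finset.mem_univ _) h
  | add x y hx hy =>
    obtain ⟨w, hw⟩ := hx
    obtain ⟨w', hw'⟩ := hy
    exact ⟨w + w', by rw [map_add, map_add, hw, hw']⟩

/-- `tfSum` is Galois-equivariant. -/
theorem tfSum_gal [DistribMulAction GK J] (σ : GK)
    (w w' : (O ⧸ Ideal.span {(k : O)}) → Submodule.torsionBy ℤ J k)
    (hw : ∀ c, ((w' c : Submodule.torsionBy ℤ J k) : J) = σ • ((w c : Submodule.torsionBy ℤ J k) : J)) :
    tfSum O k w' = galBC O J σ (tfSum O k w) := by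
  rw [tfSum_apply, tfSum_apply, map_sum]
  refine Finset.sum_congr rfl (fun c _ => ?_)
  rw [galBC_apply, LinearMap.baseChange_tmul, galLinZ_apply, hw]

end Factor

/-- **P4.** -/
theorem isFlat_of_tensor_family {p : ℕ} [Fact p.Prime] (m : ℕ)
    {J : Type} [AddCommGroup J] [DistribMulAction GK J]
    (hW : ∃ (H : Type) (_ : CommRing H) (_ : HopfAlgebra (GaloisRep.ratLocalizedAt p) H),
      Module.Finite (GaloisRep.ratLocalizedAt p) H ∧ Module.Flat (GaloisRep.ratLocalizedAt p) H ∧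
      Coalgebra.IsCocomm (GaloisRep.ratLocalizedAt p) H ∧
      ∃ e : WithConv (H →ₐ[GaloisRep.ratLocalizedAt p] AlgebraicClosure ℚ) ≃
          ↥(Submodule.torsionBy ℤ J ((p : ℤ) ^ m)),
        (∀ f g, e (f * g) = e f + e g) ∧
        ∀ (σ : GK) (f g : WithConv (H →ₐ[GaloisRep.ratLocalizedAt p] AlgebraicClosure ℚ)),
          (∀ h : H, g h = σ (f h)) → ((e g : J)) = σ • (e f : J))
    {d : ℕ} (O : Fin d → Type) [∀ i, CommRing (O i)] [∀ i, Module.Flat ℤ (O i)]
    (hfin : ∀ i, Finite (O i ⧸ Ideal.span {(p : O i) ^ m}))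
    {V Q : Type} [AddCommGroup V] [AddCommGroup Q] (a : GK → V → V) (act : GK → Q → Q)
    (Φ : V →+ ∀ i, O i ⊗[ℤ] J)
    (hΦ : ∀ (σ : GK) (v : V) (i : Fin d), Φ (a σ v) i = galBC (O i) J σ (Φ v i))
    (htors : ∀ (v : V) (i : Fin d), (p : O i) ^ m • Φ v i = 0)
    (q : V →+ Q) (hq : Function.Surjective q) (hqa : ∀ (σ : GK) (v : V), q (a σ v) = act σ (q v))
    (hker : ∀ v : V, Φ v = 0 → q v = 0) :
    Fermat.Agent.FlatMod.IsFlatGaloisModule p Q act := by
  classical
  set k : ℤ := (p : ℤ) ^ m with hk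
  have hkO : ∀ i, ((k : ℤ) : O i) = (p : O i) ^ m := fun i => by
    rw [hk]; push_cast; rfl
  haveI : ∀ i, Finite (O i ⧸ Ideal.span {((k : ℤ) : O i)}) := fun i => by
    rw [hkO i]; exact hfin i
  letI : ∀ i, Fintype (O i ⧸ Ideal.span {((k : ℤ) : O i)}) := fun i => Fintype.ofFinite _
  -- the flat module `W = J[p ^ m]`
  let actW : GK → Submodule.torsionBy ℤ J k → Submodule.torsionBy ℤ J k := fun σ w =>
    ⟨σ • (w : J), by
      have := w.2
      rw [Submodule.mem_torsionBy_iff] at this ⊢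
      have h1 := map_zsmul (DistribSMul.toAddMonoidHom J σ) k (w : J)
      rw [DistribSMul.toAddMonoidHom_apply, DistribSMul.toAddMonoidHom_apply] at h1
      rw [← h1, this, smul_zero]⟩
  have hWflat : IsFlatGaloisModule p (Submodule.torsionBy ℤ J k) actW := by
    obtain ⟨H, i1, i2, h1, h2, h3, e, he1, he2⟩ := hW
    exact ⟨H, i1, i2, h1, h2, h3, e, he1, fun σ f g hfg => Subtype.ext (he2 σ f g hfg)⟩
  -- the flat module `X`
  have hX := hWflat.pi (Σ i : Fin d, O i ⧸ Ideal.span {((k : ℤ) : O i)})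
  -- the map `π`
  let π : ((Σ i : Fin d, O i ⧸ Ideal.span {((k : ℤ) : O i)}) → Submodule.torsionBy ℤ J k) →+
      ∀ i, O i ⊗[ℤ] J :=
    AddMonoidHom.mk' (fun x i => tfSum (O i) k (fun c => x ⟨i, c⟩)) (fun x x' => by
      funext i
      have : (fun c : O i ⧸ Ideal.span {((k : ℤ) : O i)} => (x + x') ⟨i, c⟩) =
          (fun c => x ⟨i, c⟩) + (fun c => x' ⟨i, c⟩) := rfl
      show tfSum (O i) k (fun c => (x + x') ⟨i, c⟩) = _
      rw [this, map_add]
      rfl)
  have hπ : ∀ x i, π x i = tfSum (O i) k (fun c => x ⟨i, c⟩) := fun _ _ => rfl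
  have hπgal : ∀ (σ : GK) x, π (fun j => actW σ (x j)) = fun i => galBC (O i) J σ (π x i) := by
    intro σ x
    funext i
    rw [hπ, hπ]
    exact tfSum_gal (O i) k σ _ _ (fun c => rfl)
  -- every `p ^ m`-torsion family is in the image of `π`
  have hπsurj : ∀ t : ∀ i, O i ⊗[ℤ] J, (∀ i, (p : O i) ^ m • t i = 0) → ∃ x, π x = t := by
    intro t ht
    have h1 : ∀ i, ∃ w, tfSum (O i) k w = t i := by
      intro i
      obtain ⟨z, hz⟩ := tf_exists_lift (O i) k (t i) (by rw [hkO i]; exact ht i)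
      obtain ⟨w, hw⟩ := tf_exists_tfSum (O i) k z
      exact ⟨w, hw.trans hz⟩
    choose w hw using h1
    refine ⟨fun j => w j.1 j.2, ?_⟩
    funext i
    rw [hπ]
    exact hw i
  -- the subgroup `Y`
  let Y : AddSubgroup ((Σ i : Fin d, O i ⧸ Ideal.span {((k : ℤ) : O i)}) →
      Submodule.torsionBy ℤ J k) := (AddMonoidHom.range Φ).comap π
  have hY : ∀ σ : GK, ∀ x ∈ Y, (fun j => actW σ (x j)) ∈ Y := by
    rintro σ x ⟨v, hv⟩
    refine ⟨a σ v, ?_⟩
    rw [hπgal]
    funext i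
    rw [hΦ, hv]
  -- the map `Y → Q`
  have hex : ∀ y : Y, ∃ v : V, Φ v = π y.1 := fun y => y.2
  choose vOf hvOf using hex
  have hqeq : ∀ v v' : V, Φ v = Φ v' → q v = q v' := by
    intro v v' h
    have h1 : Φ (v - v') = 0 := by rw [map_sub, h, sub_self]
    have h2 := hker _ h1
    rw [map_sub, sub_eq_zero] at h2
    exact h2
  let ψ : Y →+ Q := AddMonoidHom.mk' (fun y => q (vOf y)) (fun y y' => by
    rw [← map_add]
    apply hqeq
    rw [map_add, hvOf, hvOf, hvOf]
    exact map_add π y.1 y'.1)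
  have hψ : ∀ y, ψ y = q (vOf y) := fun _ => rfl
  refine hX.subquotient Y hY ψ ?_ ?_
  · intro z
    obtain ⟨v, rfl⟩ := hq z
    obtain ⟨x, hx⟩ := hπsurj (Φ v) (htors v)
    refine ⟨⟨x, ⟨v, hx.symm⟩⟩, ?_⟩
    rw [hψ]
    apply hqeq
    rw [hvOf]
    exact hx
  · intro σ y
    rw [hψ, hψ, ← hqa]
    apply hqeq
    rw [hvOf]
    show π (fun j => actW σ (y.1 j)) = _
    rw [hπgal]
    funext i
    rw [hΦ, hvOf]

end Fermat.Agent.S32
end
end MergeWrap_S32_TensorFlat

section MergeWrap_S32_Small -- from S32/Small.lean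

/-!
# S32 glue, piece P5a/P5f: two small lemmas on local rings
(architect: helper62; proofs: helper12)
-/

set_option autoImplicit false

namespace Fermat.Agent.S32

open IsLocalRing

/-- a natural number prime to `p` is a unit in a local ring with `p` in the maximal ideal. -/
theorem isUnit_natCast_of_coprime {T : Type*} [CommRing T] [IsLocalRing T] (p : ℕ)
    (hpT : (p : T) ∈ maximalIdeal T) (n : ℕ) (hn : Nat.Coprime n p) : IsUnit (n : T) := by
  by_contra hu
  have hnm : (n : T) ∈ maximalIdeal T := (mem_maximalIdeal _).mpr hu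
  have h1 : ((n : ℤ) : T) * ((Nat.gcdA n p : ℤ) : T) + ((p : ℤ) : T) * ((Nat.gcdB n p : ℤ) : T)
      = 1 := by
    have h := Nat.gcd_eq_gcd_ab n p
    rw [hn.gcd_eq_one] at h
    have h2 := congrArg (fun z : ℤ => (z : T)) h
    simp only [Int.cast_add, Int.cast_mul, Nat.cast_one, Int.cast_one, Int.cast_natCast] at h2
    simp only [Int.cast_natCast]
    exact h2.symm
  have h3 : (1 : T) ∈ maximalIdeal T := by
    rw [← h1]
    simp only [Int.cast_natCast]
    exact Ideal.add_mem _ (Ideal.mul_mem_right _ _ hnm) (Ideal.mul_mem_right _ _ hpT)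
  exact (Ideal.ne_top_iff_one _).mp (maximalIdeal.isMaximal T).ne_top h3

/-- **P5a.** In a local ring with `p` in the maximal ideal, every ideal of finite index contains
a power of `p`.  (The additive order `n` of `1` in `T ⧸ I` is `p ^ r * n'` with `n'` prime to `p`,
and `n'` is a unit of `T`.) -/
theorem exists_natCast_pow_mem_of_finite {T : Type*} [CommRing T] [IsLocalRing T] (p : ℕ)
    (hp : p.Prime) (hpT : (p : T) ∈ maximalIdeal T) (I : Ideal T) (hI : Finite (T ⧸ I)) :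
    ∃ r : ℕ, (p : T) ^ r ∈ I := by
  classical
  have hn0 : Nat.card (T ⧸ I) ≠ 0 := Nat.card_pos.ne'
  have hnI : ((Nat.card (T ⧸ I) : ℕ) : T) ∈ I := by
    rw [← Ideal.Quotient.eq_zero_iff_mem, map_natCast]
    have h := card_nsmul_eq_zero' (G := T ⧸ I) (x := 1)
    rwa [nsmul_eq_mul, mul_one] at h
  obtain ⟨r, n', hn', hn⟩ := Nat.exists_eq_pow_mul_and_not_dvd hn0 p hp.ne_one
  have hcop : Nat.Coprime n' p := ((Nat.Prime.coprime_iff_not_dvd hp).mpr hn').symm
  obtain ⟨u, hu⟩ := isUnit_natCast_of_coprime p hpT n' hcop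
  refine ⟨r, ?_⟩
  rw [hn, Nat.cast_mul, Nat.cast_pow, ← hu] at hnI
  have := Ideal.mul_mem_right ((u⁻¹ : Tˣ) : T) I hnI
  rwa [mul_assoc, Units.mul_inv, mul_one] at this

/-- **P5f.** The residue field of a local algebra `T` over a local ring `𝒪` with finite residue
field is finite if `𝒪 → T ⧸ 𝔪_T` is onto. -/
theorem finite_residueField_of_surjective {𝒪 T : Type*} [CommRing 𝒪] [IsLocalRing 𝒪]
    [CommRing T] [IsLocalRing T] [Algebra 𝒪 T] [IsLocalHom (algebraMap 𝒪 T)]
    [Finite (ResidueField 𝒪)]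
    (hsurj : Function.Surjective (IsLocalRing.residue T ∘ algebraMap 𝒪 T)) :
    Finite (ResidueField T) := by
  refine Finite.of_surjective (ResidueField.map (algebraMap 𝒪 T)) fun y => ?_
  obtain ⟨x, hx⟩ := hsurj y
  exact ⟨IsLocalRing.residue 𝒪 x, by rw [ResidueField.map_residue]; exact hx⟩

end Fermat.Agent.S32
end MergeWrap_S32_Small

section MergeWrap_S32_Assembly -- from S32/Assembly.lean

/-!
# S32 from S19: assembly (owner: helper62)

`isFlatAt_of_s19`: the frozen statement of S32 (the representation of a Hecke–Galois datum is flat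
at `p` when `p ∤ N`) from the frozen statement of S19 (`S19Statement`) and the six interface
propositions of cluster A at level `N`.

Route: `T` is reduced and separated, uniformly `p`-adically, by finitely many local points
`ψ_i : T → O_i` in complete discrete valuation rings (`S32/DatumPoints`).  At every point,
`O_i ⊗_T V` embeds `G_ℚ`-equivariantly, with saturated image, in the Tate eigen-lattice `Λ_i` of
`O_i ⊗ J₀(N)` (`S32/PlaneRep`, `S32/LatticeEval`).  Evaluation at level `m` gives an equivariant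
map `Φ : V → ∏_i O_i ⊗ J₀(N)` with values in the `p ^ m`-torsion and kernel in `p ^ r V ⊂ I V`;
so `V / I V` is a quotient of a subgroup of a finite power of `J₀(N)[p ^ m]` (`S32/TensorFlat`).
-/

set_option autoImplicit false
set_option linter.unusedSectionVars false
set_option linter.style.haveILetI false
set_option linter.overlappingInstances false

namespace Fermat.Agent.S32

open Polynomial Module IsLocalRing ModularCurve Fermat.Agent.DVRPoints Fermat.Agent.S30
  Fermat.Agent.S30Tate Fermat.Agent.TraceRigidity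
open scoped TensorProduct

local notation "GQ" => (AlgebraicClosure ℚ ≃ₐ[ℚ] AlgebraicClosure ℚ)

/-- The frozen statement of S19, as a proposition. -/
def S19Statement : Prop :=
  ∀ (p : ℕ) [NeZero p] (ℓ : ℕ) [Fact ℓ.Prime] (_hℓp : ¬ ℓ ∣ p) (k : ℕ),
    ∃ (H : Type) (_ : CommRing H) (_ : HopfAlgebra (GaloisRep.ratLocalizedAt ℓ) H),
      Module.Finite (GaloisRep.ratLocalizedAt ℓ) H ∧ Module.Flat (GaloisRep.ratLocalizedAt ℓ) H ∧
      Coalgebra.IsCocomm (GaloisRep.ratLocalizedAt ℓ) H ∧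
      ∃ e : WithConv (H →ₐ[GaloisRep.ratLocalizedAt ℓ] AlgebraicClosure ℚ) ≃
          ↥(Submodule.torsionBy ℤ (JZero p) ((ℓ : ℤ) ^ k)),
        (∀ f g, e (f * g) = e f + e g) ∧
        ∀ (σ : AlgebraicClosure ℚ ≃ₐ[ℚ] AlgebraicClosure ℚ)
          (f g : WithConv (H →ₐ[GaloisRep.ratLocalizedAt ℓ] AlgebraicClosure ℚ)),
          (∀ h : H, g h = σ (f h)) → ((e g : JZero p)) = σ • (e f : JZero p)

variable {p : ℕ} {N : ℕ} [NeZero N] {S : Finset ℕ}
  {𝒪 : Type} [CommRing 𝒪] [IsDomain 𝒪] [IsDiscreteValuationRing 𝒪]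
  [IsAdicComplete (IsLocalRing.maximalIdeal 𝒪) 𝒪]
  {θ : CuspForm.heckeAlgebra N 2 (↑S : Set ℕ) →+* IsLocalRing.ResidueField 𝒪}
  {T : Type} [CommRing T] [IsLocalRing T] [IsNoetherianRing T]
  [IsAdicComplete (IsLocalRing.maximalIdeal T) T] [Algebra 𝒪 T] [IsLocalHom (algebraMap 𝒪 T)]
  [Module.Finite 𝒪 T] [Module.Free 𝒪 T]

/-- The map from `V` to the torsion of `O ⊗ J₀(N)` at one point of `T`. -/
theorem exists_pointMap
    (hE : EigenclassPadic N) (hFin : F3.TorsionFinite N)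
    (hUnr : F3.TorsionUnramified N) (hFrob : F3.TorsionFrobQuadratic N)
    (hOpen : F3.TorsionOpenStab N) (hComm : F3.HeckeGaloisComm N)
    (hp : p.Prime) (hpS : p ∈ S) (hNS : ∀ q : ℕ, q.Prime → q ∣ N → q ∈ S)
    (H : CuspForm.HeckeGaloisRepDatum N (↑S : Set ℕ) 𝒪 θ T)
    (b : Basis (Fin 2) T H.ρ.V) (g : Fin 2 × Fin 2 → GQ)
    (hg : IsUnit (coordMat (fun σ => LinearMap.toMatrix b b (H.ρ.ρ σ)) g).det)
    (P : DVRPt p T) (hloc : IsLocalHom P.χ) (m : ℕ) :
    ∃ Φ : H.ρ.V →+ P.O ⊗[ℤ] JZero N,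
      (∀ (σ : GQ) (v : H.ρ.V), Φ (H.ρ.ρ σ v) = galBC P.O (JZero N) σ (Φ v)) ∧
      (∀ v : H.ρ.V, (p : P.O) ^ m • Φ v = 0) ∧
      (∀ v : H.ρ.V, Φ v = 0 → ∀ a : Fin 2, P.χ (b.repr v a) ∈ maximalIdeal P.O ^ m) := by
  classical
  haveI : Fact p.Prime := ⟨hp⟩
  letI : Algebra T P.O := P.χ.toAlgebra
  set ρi : GaloisRepAdic P.O := H.ρ.baseChangeAlong P.χ hloc with hρi
  set bi : Basis (Fin 2) P.O ρi.V := Algebra.TensorProduct.basis P.O b with hbi
  have hmat : ∀ τ, LinearMap.toMatrix bi bi (ρi.ρ τ) =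
      (LinearMap.toMatrix b b (H.ρ.ρ τ)).map P.χ := fun τ =>
    LinearMap.toMatrix_baseChange P.O (H.ρ.ρ τ) b b
  have hgi : IsUnit (coordMat (fun τ => LinearMap.toMatrix bi bi (ρi.ρ τ)) g).det := by
    have h1 : coordMat (fun τ => LinearMap.toMatrix bi bi (ρi.ρ τ)) g =
        P.χ.mapMatrix (coordMat (fun τ => LinearMap.toMatrix b b (H.ρ.ρ τ)) g) := by
      ext ab j
      simp only [coordMat, Matrix.of_apply, RingHom.mapMatrix_apply, Matrix.map_apply]
      rw [hmat]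
      rfl
    rw [h1, ← RingHom.map_det]
    exact hg.map P.χ
  set χ : CuspForm.heckeAlgebra N 2 (↑S : Set ℕ) →+* P.O := P.χ.comp H.π with hχ
  obtain ⟨L, ev, hev_eq, hev_tors, hev_ker⟩ :=
    exists_frobLattice_eval N hE hFin hUnr hFrob hOpen hComm p S hpS hNS P.O P.hp χ
  have hfrob_i : ∀ ℓ : ℕ, ℓ.Prime → ℓ ∉ S →
      ∀ A : ValuationSubring (AlgebraicClosure ℚ), A.LiesOverPrime ℓ →
        ∀ σ : GQ, A.IsFrobeniusAt σ ℓ →
          LinearMap.charpoly (ρi.ρ σ) =
            X ^ 2 - C (heckeEigenvalue χ ℓ) * X + C ((ℓ : P.O)) := by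
    intro ℓ hℓ hℓS A hA σ hσ
    have hℓN : ¬ ℓ ∣ N := fun h => hℓS (hNS ℓ hℓ h)
    have hℓS' : ℓ ∉ (↑S : Set ℕ) := fun h => hℓS (Finset.mem_coe.1 h)
    have h1 : LinearMap.charpoly (ρi.ρ σ) = (LinearMap.charpoly (H.ρ.ρ σ)).map P.χ :=
      LinearMap.charpoly_baseChange (H.ρ.ρ σ) P.O
    rw [h1, H.charpoly_frob ℓ hℓ hℓN hℓS' A hA σ hσ, heckeEigenvalue_eq χ hℓ hℓN hℓS']
    simp [Polynomial.map_sub, Polynomial.map_add, Polynomial.map_mul, Polynomial.map_pow, hχ]
  obtain ⟨f, hfinj, hfeq, hfsat⟩ := exists_embedding_of_frobLattice F3.frobDensityLite hpS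
    (heckeEigenvalue χ) L (Fermat.Agent.Cyclo.cycloCharData (p := p) (𝒪 := P.O) P.hp)
    ρi bi g hgi hfrob_i
  let ι : H.ρ.V →+ ρi.V :=
    { toFun := fun v => ((1 : P.O) ⊗ₜ[T] v : P.O ⊗[T] H.ρ.V)
      map_zero' := TensorProduct.tmul_zero _ _
      map_add' := fun x y => TensorProduct.tmul_add _ x y }
  have hι : ∀ (σ : GQ) (v : H.ρ.V), ι (H.ρ.ρ σ v) = ρi.ρ σ (ι v) := fun σ v => rfl
  have hp0 : (p : P.O) ^ m ≠ 0 := pow_ne_zero m (Nat.cast_ne_zero.2 hp.ne_zero)
  refine ⟨(ev m).toAddMonoidHom.comp (f.toAddMonoidHom.comp ι), ?_, ?_, ?_⟩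
  · intro σ v
    show ev m (f (ι (H.ρ.ρ σ v))) = galBC P.O (JZero N) σ (ev m (f (ι v)))
    rw [hι, hfeq, hev_eq]
  · intro v
    exact hev_tors m _
  · intro v hv a
    have hv' : ev m (f (ι v)) = 0 := hv
    obtain ⟨y, hy⟩ := hev_ker m _ hv'
    obtain ⟨w, hw⟩ := hfsat ((p : P.O) ^ m) y hp0 ⟨ι v, by rw [hy]⟩
    have h2 : ι v = (p : P.O) ^ m • w := by
      apply hfinj
      rw [hy, map_smul, hw]
    have h3 : bi.repr (ι v) a = P.χ (b.repr v a) := by
      show (Algebra.TensorProduct.basis P.O b).repr ((1 : P.O) ⊗ₜ[T] v) a = _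
      rw [Algebra.TensorProduct.basis_repr_tmul, one_smul]
      rfl
    rw [← h3, h2, map_smul, Finsupp.smul_apply, smul_eq_mul]
    exact Ideal.mul_mem_right _ _ (Ideal.pow_mem_pow P.hp m)

/-- **S32 from S19** and the interface propositions of cluster A at level `N`. -/
theorem isFlatAt_of_s19 (h19 : S19Statement)
    (hE : EigenclassPadic N) (hFin : F3.TorsionFinite N)
    (hUnr : F3.TorsionUnramified N) (hFrob : F3.TorsionFrobQuadratic N)
    (hOpen : F3.TorsionOpenStab N) (hComm : F3.HeckeGaloisComm N)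
    [Finite (IsLocalRing.ResidueField 𝒪)] [CharZero 𝒪]
    (hp : p.Prime) (hp𝒪 : (p : 𝒪) ∈ IsLocalRing.maximalIdeal 𝒪) (hpN : ¬ p ∣ N)
    (hpS : p ∈ S) (hNS : ∀ q : ℕ, q.Prime → q ∣ N → q ∈ S)
    (H : CuspForm.HeckeGaloisRepDatum N (↑S : Set ℕ) 𝒪 θ T) :
    H.ρ.IsFlatAt p := by
  classical
  haveI : Fact p.Prime := ⟨hp⟩
  refine ⟨finite_residueField_of_surjective H.residue_surjective, fun I hI => ?_⟩
  have hpT : (p : T) ∈ IsLocalRing.maximalIdeal T := by
    have h1 : (p : T) = algebraMap 𝒪 T (p : 𝒪) := by simp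
    rw [h1, IsLocalRing.mem_maximalIdeal, mem_nonunits_iff]
    intro hu
    exact (IsLocalRing.mem_maximalIdeal _).1 hp𝒪 (isUnit_of_map_unit (algebraMap 𝒪 T) _ hu)
  obtain ⟨r, hr⟩ := exists_natCast_pow_mem_of_finite p hp hpT I hI
  obtain ⟨d, P, hP⟩ := dvrSeparation_of_datum hp hNS H
  obtain ⟨m, hm⟩ := hP r
  set b : Basis (Fin 2) T H.ρ.V := Module.finBasisOfFinrankEq T H.ρ.V H.ρ.finrank_eq with hb
  obtain ⟨g, hg⟩ := exists_isUnit_det_coordMat H.ρ H.residual_absIrr b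
  choose Φ hΦeq hΦtors hΦker using fun i : Fin d =>
    exists_pointMap hE hFin hUnr hFrob hOpen hComm hp hpS hNS H b g hg (P i)
      (isLocalHom_of_dvrPt (𝒪 := 𝒪) hp (P i)) m
  have hfin : ∀ i : Fin d, Finite ((P i).O ⧸ Ideal.span {(p : (P i).O) ^ m}) := by
    intro i
    have h1 := finite_quotient_span_natCast (P i).O (p ^ m) (pow_ne_zero m hp.ne_zero)
    rwa [Nat.cast_pow] at h1
  refine isFlat_of_tensor_family (p := p) m (J := JZero N) (h19 N p hpN m)
    (fun i => (P i).O) hfin (fun σ v => H.ρ.ρ σ v) (fun σ x => H.ρ.levelAction I σ x)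
    (AddMonoidHom.pi Φ) (fun σ v i => hΦeq i σ v) (fun v i => hΦtors i v)
    (Submodule.mkQ (I • (⊤ : Submodule T H.ρ.V))).toAddMonoidHom
    (Submodule.mkQ_surjective _) (fun σ v => rfl) ?_
  intro v hv
  have h1 : ∀ a : Fin 2, ∃ Y : T, b.repr v a = (p : T) ^ r * Y := fun a =>
    hm _ fun i => hΦker i v (congrFun hv i) a
  choose Y hY using h1
  show Submodule.mkQ (I • (⊤ : Submodule T H.ρ.V)) v = 0
  rw [Submodule.mkQ_apply, Submodule.Quotient.mk_eq_zero, ← b.sum_repr v]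
  refine Submodule.sum_mem _ fun a _ => ?_
  rw [hY a]
  exact Submodule.smul_mem_smul (Ideal.mul_mem_right _ _ hr) Submodule.mem_top

end Fermat.Agent.S32
end MergeWrap_S32_Assembly

section MergeWrap_S32_Final -- from S32/Final.lean

/-!
# S32 from S19 (owner: helper62)

`s32_of_s19`: the frozen statement of S32, with exactly its binders, from the frozen statement of
S19 (`S19Statement`).  All the inputs of cluster A are theorems on `main`.
-/

set_option autoImplicit false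
set_option linter.unusedSectionVars false
set_option linter.unusedVariables false

namespace Fermat.Agent.S32

variable {p : ℕ} {N : ℕ} [NeZero N] {S : Finset ℕ}
  {𝒪 : Type} [CommRing 𝒪] [IsDomain 𝒪] [IsDiscreteValuationRing 𝒪]
  [IsAdicComplete (IsLocalRing.maximalIdeal 𝒪) 𝒪]
  {θ : CuspForm.heckeAlgebra N 2 (↑S : Set ℕ) →+* IsLocalRing.ResidueField 𝒪}
  {T : Type} [CommRing T] [IsLocalRing T] [IsNoetherianRing T]
  [IsAdicComplete (IsLocalRing.maximalIdeal T) T] [Algebra 𝒪 T] [IsLocalHom (algebraMap 𝒪 T)]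
  [Module.Finite 𝒪 T] [Module.Free 𝒪 T]

/-- **S32 from S19.** -/
theorem s32_of_s19 (h19 : S19Statement)
    [Finite (IsLocalRing.ResidueField 𝒪)] [CharZero 𝒪]
    (hp : p.Prime) (hp2 : p ≠ 2) (hp𝒪 : (p : 𝒪) ∈ IsLocalRing.maximalIdeal 𝒪) (hpN : ¬ p ∣ N)
    (hpS : p ∈ S) (hNS : ∀ q : ℕ, q.Prime → q ∣ N → q ∈ S)
    (H : CuspForm.HeckeGaloisRepDatum N (↑S : Set ℕ) 𝒪 θ T) :
    H.ρ.IsFlatAt p :=
  isFlatAt_of_s19 h19
    (Fermat.Agent.F3W.eigenclassPadic_of_kappaAllW (Fermat.Agent.F3I2.kappaAll N))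
    (Fermat.Agent.F3TF.torsionFinite N)
    (Fermat.Agent.GaussInt.torsionUnramified_of_keyLemmaAt
      (Fermat.Agent.GaussInt.keyLemmaAt_all N))
    (Fermat.Agent.GaussIntFP.torsionFrobQuadratic_of_keyLemmaAt
      (Fermat.Agent.GaussInt.keyLemmaAt_all N) (Fermat.Agent.F3W.heckeInputs_all N))
    (Fermat.Agent.F3.torsionOpenStab N) (Fermat.Agent.F3G.heckeGaloisComm N)
    hp hp𝒪 hpN hpS hNS H

end Fermat.Agent.S32
end MergeWrap_S32_Final

section MergeWrap_S32_PointFlat -- from S32/PointFlat.lean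

/-!
# S32 at one point: flatness of a representation over a discrete valuation ring
(owner: helper62)

`isFlatAt_point_of_s19`: let `O` be a complete discrete valuation ring of characteristic zero with
finite residue field of characteristic `p`, `χ : 𝕋 → O` a point of the Hecke algebra of level `N`
(`p ∤ N`), and `ρ₀ : GaloisRepAdic O` a representation with the Frobenius characteristic
polynomials of `χ`, four of whose matrices form a basis of `M₂(O)`.  Then `ρ₀` is flat at `p`.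

This is the proof of `isFlatAt_of_s19` with one point (no Hecke–Galois datum is needed);
`isFlatAt_point` is the same statement with all the inputs discharged except S19.
-/

set_option autoImplicit false
set_option linter.unusedSectionVars false
set_option linter.unusedVariables false
set_option linter.style.haveILetI false
set_option linter.overlappingInstances false

namespace Fermat.Agent.S32

open Polynomial Module IsLocalRing ModularCurve Fermat.Agent.DVRPoints Fermat.Agent.S30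
  Fermat.Agent.S30Tate Fermat.Agent.TraceRigidity
open scoped TensorProduct

local notation "GQ" => (AlgebraicClosure ℚ ≃ₐ[ℚ] AlgebraicClosure ℚ)

variable {p : ℕ} {N : ℕ} [NeZero N] {S : Finset ℕ}
  {O : Type} [CommRing O] [IsDomain O] [IsDiscreteValuationRing O]
  [IsAdicComplete (IsLocalRing.maximalIdeal O) O]

/-- **S32 at one point, from S19** and the interface propositions of cluster A at level `N`. -/
theorem isFlatAt_point_of_s19 (h19 : S19Statement)
    (hE : EigenclassPadic N) (hFin : F3.TorsionFinite N)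
    (hUnr : F3.TorsionUnramified N) (hFrob : F3.TorsionFrobQuadratic N)
    (hOpen : F3.TorsionOpenStab N) (hComm : F3.HeckeGaloisComm N)
    [Finite (IsLocalRing.ResidueField O)] [CharZero O]
    (hp : p.Prime) (hpO : (p : O) ∈ IsLocalRing.maximalIdeal O) (hpN : ¬ p ∣ N)
    (hpS : p ∈ S) (hNS : ∀ q : ℕ, q.Prime → q ∣ N → q ∈ S)
    (χ : CuspForm.heckeAlgebra N 2 (↑S : Set ℕ) →+* O) (ρ₀ : GaloisRepAdic O)
    (hfrob : ∀ ℓ : ℕ, ℓ.Prime → ℓ ∉ S →
      ∀ A : ValuationSubring (AlgebraicClosure ℚ), A.LiesOverPrime ℓ →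
        ∀ σ : GQ, A.IsFrobeniusAt σ ℓ →
          LinearMap.charpoly (ρ₀.ρ σ) =
            X ^ 2 - C (heckeEigenvalue χ ℓ) * X + C ((ℓ : O)))
    (b : Basis (Fin 2) O ρ₀.V) (g : Fin 2 × Fin 2 → GQ)
    (hg : IsUnit (coordMat (fun σ => LinearMap.toMatrix b b (ρ₀.ρ σ)) g).det) :
    ρ₀.IsFlatAt p := by
  classical
  haveI : Fact p.Prime := ⟨hp⟩
  refine ⟨inferInstance, fun I hI => ?_⟩
  obtain ⟨r, hr⟩ := exists_natCast_pow_mem_of_finite p hp hpO I hI
  obtain ⟨L, ev, hev_eq, hev_tors, hev_ker⟩ :=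
    exists_frobLattice_eval N hE hFin hUnr hFrob hOpen hComm p S hpS hNS O hpO χ
  obtain ⟨f, hfinj, hfeq, hfsat⟩ := exists_embedding_of_frobLattice F3.frobDensityLite hpS
    (heckeEigenvalue χ) L (Fermat.Agent.Cyclo.cycloCharData (p := p) (𝒪 := O) hpO)
    ρ₀ b g hg hfrob
  have hp0 : (p : O) ^ r ≠ 0 := pow_ne_zero r (Nat.cast_ne_zero.2 hp.ne_zero)
  set Φ : ρ₀.V →+ O ⊗[ℤ] JZero N := (ev r).toAddMonoidHom.comp f.toAddMonoidHom with hΦ
  have hΦeq : ∀ (σ : GQ) (v : ρ₀.V), Φ (ρ₀.ρ σ v) = galBC O (JZero N) σ (Φ v) := by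
    intro σ v
    show ev r (f (ρ₀.ρ σ v)) = galBC O (JZero N) σ (ev r (f v))
    rw [hfeq, hev_eq]
  have hΦtors : ∀ v : ρ₀.V, (p : O) ^ r • Φ v = 0 := fun v => hev_tors r _
  have hΦker : ∀ v : ρ₀.V, Φ v = 0 → ∃ w : ρ₀.V, v = (p : O) ^ r • w := by
    intro v hv
    have hv' : ev r (f v) = 0 := hv
    obtain ⟨y, hy⟩ := hev_ker r _ hv'
    obtain ⟨w, hw⟩ := hfsat ((p : O) ^ r) y hp0 ⟨v, by rw [hy]⟩
    refine ⟨w, ?_⟩
    apply hfinj
    rw [hy, map_smul, hw]
  have hfin : ∀ _ : Fin 1, Finite (O ⧸ Ideal.span {(p : O) ^ r}) := by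
    intro _
    have h1 := finite_quotient_span_natCast O (p ^ r) (pow_ne_zero r hp.ne_zero)
    rwa [Nat.cast_pow] at h1
  refine isFlat_of_tensor_family (p := p) r (J := JZero N) (h19 N p hpN r)
    (fun _ : Fin 1 => O) hfin (fun σ v => ρ₀.ρ σ v) (fun σ x => ρ₀.levelAction I σ x)
    (AddMonoidHom.pi fun _ : Fin 1 => Φ) (fun σ v _ => hΦeq σ v) (fun v _ => hΦtors v)
    (Submodule.mkQ (I • (⊤ : Submodule O ρ₀.V))).toAddMonoidHom
    (Submodule.mkQ_surjective _) (fun σ v => rfl) ?_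
  intro v hv
  obtain ⟨w, hw⟩ := hΦker v (congrFun hv 0)
  show Submodule.mkQ (I • (⊤ : Submodule O ρ₀.V)) v = 0
  rw [Submodule.mkQ_apply, Submodule.Quotient.mk_eq_zero, hw]
  exact Submodule.smul_mem_smul hr Submodule.mem_top

/-- **S32 at one point** (all inputs of cluster A discharged; only S19 is a hypothesis). -/
theorem isFlatAt_point (h19 : S19Statement)
    [Finite (IsLocalRing.ResidueField O)] [CharZero O]
    (hp : p.Prime) (hpO : (p : O) ∈ IsLocalRing.maximalIdeal O) (hpN : ¬ p ∣ N)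
    (hpS : p ∈ S) (hNS : ∀ q : ℕ, q.Prime → q ∣ N → q ∈ S)
    (χ : CuspForm.heckeAlgebra N 2 (↑S : Set ℕ) →+* O) (ρ₀ : GaloisRepAdic O)
    (hfrob : ∀ ℓ : ℕ, ℓ.Prime → ℓ ∉ S →
      ∀ A : ValuationSubring (AlgebraicClosure ℚ), A.LiesOverPrime ℓ →
        ∀ σ : GQ, A.IsFrobeniusAt σ ℓ →
          LinearMap.charpoly (ρ₀.ρ σ) =
            X ^ 2 - C (heckeEigenvalue χ ℓ) * X + C ((ℓ : O)))
    (b : Basis (Fin 2) O ρ₀.V) (g : Fin 2 × Fin 2 → GQ)
    (hg : IsUnit (coordMat (fun σ => LinearMap.toMatrix b b (ρ₀.ρ σ)) g).det) :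
    ρ₀.IsFlatAt p :=
  isFlatAt_point_of_s19 h19
    (Fermat.Agent.F3W.eigenclassPadic_of_kappaAllW (Fermat.Agent.F3I2.kappaAll N))
    (Fermat.Agent.F3TF.torsionFinite N)
    (Fermat.Agent.GaussInt.torsionUnramified_of_keyLemmaAt
      (Fermat.Agent.GaussInt.keyLemmaAt_all N))
    (Fermat.Agent.GaussIntFP.torsionFrobQuadratic_of_keyLemmaAt
      (Fermat.Agent.GaussInt.keyLemmaAt_all N) (Fermat.Agent.F3W.heckeInputs_all N))
    (Fermat.Agent.F3.torsionOpenStab N) (Fermat.Agent.F3G.heckeGaloisComm N)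
    hp hpO hpN hpS hNS χ ρ₀ hfrob b g hg

end Fermat.Agent.S32
end MergeWrap_S32_PointFlat

section MergeWrap_S33_Functional -- from S33/Functional.lean

/-!
# S33, the glue, part 4: ordinarity from an inertia-invariant functional (owner: helper11)

Let `ρ : GaloisRepAdic A` with `A` a local domain.  If for every place `P ∣ p` there is a nonzero
linear form `λ : V → A` invariant under the inertia group of `P`, then `ρ` is weakly ordinary at
`p` (`wo_of_invariant_functional`); hence ordinary at `p` as soon as the determinant is residually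
nontrivial on inertia (`isOrdinaryAt_of_invariant_functional`).

This is the shape in which the local suppliers deliver ordinarity: FFL-ORD ("flat + residually
ordinary ⇒ nonzero inertia-invariant functional") and the slope map of the toric part.
-/

set_option autoImplicit false

namespace Fermat.Agent.S33

open IsLocalRing

local notation "GQ" => (AlgebraicClosure ℚ ≃ₐ[ℚ] AlgebraicClosure ℚ)
local notation "Qb" => (AlgebraicClosure ℚ)

section Algebra

variable {R : Type} [CommRing R] [IsDomain R] {V : Type} [AddCommGroup V] [Module R V]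

/-- An endomorphism `f` of a free module of rank two over a domain which preserves a nonzero
linear form `l` acts on the kernel of `l` by multiplication by `det f`. -/
theorem apply_eq_det_smul_of_form (b : Module.Basis (Fin 2) R V) (l : V →ₗ[R] R) (hl : l ≠ 0)
    (f : Module.End R V) (hf : ∀ v, l (f v) = l v) (w : V) (hw : l w = 0) :
    f w = LinearMap.det f • w := by
  classical
  -- coordinates
  set l0 := l (b 0) with hl0
  set l1 := l (b 1) with hl1
  set m00 := b.repr (f (b 0)) 0 with hm00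
  set m10 := b.repr (f (b 0)) 1 with hm10
  set m01 := b.repr (f (b 1)) 0 with hm01
  set m11 := b.repr (f (b 1)) 1 with hm11
  set w0 := b.repr w 0 with hw0
  set w1 := b.repr w 1 with hw1
  have hfb0 : f (b 0) = m00 • b 0 + m10 • b 1 := eq_repr_smul_add' b _
  have hfb1 : f (b 1) = m01 • b 0 + m11 • b 1 := eq_repr_smul_add' b _
  have hwe : w = w0 • b 0 + w1 • b 1 := eq_repr_smul_add' b _
  have e1 : l0 * m00 + l1 * m10 = l0 := by
    have := hf (b 0)
    rw [hfb0, map_add, map_smul, map_smul, smul_eq_mul, smul_eq_mul] at this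
    linear_combination this
  have e2 : l0 * m01 + l1 * m11 = l1 := by
    have := hf (b 1)
    rw [hfb1, map_add, map_smul, map_smul, smul_eq_mul, smul_eq_mul] at this
    linear_combination this
  have e3 : l0 * w0 + l1 * w1 = 0 := by
    have := hw
    rw [hwe, map_add, map_smul, map_smul, smul_eq_mul, smul_eq_mul] at this
    linear_combination this
  have hdet : LinearMap.det f = m00 * m11 - m01 * m10 := by
    rw [← LinearMap.det_toMatrix b, Matrix.det_fin_two]
    simp only [LinearMap.toMatrix_apply]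
    rfl
  -- the two coordinates of the claim
  have hfw : f w = (m00 * w0 + m01 * w1) • b 0 + (m10 * w0 + m11 * w1) • b 1 := by
    conv_lhs => rw [hwe]
    rw [map_add, map_smul, map_smul, hfb0, hfb1]
    module
  have hdw : LinearMap.det f • w =
      ((m00 * m11 - m01 * m10) * w0) • b 0 + ((m00 * m11 - m01 * m10) * w1) • b 1 := by
    conv_lhs => rw [hwe, hdet]
    module
  -- `l ≠ 0`
  have hl' : l0 ≠ 0 ∨ l1 ≠ 0 := by
    by_contra hcon
    push Not at hcon
    apply hl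
    apply b.ext
    intro i
    fin_cases i
    · simpa using hcon.1
    · simpa using hcon.2
  have g0 : m00 * w0 + m01 * w1 = (m00 * m11 - m01 * m10) * w0 := by
    rcases hl' with h | h
    · apply mul_left_cancel₀ h
      linear_combination (m00 - (m00 * m11 - m01 * m10)) * e3 + w1 * e2
        + w1 * (-(1 - m00) * e2 - m01 * e1)
    · apply mul_left_cancel₀ h
      linear_combination m01 * e3 - w0 * e2 + w0 * m01 * e1 + w0 * (1 - m00) * e2
  have g1 : m10 * w0 + m11 * w1 = (m00 * m11 - m01 * m10) * w1 := by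
    rcases hl' with h | h
    · apply mul_left_cancel₀ h
      linear_combination m10 * e3 - w1 * e1 + w1 * m10 * e2 + w1 * (1 - m11) * e1
    · apply mul_left_cancel₀ h
      linear_combination (m11 - (m00 * m11 - m01 * m10)) * e3 + w0 * e1
        + w0 * (-(1 - m11) * e1 - m10 * e2)
  rw [hfw, hdw, g0, g1]

end Algebra

variable {A : Type} [CommRing A] [IsLocalRing A] [IsDomain A]

/-- **Weak ordinarity from inertia-invariant functionals.** -/
theorem wo_of_invariant_functional (ρ : GaloisRepAdic A) (p : ℕ)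
    (h : ∀ P : ValuationSubring Qb, P.LiesOverPrime p →
      ∃ l : ρ.V →ₗ[A] A, l ≠ 0 ∧ ∀ σ ∈ P.inertiaSubgroupIn ℚ, ∀ v : ρ.V, l (ρ.ρ σ v) = l v) :
    WO ρ p := by
  intro P hP σ hσ τ hτ
  obtain ⟨l, hl, hinv⟩ := h P hP
  set b : Module.Basis (Fin 2) A ρ.V := Module.finBasisOfFinrankEq A ρ.V ρ.finrank_eq
  refine LinearMap.ext fun v => ?_
  have hw : l (ρ.ρ τ v - v) = 0 := by rw [map_sub, hinv τ hτ v, sub_self]
  have key := apply_eq_det_smul_of_form b l hl (ρ.ρ σ) (hinv σ hσ) _ hw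
  simp only [wo, Module.End.mul_apply, LinearMap.sub_apply, Module.End.one_apply,
    LinearMap.smul_apply, LinearMap.zero_apply]
  rw [key, sub_self]

/-- **Ordinarity from inertia-invariant functionals.** -/
theorem isOrdinaryAt_of_invariant_functional (ρ : GaloisRepAdic A) (p : ℕ) (hd : IDN ρ p)
    (h : ∀ P : ValuationSubring Qb, P.LiesOverPrime p →
      ∃ l : ρ.V →ₗ[A] A, l ≠ 0 ∧ ∀ σ ∈ P.inertiaSubgroupIn ℚ, ∀ v : ρ.V, l (ρ.ρ σ v) = l v) :
    ρ.IsOrdinaryAt p :=
  isOrdinaryAt_of_wo (wo_of_invariant_functional ρ p h) hd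

end Fermat.Agent.S33
end MergeWrap_S33_Functional

section MergeWrap_S33_SplitLattice -- from S33/SplitLattice.lean

/-!
# S33, the new part, P-WIRE: ordinarity from a split part of the Tate lattice (owner: helper11)

Let `L` be a `FrobLattice` over a discrete valuation ring `O` (the eigenpart of a Tate module).
A *split part* of `L` at a place `P ∣ p` is a saturated submodule `Lsp ≤ L.Λ` such that

* `(τ - 1) L.Λ ⊆ Lsp` for `τ` in the inertia group of `P`                       (E1 + W),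
* an inertia element which inverts the `p`-th roots of unity acts as `-1` on `Lsp` modulo the
  maximal ideal                                                                  (COV mod `p`).

`isOrdinaryAt_of_hasSplitPart`: a representation `ρ₁` of rank two with `det ρ₁(Frob_ℓ) = ℓ` which
embeds equivariantly in `L.Λ` with saturated image is ordinary at `p` (`p` odd).

Proof.  If the image is not contained in `Lsp`, a coordinate of the free module `L.Λ ⧸ Lsp` gives
a nonzero inertia-invariant linear form on `ρ₁.V` (`isOrdinaryAt_of_invariant_functional`).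
If it is, then `ρ₁ σ₀ ≡ -1` modulo the maximal ideal for `σ₀` inverting `μ_p`, so
`det ρ₁ σ₀ ≡ 1`; but `det ρ₁ σ₀ ≡ -1` by Frobenius density: impossible for `p` odd.
-/

set_option autoImplicit false
set_option linter.style.haveILetI false
set_option linter.unusedSectionVars false

namespace Fermat.Agent.S33

open IsLocalRing Fermat.Agent.F3 Fermat.Agent.S31 Fermat.Agent.S34 Fermat.Agent.Cyclo
  Fermat.Agent.S30

local notation "GQ" => (AlgebraicClosure ℚ ≃ₐ[ℚ] AlgebraicClosure ℚ)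
local notation "Qb" => (AlgebraicClosure ℚ)

section Det

variable {A : Type} [CommRing A] [IsLocalRing A]

/-- An element of `G_ℚ` which inverts the `p`-th roots of unity has determinant `≡ -1`, if
`det ρ(Frob_ℓ) = ℓ` outside a finite set of primes. -/
theorem det_add_one_mem_of_inv (ρ : GaloisRepAdic A) {p : ℕ} (hp : p.Prime)
    (hpA : (p : A) ∈ maximalIdeal A) (S : Finset ℕ)
    (hdet : ∀ ℓ : ℕ, ℓ.Prime → ℓ ∉ S →
      ∀ A' : ValuationSubring (AlgebraicClosure ℚ), A'.LiesOverPrime ℓ →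
        ∀ σ : AlgebraicClosure ℚ ≃ₐ[ℚ] AlgebraicClosure ℚ, A'.IsFrobeniusAt σ ℓ →
          LinearMap.det (ρ.ρ σ) = (ℓ : A))
    (σ₀ : GQ) (hinv : ∀ μ : Qb, μ ^ p = 1 → σ₀ μ = μ⁻¹) :
    LinearMap.det (ρ.ρ σ₀) + 1 ∈ maximalIdeal A := by
  classical
  haveI : Fact p.Prime := ⟨hp⟩
  haveI : NeZero p := ⟨hp.ne_zero⟩
  obtain ⟨L₁, hL₁fd, hL₁n, hL₁⟩ := exists_normal_level ρ 1
  obtain ⟨L, hLfd, hLn, hL₁L, hcL⟩ := exists_normal_sup 1 (fun _ => cycloField p)
    (fun _ => inferInstance) (fun _ => inferInstance) L₁ hL₁fd hL₁n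
  obtain ⟨ℓ, A', τ, j, hℓ, hℓS, hA', hτ, hτs⟩ :=
    exists_frob_pow frobDensityLite L hLfd hLn σ₀ (insert p S)
  have hℓp : ℓ ≠ p := fun h => hℓS (h ▸ Finset.mem_insert_self _ _)
  have hℓS' : ℓ ∉ S := fun h => hℓS (Finset.mem_insert_of_mem h)
  have hdτ : LinearMap.det (ρ.ρ (τ ^ j)) = (ℓ : A) ^ j := by
    rw [map_pow, map_pow, hdet ℓ hℓ hℓS' A' hA' τ hτ]
  have hcong : LinearMap.det (ρ.ρ (τ ^ j)) - LinearMap.det (ρ.ρ σ₀) ∈ maximalIdeal A := by
    have := det_sub_mem_of_agree ρ 1 L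
      (fun σ' hσ' => hL₁ σ' fun x hx => hσ' x (hL₁L hx)) σ₀ (τ ^ j) hτs
    rwa [pow_one] at this
  have hχ1 : ((modChar p (τ ^ j) : (ZMod p)ˣ) : ZMod p) = ((ℓ : ZMod p)) ^ j := by
    rw [map_pow, Units.val_pow_eq_pow_val,
      modChar_frobenius p hℓ (fun h => hℓp ((Nat.prime_dvd_prime_iff_eq hℓ hp).mp h)) A' hA' τ hτ]
  have hχ2 : modChar p (τ ^ j) = modChar p σ₀ := by
    have h1 : modChar p (σ₀⁻¹ * τ ^ j) = 1 := by
      apply modChar_eq_one_of_fix_cycloField
      intro x hx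
      rw [AlgEquiv.mul_apply, hτs x (hcL 0 hx)]
      exact σ₀.symm_apply_apply x
    rw [map_mul, map_inv, inv_mul_eq_one] at h1
    exact h1.symm
  have hχ3 : ((modChar p σ₀ : (ZMod p)ˣ) : ZMod p) = -1 := by
    apply modChar_unique
    intro t ht
    rw [hinv t ht]
    have hdv : p ∣ ((-1 : ZMod p)).val + 1 := by
      rw [← ZMod.natCast_eq_zero_iff]
      push_cast
      rw [ZMod.natCast_zmod_val]
      ring
    obtain ⟨c, hc⟩ := hdv
    apply inv_eq_of_mul_eq_one_right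
    rw [← pow_succ', hc, pow_mul, ht, one_pow]
  have hdvd : p ∣ ℓ ^ j + 1 := by
    rw [← ZMod.natCast_eq_zero_iff]
    push_cast
    rw [← hχ1, hχ2, hχ3]
    ring
  have hmem : (ℓ : A) ^ j + 1 ∈ maximalIdeal A := by
    obtain ⟨c, hc⟩ := hdvd
    have : (ℓ : A) ^ j + 1 = (p : A) * (c : A) := by
      have := congrArg (Nat.cast : ℕ → A) hc
      push_cast at this
      exact this
    rw [this]
    exact Ideal.mul_mem_right _ _ hpA
  have e : LinearMap.det (ρ.ρ σ₀) + 1 = ((ℓ : A) ^ j + 1) -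
      (LinearMap.det (ρ.ρ (τ ^ j)) - LinearMap.det (ρ.ρ σ₀)) := by
    rw [hdτ]; ring
  rw [e]
  exact Ideal.sub_mem _ hmem hcong

/-- An endomorphism of a free module of rank two which is `≡ -1` modulo the maximal ideal has
determinant `≡ 1`. -/
theorem det_sub_one_mem_of_add_mem {V : Type} [AddCommGroup V] [Module A V]
    (b : Module.Basis (Fin 2) A V) (f : Module.End A V)
    (hf : ∀ v : V, f v + v ∈ maximalIdeal A • (⊤ : Submodule A V)) :
    LinearMap.det f - 1 ∈ maximalIdeal A := by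
  classical
  have hcoord : ∀ (v : V), v ∈ maximalIdeal A • (⊤ : Submodule A V) →
      ∀ i, b.repr v i ∈ maximalIdeal A := by
    intro v hv i
    refine Submodule.smul_induction_on hv (fun r hr n _ => ?_) (fun x y hx hy => ?_)
    · rw [map_smul, Finsupp.smul_apply, smul_eq_mul]
      exact Ideal.mul_mem_right _ _ hr
    · rw [map_add, Finsupp.add_apply]
      exact Ideal.add_mem _ hx hy
  have h00 : b.repr (f (b 0)) 0 + 1 ∈ maximalIdeal A := by
    have := hcoord _ (hf (b 0)) 0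
    rwa [map_add, Finsupp.add_apply, Module.Basis.repr_self, Finsupp.single_eq_same] at this
  have h10 : b.repr (f (b 0)) 1 ∈ maximalIdeal A := by
    have := hcoord _ (hf (b 0)) 1
    rwa [map_add, Finsupp.add_apply, Module.Basis.repr_self,
      Finsupp.single_eq_of_ne (by decide), add_zero] at this
  have h01 : b.repr (f (b 1)) 0 ∈ maximalIdeal A := by
    have := hcoord _ (hf (b 1)) 0
    rwa [map_add, Finsupp.add_apply, Module.Basis.repr_self,
      Finsupp.single_eq_of_ne (by decide), add_zero] at this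
  have h11 : b.repr (f (b 1)) 1 + 1 ∈ maximalIdeal A := by
    have := hcoord _ (hf (b 1)) 1
    rwa [map_add, Finsupp.add_apply, Module.Basis.repr_self, Finsupp.single_eq_same] at this
  have hdet : LinearMap.det f =
      b.repr (f (b 0)) 0 * b.repr (f (b 1)) 1 - b.repr (f (b 1)) 0 * b.repr (f (b 0)) 1 := by
    rw [← LinearMap.det_toMatrix b, Matrix.det_fin_two]
    simp [LinearMap.toMatrix_apply]
  have e : LinearMap.det f - 1 =
      (b.repr (f (b 0)) 0 + 1) * (b.repr (f (b 1)) 1 + 1) - (b.repr (f (b 0)) 0 + 1)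
        - (b.repr (f (b 1)) 1 + 1) - b.repr (f (b 1)) 0 * b.repr (f (b 0)) 1 := by
    rw [hdet]; ring
  rw [e]
  exact Ideal.sub_mem _ (Ideal.sub_mem _ (Ideal.sub_mem _ (Ideal.mul_mem_right _ _ h00) h00) h11)
    (Ideal.mul_mem_right _ _ h01)

end Det

section Split

variable {O : Type} [CommRing O] [IsDomain O] [IsDiscreteValuationRing O]
  {p N : ℕ} {S : Finset ℕ} {a : ℕ → O}

/-- `Lsp` is a split part of the lattice `L` at the place `P`. -/
def IsSplitPartAt (L : FrobLattice p N S O a) (P : ValuationSubring Qb)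
    (Lsp : Submodule O L.Λ) : Prop :=
  (∀ (c : O) (x : L.Λ), c ≠ 0 → c • x ∈ Lsp → x ∈ Lsp) ∧
  (∀ τ ∈ P.inertiaSubgroupIn ℚ, ∀ x : L.Λ, L.ρ τ x - x ∈ Lsp) ∧
  (∀ σ ∈ P.inertiaSubgroupIn ℚ, (∀ ζ : Qb, ζ ^ p = 1 → σ ζ = ζ⁻¹) →
    ∀ x ∈ Lsp, L.ρ σ x + x ∈ maximalIdeal O • (⊤ : Submodule O L.Λ))

/-- The lattice `L` has a split part at every place over `p`. -/
def HasSplitPart (L : FrobLattice p N S O a) : Prop :=
  ∀ P : ValuationSubring Qb, P.LiesOverPrime p → ∃ Lsp : Submodule O L.Λ, IsSplitPartAt L P Lsp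

/-- The quotient by a saturated submodule is free. -/
theorem free_quotient_of_saturated {Λ : Type} [AddCommGroup Λ] [Module O Λ] [Module.Finite O Λ]
    (M : Submodule O Λ) (hsat : ∀ (c : O) (x : Λ), c ≠ 0 → c • x ∈ M → x ∈ M) :
    Module.Free O (Λ ⧸ M) := by
  haveI : Module.IsTorsionFree O (Λ ⧸ M) := by
    refine Module.IsTorsionFree.of_smul_eq_zero fun c q hq => ?_
    by_cases hc : c = 0
    · exact Or.inl hc
    · right
      obtain ⟨x, rfl⟩ := Submodule.mkQ_surjective M q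
      have h1 : c • x ∈ M := by
        rw [← Submodule.Quotient.mk_eq_zero, Submodule.Quotient.mk_smul]
        exact hq
      exact (Submodule.Quotient.mk_eq_zero M).2 (hsat c x hc h1)
  exact Module.free_of_finite_type_torsion_free'

/-- A nonzero element of a free module has a nonzero coordinate. -/
theorem exists_form_ne_zero {Q : Type} [AddCommGroup Q] [Module O Q] [Module.Free O Q]
    {q : Q} (hq : q ≠ 0) : ∃ φ : Q →ₗ[O] O, φ q ≠ 0 := by
  classical
  let b := Module.Free.chooseBasis O Q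
  have h1 : b.repr q ≠ 0 := fun h => hq (b.repr.map_eq_zero_iff.1 h)
  obtain ⟨i, hi⟩ := Finsupp.ne_iff.1 h1
  exact ⟨b.coord i, by simpa using hi⟩

/-- **P-WIRE.**  A representation of rank two with cyclotomic determinant which embeds, with
saturated image, in a Tate lattice with a split part at `p`, is ordinary at `p`. -/
theorem isOrdinaryAt_of_hasSplitPart (hp : p.Prime) (hp2 : p ≠ 2)
    (hpO : (p : O) ∈ maximalIdeal O) (L : FrobLattice p N S O a) (hL : HasSplitPart L)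
    (ρ₁ : GaloisRepAdic O) (f : ρ₁.V →ₗ[O] L.Λ) (hf : Function.Injective f)
    (hfe : ∀ (σ : GQ) (v : ρ₁.V), f (ρ₁.ρ σ v) = L.ρ σ (f v))
    (hfs : ∀ (c : O) (x : L.Λ), c ≠ 0 → c • x ∈ LinearMap.range f → x ∈ LinearMap.range f)
    (S' : Finset ℕ)
    (hdet : ∀ ℓ : ℕ, ℓ.Prime → ℓ ∉ S' →
      ∀ A' : ValuationSubring (AlgebraicClosure ℚ), A'.LiesOverPrime ℓ →
        ∀ σ : AlgebraicClosure ℚ ≃ₐ[ℚ] AlgebraicClosure ℚ, A'.IsFrobeniusAt σ ℓ →
          LinearMap.det (ρ₁.ρ σ) = (ℓ : O)) :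
    ρ₁.IsOrdinaryAt p := by
  classical
  haveI : Fact p.Prime := ⟨hp⟩
  have hidn : IDN ρ₁ p := idn_of_det_frob ρ₁ hp hp2 hpO S' hdet
  refine isOrdinaryAt_of_invariant_functional ρ₁ p hidn fun P hP => ?_
  obtain ⟨Lsp, hsat, hb, hc⟩ := hL P hP
  by_cases hall : ∀ v : ρ₁.V, f v ∈ Lsp
  · -- impossible
    exfalso
    obtain ⟨σ₀, hσ₀, hinv⟩ := Fermat.Agent.S59.SOArith.exists_inertia_inv_on_roots p P hP
    obtain ⟨ϖ, hϖ⟩ := IsDiscreteValuationRing.exists_irreducible O
    have hm1 : ∀ v : ρ₁.V, ρ₁.ρ σ₀ v + v ∈ maximalIdeal O • (⊤ : Submodule O ρ₁.V) := by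
      intro v
      have h1 := hc σ₀ hσ₀ hinv (f v) (hall v)
      rw [hϖ.maximalIdeal_eq, Submodule.ideal_span_singleton_smul] at h1
      obtain ⟨y, -, hy⟩ := (Submodule.mem_smul_pointwise_iff_exists _ _ _).mp h1
      have h2 : ϖ • y ∈ LinearMap.range f := by
        rw [hy, ← hfe, ← map_add]
        exact LinearMap.mem_range_self _ _
      obtain ⟨w, hw⟩ := hfs ϖ y hϖ.ne_zero h2
      have h3 : ρ₁.ρ σ₀ v + v = ϖ • w := by
        apply hf
        rw [map_add, hfe, map_smul, hw, hy]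
      rw [h3, hϖ.maximalIdeal_eq, Submodule.ideal_span_singleton_smul]
      exact Submodule.smul_mem_pointwise_smul _ _ _ Submodule.mem_top
    set b : Module.Basis (Fin 2) O ρ₁.V := Module.finBasisOfFinrankEq O ρ₁.V ρ₁.finrank_eq
    have h1 := det_sub_one_mem_of_add_mem b (ρ₁.ρ σ₀) hm1
    have h2 := det_add_one_mem_of_inv ρ₁ hp hpO S' hdet σ₀ hinv
    have h3 : (2 : O) ∈ maximalIdeal O := by
      have e : (2 : O) = (LinearMap.det (ρ₁.ρ σ₀) + 1) - (LinearMap.det (ρ₁.ρ σ₀) - 1) := by ring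
      rw [e]
      exact Ideal.sub_mem _ h2 h1
    exact (mem_maximalIdeal _).1 h3 (isUnit_two_of_odd hp hp2 hpO)
  · -- the functional
    push Not at hall
    obtain ⟨v₀, hv₀⟩ := hall
    haveI := free_quotient_of_saturated Lsp hsat
    have hq : Lsp.mkQ (f v₀) ≠ 0 := fun h => hv₀ ((Submodule.Quotient.mk_eq_zero Lsp).1 h)
    obtain ⟨φ, hφ⟩ := exists_form_ne_zero (O := O) hq
    refine ⟨φ ∘ₗ Lsp.mkQ ∘ₗ f, fun h => hφ ?_, fun σ hσ v => ?_⟩
    · have := congrArg (fun l : ρ₁.V →ₗ[O] O => l v₀) h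
      simpa using this
    · show φ (Lsp.mkQ (f (ρ₁.ρ σ v))) = φ (Lsp.mkQ (f v))
      congr 1
      rw [hfe, ← sub_eq_zero, ← map_sub]
      exact (Submodule.Quotient.mk_eq_zero Lsp).2 (hb σ hσ (f v))

end Split

end Fermat.Agent.S33
end MergeWrap_S33_SplitLattice

section MergeWrap_S33_NewTate -- from S33/NewTate.lean

/-!
# S33, the new part, P-TATE: the split part of the conditional Tate lattice (owner: helper11)

Abstract setting of `S35.exists_eigenLattice_transfer_cond` (helper36 / helper34): `J` an abelian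
group with an action of `G` and commuting endomorphisms `T i`, `u : J → J'` a `G`-stable kernel
condition, `x n ∈ O ⊗ J[pⁿ]` a compatible eigen-class killed by `u ⊗ 1`; the lattice `Λ` is the
part of the eigen-part of the Tate module of `O ⊗ J` on which `u ⊗ 1` vanishes.

`exists_eigenLattice_split`: in addition, for every subgroup `Sp ≤ J` there is a SATURATED
submodule `Lsp ≤ Λ` (the sequences with all components in `O ⊗ Sp`) such that

* if `τ y - y ∈ Sp` for all `y ∈ J[pⁿ] ∩ ker u` (all `n`), then `(ρ τ - 1) Λ ⊆ Lsp`;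
* if `σ s + s = 0` for all `s ∈ Sp` with `p s = 0`, then `(ρ σ + 1) Lsp ⊆ 𝔪 Λ`.
-/

set_option autoImplicit false
set_option linter.unusedSectionVars false
set_option linter.style.haveILetI false

noncomputable section

namespace Fermat.Agent.S33

open IsLocalRing Fermat.Agent.S30Tate Fermat.Agent.S35
open scoped TensorProduct

/-! ### the abstract split part -/

section SplitSub

variable {O : Type*} [CommRing O] (π : O) {M : Type*} [AddCommGroup M] [Module O M]
  {N : Type*} [AddCommGroup N] [Module O N]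
  {ι : Type*} (h : ι → Module.End O M) (c : ι → O) (U : M →ₗ[O] N)

/-- The sequences of the conditional eigen-lattice with all components in `W`. -/
def splitSub (W : Submodule O M) : Submodule O (tcCondTate π h c U) where
  carrier := {x | ∀ n, x.1 n ∈ W}
  add_mem' := by
    intro x y hx hy n
    exact W.add_mem (hx n) (hy n)
  zero_mem' := fun n => W.zero_mem
  smul_mem' := by
    intro a x hx n
    exact W.smul_mem a (hx n)

variable {π h c U}

theorem mem_splitSub {W : Submodule O M} {x : tcCondTate π h c U} :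
    x ∈ splitSub π h c U W ↔ ∀ n, x.1 n ∈ W := Iff.rfl

end SplitSub

section SplitSubDVR

variable {O : Type*} [CommRing O] [IsDomain O] [IsDiscreteValuationRing O]
  {π : O} {M : Type*} [AddCommGroup M] [Module O M]
  {N : Type*} [AddCommGroup N] [Module O N]
  {ι : Type*} {h : ι → Module.End O M} {c : ι → O} {U : M →ₗ[O] N}

/-- The split part is saturated. -/
theorem splitSub_saturated (hπ : π ∈ maximalIdeal O) (W : Submodule O M) {a : O} (ha : a ≠ 0)
    (x : tcCondTate π h c U) (hax : a • x ∈ splitSub π h c U W) : x ∈ splitSub π h c U W := by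
  obtain ⟨k, b, hb⟩ := exists_dvd_pow ha hπ
  intro n
  have h1 : π ^ k • x.1 (n + k) = x.1 n := tate_pow_smul x.2.1.1 k n
  have h2 : (a • x).1 (n + k) ∈ W := hax (n + k)
  have h3 : π ^ k • x.1 (n + k) = b • (a • x).1 (n + k) := by
    show π ^ k • x.1 (n + k) = b • (a • x.1 (n + k))
    rw [smul_smul, hb, mul_comm]
  rw [← h1, h3]
  exact W.smul_mem b h2

variable {G : Type*} [Group G] (g : G →* Module.End O M)
  (hcomm : ∀ σ i m, h i (g σ m) = g σ (h i m))
  (hstab : ∀ σ m, U m = 0 → U (g σ m) = 0)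

/-- If `g τ - 1` maps the torsion of `ker U` into `W`, then `ρ τ - 1` maps the lattice into the
split part. -/
theorem tcCondTateRep_sub_mem_splitSub (W : Submodule O M) {τ : G}
    (hτ : ∀ (n : ℕ) (m : M), π ^ n • m = 0 → U m = 0 → g τ m - m ∈ W)
    (x : tcCondTate π h c U) :
    tcCondTateRep (π := π) (c := c) g hcomm hstab τ x - x ∈ splitSub π h c U W := by
  intro n
  show g τ (x.1 n) - x.1 n ∈ W
  exact hτ n _ (tcCondTate_pow_smul_self x n) (x.2.2 n)

/-- If `g σ + 1` kills the `π`-torsion of `W`, then `ρ σ + 1` maps the split part into `𝔪 Λ`. -/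
theorem tcCondTateRep_add_mem (hπ : π ∈ maximalIdeal O) (hπ0 : π ≠ 0) (W : Submodule O M)
    {σ : G} (hσ : ∀ m ∈ W, π • m = 0 → g σ m + m = 0)
    (x : tcCondTate π h c U) (hx : x ∈ splitSub π h c U W) :
    tcCondTateRep (π := π) (c := c) g hcomm hstab σ x + x ∈
      maximalIdeal O • (⊤ : Submodule O (tcCondTate π h c U)) := by
  set w := tcCondTateRep (π := π) (c := c) g hcomm hstab σ x + x with hw
  have hwn : w.1 1 = 0 := by
    show g σ (x.1 1) + x.1 1 = 0
    refine hσ _ (hx 1) ?_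
    have := tcCondTate_pow_smul_self x 1
    rwa [pow_one] at this
  obtain ⟨y, hy, hy'⟩ := exists_eq_pow_smul w.2.1.1 hwn
  have hy2 : y ∈ tcCondTate π h c U :=
    tcCondTate_saturated hπ (pow_ne_zero 1 hπ0) hy (hy' ▸ w.2)
  have h3 : w = π • (⟨y, hy2⟩ : tcCondTate π h c U) := by
    apply Subtype.ext
    rw [hy', pow_one]
    rfl
  rw [h3]
  exact Submodule.smul_mem_smul hπ Submodule.mem_top

end SplitSubDVR

/-! ### the bridge from `J` to `O ⊗ J` -/

section Bridge

variable (O : Type*) [CommRing O] [Module.Flat ℤ O] {J : Type*} [AddCommGroup J]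
  {G : Type*} [Group G] [DistribMulAction G J]

/-- The image of `O ⊗ Sp` in `O ⊗ J`, as the kernel of `O ⊗ J → O ⊗ (J ⧸ Sp)`. -/
def tensorSub (Sp : AddSubgroup J) : Submodule O (O ⊗[ℤ] J) :=
  LinearMap.ker ((AddSubgroup.toIntSubmodule Sp).mkQ.baseChange O)

theorem mkQ_eq_zero_iff (Sp : AddSubgroup J) (y : J) :
    (AddSubgroup.toIntSubmodule Sp).mkQ y = 0 ↔ y ∈ Sp := by
  rw [Submodule.mkQ_apply, Submodule.Quotient.mk_eq_zero]
  rfl

/-- `(τ - 1)` maps `(O ⊗ J)[n] ∩ ker (u ⊗ 1)` into `O ⊗ Sp` if `τ - 1` maps `J[n] ∩ ker u` into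
`Sp`. -/
theorem galBC_sub_mem_tensorSub {J' : Type*} [AddCommGroup J'] (Sp : AddSubgroup J)
    (u : J →ₗ[ℤ] J') (n : ℕ) (τ : G)
    (hτ : ∀ y : J, n • y = 0 → u y = 0 → τ • y - y ∈ Sp)
    (m : O ⊗[ℤ] J) (hm : (n : O) • m = 0) (hum : u.baseChange O m = 0) :
    galBC O J τ m - m ∈ tensorSub O Sp := by
  have h1 := tc_baseChange_eq_zero_of_torsion_of_ker O n u
    ((AddSubgroup.toIntSubmodule Sp).mkQ ∘ₗ (galLinZ J τ - LinearMap.id))
    (fun y hy huy => by
      rw [LinearMap.comp_apply, LinearMap.sub_apply, LinearMap.id_apply, galLinZ_apply,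
        mkQ_eq_zero_iff]
      exact hτ y hy huy) m hm hum
  rw [LinearMap.baseChange_comp, LinearMap.comp_apply, LinearMap.baseChange_sub,
    LinearMap.baseChange_id, LinearMap.sub_apply, LinearMap.id_apply] at h1
  exact h1

/-- `(σ + 1)` kills the `n`-torsion of `O ⊗ Sp` if it kills the `n`-torsion of `Sp`. -/
theorem galBC_add_eq_zero_of_mem_tensorSub (Sp : AddSubgroup J) (n : ℕ) (σ : G)
    (hσ : ∀ s ∈ Sp, n • s = 0 → σ • s + s = 0)
    (m : O ⊗[ℤ] J) (hmW : m ∈ tensorSub O Sp) (hm : (n : O) • m = 0) :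
    galBC O J σ m + m = 0 := by
  have h1 := tc_baseChange_eq_zero_of_torsion_of_ker O n (AddSubgroup.toIntSubmodule Sp).mkQ
    (galLinZ J σ + LinearMap.id)
    (fun y hy hqy => by
      rw [LinearMap.add_apply, LinearMap.id_apply, galLinZ_apply]
      exact hσ y ((mkQ_eq_zero_iff Sp y).1 hqy) hy) m hm hmW
  rw [LinearMap.baseChange_add, LinearMap.baseChange_id, LinearMap.add_apply,
    LinearMap.id_apply] at h1
  exact h1

end Bridge

/-! ### the lattice with its split parts -/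

/-- **P-TATE, abstract form.** -/
theorem exists_eigenLattice_split
    {O : Type} [CommRing O] [IsDomain O] [IsDiscreteValuationRing O]
    [IsAdicComplete (maximalIdeal O) O] [CharZero O]
    {p : ℕ} (hp : p.Prime) (hpO : (p : O) ∈ maximalIdeal O)
    {J : Type} [AddCommGroup J] {G : Type} [Group G] [DistribMulAction G J]
    {ι : Type} (T : ι → Module.End ℤ J) (c : ι → O)
    (hT : ∀ i (σ : G) (x : J), T i (σ • x) = σ • T i x)
    (hfin : {x : J | p • x = 0}.Finite)
    (μ : ∀ n, Submodule.torsionBy ℤ J ((p ^ (n + 1) : ℕ) : ℤ) →ₗ[ℤ]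
      Submodule.torsionBy ℤ J ((p ^ n : ℕ) : ℤ))
    (hμ : ∀ n (y : Submodule.torsionBy ℤ J ((p ^ (n + 1) : ℕ) : ℤ)),
      ((μ n y : Submodule.torsionBy ℤ J ((p ^ n : ℕ) : ℤ)) : J) = (p : ℤ) • (y : J))
    (Tt : ∀ (_ : ι) (n : ℕ), Submodule.torsionBy ℤ J ((p ^ n : ℕ) : ℤ) →ₗ[ℤ]
      Submodule.torsionBy ℤ J ((p ^ n : ℕ) : ℤ))
    (hTt : ∀ i n (y : Submodule.torsionBy ℤ J ((p ^ n : ℕ) : ℤ)),
      ((Tt i n y : Submodule.torsionBy ℤ J ((p ^ n : ℕ) : ℤ)) : J) = T i (y : J))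
    (x : (n : ℕ) → O ⊗[ℤ] Submodule.torsionBy ℤ J ((p ^ n : ℕ) : ℤ))
    (hx0 : ∃ n, x n ≠ 0)
    (hcompat : ∀ n, (μ n).baseChange O (x (n + 1)) = x n)
    (heig : ∀ i n, (Tt i n).baseChange O (x n) = c i • x n)
    -- the kernel condition
    {J' : Type} [AddCommGroup J'] (u : J →ₗ[ℤ] J')
    (hu : ∀ (σ : G) (y : J), u y = 0 → u (σ • y) = 0)
    (hux : ∀ n, (u ∘ₗ (Submodule.torsionBy ℤ J ((p ^ n : ℕ) : ℤ)).subtype).baseChange O (x n) = 0) :
    ∃ (Λ : Type) (_ : AddCommGroup Λ) (_ : Module O Λ) (_ : Module.Free O Λ)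
      (_ : Module.Finite O Λ) (_ : Nontrivial Λ) (ρ : G →* Module.End O Λ),
      (∀ (n : ℕ) (σ : G), (∀ y : J, p ^ n • y = 0 → σ • y = y) →
          ∀ v : Λ, ρ σ v - v ∈ (maximalIdeal O ^ n) • (⊤ : Submodule O Λ)) ∧
      (∀ σ : G, (∀ (n : ℕ) (y : J), p ^ n • y = 0 → σ • y = y) → ρ σ = 1) ∧
      (∀ (σ : G) (i : ι) (ℓ : ℕ),
          (∀ (n : ℕ) (y : J), p ^ n • y = 0 → σ • σ • y - T i (σ • y) + ℓ • y = 0) →
          ρ σ * ρ σ - c i • ρ σ + (ℓ : O) • (1 : Module.End O Λ) = 0) ∧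
      (∀ Sp : AddSubgroup J, ∃ Lsp : Submodule O Λ,
          (∀ (a : O) (v : Λ), a ≠ 0 → a • v ∈ Lsp → v ∈ Lsp) ∧
          (∀ τ : G, (∀ (n : ℕ) (y : J), p ^ n • y = 0 → u y = 0 → τ • y - y ∈ Sp) →
            ∀ v : Λ, ρ τ v - v ∈ Lsp) ∧
          (∀ σ : G, (∀ s ∈ Sp, p • s = 0 → σ • s + s = 0) →
            ∀ v ∈ Lsp, ρ σ v + v ∈ maximalIdeal O • (⊤ : Submodule O Λ))) := by
  have hπ0 : (p : O) ≠ 0 := Nat.cast_ne_zero.mpr hp.ne_zero
  have hfg : (Submodule.torsionBy O (O ⊗[ℤ] J) (p : O)).FG := torsionBy_tensor_fg O p hfin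
  have hcomm : ∀ (σ : G) (i : ι) (m : O ⊗[ℤ] J),
      (T i).baseChange O (galBC O J σ m) = galBC O J σ ((T i).baseChange O m) :=
    fun σ i m => galBC_comm O (T i) (hT i) σ m
  have hstab : ∀ (σ : G) (m : O ⊗[ℤ] J), u.baseChange O m = 0 →
      u.baseChange O (galBC O J σ m) = 0 := by
    intro σ m hm
    rw [galBC_apply, ← LinearMap.comp_apply, ← LinearMap.baseChange_comp]
    exact tc_baseChange_eq_zero_of_ker O u (u ∘ₗ galLinZ J σ) (fun y hy => hu σ y hy) m hm
  have hcast : ∀ (n : ℕ) (m : O ⊗[ℤ] J), (p : O) ^ n • m = 0 →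
      ((p ^ n : ℕ) : O) • m = 0 := fun n m hm => by
    rw [Nat.cast_pow]; exact hm
  obtain ⟨X, hX, hXne⟩ :=
    tc_exists_mem_condTate_ne_zero T c μ hμ Tt hTt x hx0 hcompat heig u hux
  refine ⟨tcCondTate (p : O) (fun i => (T i).baseChange O) c (u.baseChange O),
    inferInstance, inferInstance,
    tcCondTate_free hpO hπ0 hfg, tcCondTate_finite hpO hπ0 hfg,
    ⟨⟨⟨X, hX⟩, 0, fun h => hXne (congrArg Subtype.val h)⟩⟩,
    tcCondTateRep (galBC O J) hcomm hstab, ?_, ?_, ?_, ?_⟩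
  · intro n σ hfix v
    exact tcCondTateRep_sub_mem (galBC O J) hcomm hstab hpO hπ0
      (fun m hm => galBC_fix O (p ^ n) σ hfix m (hcast n m hm)) v
  · intro σ hfix
    apply tcCondTateRep_eq_one
    intro n m hm
    exact galBC_fix O (p ^ n) σ (hfix n) m (hcast n m hm)
  · intro σ i ℓ hq
    exact tcCondTateRep_quadratic (h := fun i => (T i).baseChange O) (galBC O J) hcomm hstab i
      (ℓ : O) (fun n m hm => galBC_quadratic O (p ^ n) σ (T i) ℓ (hq n) m (hcast n m hm))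
  · intro Sp
    refine ⟨splitSub (p : O) (fun i => (T i).baseChange O) c (u.baseChange O) (tensorSub O Sp),
      fun a v ha hav => splitSub_saturated hpO _ ha v hav, fun τ hτ v => ?_, fun σ hσ v hv => ?_⟩
    · exact tcCondTateRep_sub_mem_splitSub (galBC O J) hcomm hstab _
        (fun n m hm hum => galBC_sub_mem_tensorSub O Sp u (p ^ n) τ (hτ n) m (hcast n m hm) hum) v
    · exact tcCondTateRep_add_mem (galBC O J) hcomm hstab hpO hπ0 _
        (fun m hmW hm => galBC_add_eq_zero_of_mem_tensorSub O Sp p σ hσ m hmW hm) v hv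

end Fermat.Agent.S33
end
end MergeWrap_S33_NewTate

section MergeWrap_S33_UForm -- from S33/UForm.lean

/-!
# S33: the assembly, universal form (owner: helper11)

`OrdinaryPointsU p N S` : EVERY representation `ρ₀` over a complete discrete valuation ring `𝒪'`
with the Frobenius characteristic polynomials of a point `χ : 𝕋 → 𝒪'` of the Hecke algebra of
level `N`, four of whose matrices form a basis of `M₂(𝒪')`, is ordinary at `p` if it is residually
ordinary at `p`.  (In `OrdinaryPoints` the supplier chooses the representation; here the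
representation is given, and the supplier may use `S32.exists_embedding_of_frobLattice` to find it
inside the Tate lattice.)

* `s33_of_ordinaryPointsU` : the frozen S33 (same binders) from `OrdinaryPointsU p N S`;
* `OldOrdinaryU`, `NewOrdinaryU`, `s33_of_old_new_U` : the two suppliers.
-/

set_option autoImplicit false
set_option linter.style.haveILetI false

namespace Fermat.Agent.S33

open Polynomial TensorProduct IsLocalRing Fermat.Agent.F3 Fermat.Agent.TraceRigidity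
  Fermat.Agent.S34

local notation "GQ'" => (AlgebraicClosure ℚ ≃ₐ[ℚ] AlgebraicClosure ℚ)

/-- The conclusion of `OrdinaryPointsU` at one point `χ`. -/
def OrdinaryPointUAt (p N : ℕ) [NeZero N] (S : Finset ℕ) (𝒪' : Type) [CommRing 𝒪']
    [IsLocalRing 𝒪'] (χ : CuspForm.heckeAlgebra N 2 (↑S : Set ℕ) →+* 𝒪') : Prop :=
  ∀ (ρ₀ : GaloisRepAdic 𝒪'),
    (∀ (ℓ : ℕ) (hℓ : ℓ.Prime) (hℓN : ¬ ℓ ∣ N) (hℓS : ℓ ∉ (↑S : Set ℕ)),
      ∀ A' : ValuationSubring (AlgebraicClosure ℚ), A'.LiesOverPrime ℓ →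
        ∀ σ : GQ', A'.IsFrobeniusAt σ ℓ →
          LinearMap.charpoly (ρ₀.ρ σ) =
            X ^ 2 - C (χ (CuspForm.heckeAlgebra.T hℓ hℓN hℓS)) * X + C ((ℓ : 𝒪'))) →
    ∀ (b : Module.Basis (Fin 2) 𝒪' ρ₀.V) (g : Fin 2 × Fin 2 → GQ'),
      IsUnit (coordMat (fun σ => LinearMap.toMatrix b b (ρ₀.ρ σ)) g).det →
      (GaloisRepAdic.ofResidualGaloisRep ρ₀.residual).IsOrdinaryAt p → ρ₀.IsOrdinaryAt p

/-- Every residually absolutely irreducible, residually ordinary representation with the Frobenius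
characteristic polynomials of a `p`-adic point of the Hecke algebra of level `N` is ordinary. -/
def OrdinaryPointsU (p N : ℕ) [NeZero N] (S : Finset ℕ) : Prop :=
  ∀ (𝒪' : Type) [CommRing 𝒪'] [IsDomain 𝒪'] [IsDiscreteValuationRing 𝒪']
    [IsAdicComplete (IsLocalRing.maximalIdeal 𝒪') 𝒪'] [Finite (IsLocalRing.ResidueField 𝒪')]
    [CharZero 𝒪'] (_hp𝒪' : (p : 𝒪') ∈ IsLocalRing.maximalIdeal 𝒪')
    (χ : CuspForm.heckeAlgebra N 2 (↑S : Set ℕ) →+* 𝒪'), OrdinaryPointUAt p N S 𝒪' χ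

variable {p : ℕ} {N : ℕ} [NeZero N] {S : Finset ℕ}

/-- The weak form of `OrdinaryPointsU`. -/
theorem wo_of_ordinaryPointsU (hU : OrdinaryPointsU p N S) (hp : p.Prime) (hp2 : p ≠ 2)
    (hNS : ∀ q : ℕ, q.Prime → q ∣ N → q ∈ S)
    (𝒪' : Type) [CommRing 𝒪'] [IsDomain 𝒪'] [IsDiscreteValuationRing 𝒪']
    [IsAdicComplete (IsLocalRing.maximalIdeal 𝒪') 𝒪'] [Finite (IsLocalRing.ResidueField 𝒪')]
    [CharZero 𝒪'] (hp𝒪' : (p : 𝒪') ∈ IsLocalRing.maximalIdeal 𝒪')
    (χ : CuspForm.heckeAlgebra N 2 (↑S : Set ℕ) →+* 𝒪') (ρ₀ : GaloisRepAdic 𝒪')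
    (hρ₀ : ∀ (ℓ : ℕ) (hℓ : ℓ.Prime) (hℓN : ¬ ℓ ∣ N) (hℓS : ℓ ∉ (↑S : Set ℕ)),
      ∀ A' : ValuationSubring (AlgebraicClosure ℚ), A'.LiesOverPrime ℓ →
        ∀ σ : GQ', A'.IsFrobeniusAt σ ℓ →
          LinearMap.charpoly (ρ₀.ρ σ) =
            X ^ 2 - C (χ (CuspForm.heckeAlgebra.T hℓ hℓN hℓS)) * X + C ((ℓ : 𝒪')))
    (b : Module.Basis (Fin 2) 𝒪' ρ₀.V) (g : Fin 2 × Fin 2 → GQ')
    (hg : IsUnit (coordMat (fun σ => LinearMap.toMatrix b b (ρ₀.ρ σ)) g).det)
    (hres : WOres ρ₀ p) : WO ρ₀ p := by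
  have hidn : IDN ρ₀ p :=
    idn_of_det_frob ρ₀ hp hp2 hp𝒪' S (det_frob_of_charpoly χ ρ₀ hNS hρ₀)
  exact wo_of_isOrdinaryAt
    (hU 𝒪' hp𝒪' χ ρ₀ hρ₀ b g hg ((residual_isOrdinaryAt_iff_wores ρ₀ p hidn).2 hres))

variable {𝒪 : Type} [CommRing 𝒪] [IsDomain 𝒪] [IsDiscreteValuationRing 𝒪]
  [IsAdicComplete (IsLocalRing.maximalIdeal 𝒪) 𝒪]
  {θ : CuspForm.heckeAlgebra N 2 (↑S : Set ℕ) →+* IsLocalRing.ResidueField 𝒪}
  {T : Type} [CommRing T] [IsLocalRing T] [IsNoetherianRing T]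
  [IsAdicComplete (IsLocalRing.maximalIdeal T) T] [Algebra 𝒪 T] [IsLocalHom (algebraMap 𝒪 T)]
  [Module.Finite 𝒪 T] [Module.Free 𝒪 T]

/-- **S33 from `OrdinaryPointsU`**, given the separation of `T` by local points. -/
theorem isOrdinaryAt_of_ordinaryPointsU (hU : OrdinaryPointsU p N S)
    (hp : p.Prime) (hp2 : p ≠ 2) (hp𝒪 : (p : 𝒪) ∈ IsLocalRing.maximalIdeal 𝒪)
    (hNS : ∀ q : ℕ, q.Prime → q ∣ N → q ∈ S)
    (H : CuspForm.HeckeGaloisRepDatum N (↑S : Set ℕ) 𝒪 θ T)
    (hpts : HasLocalDVRPoints T)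
    (hres : (GaloisRepAdic.ofResidualGaloisRep H.ρ.residual).IsOrdinaryAt p) :
    H.ρ.IsOrdinaryAt p := by
  classical
  obtain ⟨ι, Q, hQ⟩ := hpts
  have hpT : (p : T) ∈ IsLocalRing.maximalIdeal T := by
    have h1 : (p : T) = algebraMap 𝒪 T (p : 𝒪) := by simp
    rw [h1, mem_maximalIdeal, mem_nonunits_iff]
    intro hu
    exact (mem_maximalIdeal _).1 hp𝒪 (isUnit_of_map_unit (algebraMap 𝒪 T) _ hu)
  have hidn : IDN H.ρ p :=
    idn_of_det_frob H.ρ hp hp2 hpT S (det_frob_of_charpoly H.π H.ρ hNS H.charpoly_frob)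
  have hwores : WOres H.ρ p := (residual_isOrdinaryAt_iff_wores H.ρ p hidn).1 hres
  set b : Module.Basis (Fin 2) T H.ρ.V := Module.finBasisOfFinrankEq T H.ρ.V H.ρ.finrank_eq
    with hb
  obtain ⟨g, hg⟩ := exists_isUnit_det_coordMat H.ρ H.residual_absIrr b
  refine isOrdinaryAt_of_wo ?_ hidn
  refine wo_of_baseChangeAlong_family (fun i => (Q i).ψ) (fun i => (Q i).isLocalHom) hQ
    fun i => ?_
  -- the point `i`
  have hloc := (Q i).isLocalHom
  letI : Algebra T (Q i).O := ((Q i).ψ).toAlgebra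
  set ρi : GaloisRepAdic (Q i).O := H.ρ.baseChangeAlong (Q i).ψ hloc with hρi
  set bi : Module.Basis (Fin 2) (Q i).O ρi.V := Algebra.TensorProduct.basis (Q i).O b with hbi
  have hmat : ∀ τ, LinearMap.toMatrix bi bi (ρi.ρ τ) =
      (LinearMap.toMatrix b b (H.ρ.ρ τ)).map (Q i).ψ := fun τ =>
    LinearMap.toMatrix_baseChange (Q i).O (H.ρ.ρ τ) b b
  have hgi : IsUnit (coordMat (fun τ => LinearMap.toMatrix bi bi (ρi.ρ τ)) g).det := by
    have h1 : coordMat (fun τ => LinearMap.toMatrix bi bi (ρi.ρ τ)) g =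
        ((Q i).ψ).mapMatrix (coordMat (fun τ => LinearMap.toMatrix b b (H.ρ.ρ τ)) g) := by
      ext ab j
      simp only [coordMat, Matrix.of_apply, RingHom.mapMatrix_apply, Matrix.map_apply]
      rw [hmat]
      rfl
    rw [h1, ← RingHom.map_det]
    exact hg.map (Q i).ψ
  have hpi : (p : (Q i).O) ∈ IsLocalRing.maximalIdeal (Q i).O := by
    have h1 : (p : (Q i).O) = (Q i).ψ (p : T) := by simp
    rw [h1, mem_maximalIdeal, mem_nonunits_iff]
    intro hu
    exact (mem_maximalIdeal _).1 hpT (isUnit_of_map_unit (Q i).ψ _ hu)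
  have hfrobi : ∀ (ℓ : ℕ) (hℓ : ℓ.Prime) (hℓN : ¬ ℓ ∣ N) (hℓS : ℓ ∉ (↑S : Set ℕ)),
      ∀ A' : ValuationSubring (AlgebraicClosure ℚ), A'.LiesOverPrime ℓ →
        ∀ σ : GQ', A'.IsFrobeniusAt σ ℓ →
          LinearMap.charpoly (ρi.ρ σ) =
            X ^ 2 - C (((Q i).ψ.comp H.π) (CuspForm.heckeAlgebra.T hℓ hℓN hℓS)) * X
              + C ((ℓ : (Q i).O)) := by
    intro ℓ hℓ hℓN hℓS A' hA' σ hσ
    have h1 : LinearMap.charpoly (ρi.ρ σ) = (LinearMap.charpoly (H.ρ.ρ σ)).map (Q i).ψ :=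
      LinearMap.charpoly_baseChange (H.ρ.ρ σ) (Q i).O
    rw [h1, H.charpoly_frob ℓ hℓ hℓN hℓS A' hA' σ hσ]
    simp [Polynomial.map_sub, Polynomial.map_add, Polynomial.map_mul, Polynomial.map_pow]
  exact wo_of_ordinaryPointsU hU hp hp2 hNS (Q i).O hpi ((Q i).ψ.comp H.π) ρi hfrobi bi g hgi
    (wores_baseChangeAlong (Q i).ψ hloc hwores)

/-- **S33 from `OrdinaryPointsU`** (binders of the frozen statement). -/
theorem s33_of_ordinaryPointsU (hU : OrdinaryPointsU p N S)
    [Finite (IsLocalRing.ResidueField 𝒪)] [CharZero 𝒪]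
    (hp : p.Prime) (hp2 : p ≠ 2) (hp𝒪 : (p : 𝒪) ∈ IsLocalRing.maximalIdeal 𝒪)
    (_hN : p ∣ N ∧ ¬ p ^ 2 ∣ N)
    (hNS : ∀ q : ℕ, q.Prime → q ∣ N → q ∈ S)
    (H : CuspForm.HeckeGaloisRepDatum N (↑S : Set ℕ) 𝒪 θ T)
    (hres : (GaloisRepAdic.ofResidualGaloisRep H.ρ.residual).IsOrdinaryAt p) :
    H.ρ.IsOrdinaryAt p :=
  isOrdinaryAt_of_ordinaryPointsU hU hp hp2 hp𝒪 hNS H
    (hasLocalDVRPoints_of_datum hp hp𝒪 hNS H) hres

/-! ### the two suppliers -/

/-- The points occurring at level `N₀`, universal form. -/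
def OldOrdinaryU (p N₀ N : ℕ) [NeZero N₀] [NeZero N] (S : Finset ℕ) : Prop :=
  ∀ (𝒪' : Type) [CommRing 𝒪'] [IsDomain 𝒪'] [IsDiscreteValuationRing 𝒪']
    [IsAdicComplete (IsLocalRing.maximalIdeal 𝒪') 𝒪'] [Finite (IsLocalRing.ResidueField 𝒪')]
    [CharZero 𝒪'] (_hp𝒪' : (p : 𝒪') ∈ IsLocalRing.maximalIdeal 𝒪')
    (χ : CuspForm.heckeAlgebra N 2 (↑S : Set ℕ) →+* 𝒪'),
    OccursAtLevel N₀ N S χ → OrdinaryPointUAt p N S 𝒪' χ

/-- The points not occurring at level `N₀`, universal form. -/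
def NewOrdinaryU (p N₀ N : ℕ) [NeZero N₀] [NeZero N] (S : Finset ℕ) : Prop :=
  ∀ (𝒪' : Type) [CommRing 𝒪'] [IsDomain 𝒪'] [IsDiscreteValuationRing 𝒪']
    [IsAdicComplete (IsLocalRing.maximalIdeal 𝒪') 𝒪'] [Finite (IsLocalRing.ResidueField 𝒪')]
    [CharZero 𝒪'] (_hp𝒪' : (p : 𝒪') ∈ IsLocalRing.maximalIdeal 𝒪')
    (χ : CuspForm.heckeAlgebra N 2 (↑S : Set ℕ) →+* 𝒪'),
    ¬ OccursAtLevel N₀ N S χ → OrdinaryPointUAt p N S 𝒪' χ

theorem ordinaryPointsU_of_old_new {p N₀ N : ℕ} [NeZero N₀] [NeZero N] {S : Finset ℕ}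
    (hold : OldOrdinaryU p N₀ N S) (hnew : NewOrdinaryU p N₀ N S) : OrdinaryPointsU p N S := by
  classical
  intro 𝒪' _ _ _ _ _ _ hp𝒪' χ
  by_cases h : OccursAtLevel N₀ N S χ
  · exact hold 𝒪' hp𝒪' χ h
  · exact hnew 𝒪' hp𝒪' χ h

/-- **S33 from the two suppliers, universal form** (binders of the frozen statement). -/
theorem s33_of_old_new_U
    (hold : ∀ (p N₀ N : ℕ) [NeZero N₀] [NeZero N] (S : Finset ℕ), p.Prime → p ≠ 2 →
      N = p * N₀ → ¬ p ∣ N₀ → (∀ q : ℕ, q.Prime → q ∣ N → q ∈ S) → OldOrdinaryU p N₀ N S)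
    (hnew : ∀ (p N₀ N : ℕ) [NeZero N₀] [NeZero N] (S : Finset ℕ), p.Prime → p ≠ 2 →
      N = p * N₀ → ¬ p ∣ N₀ → (∀ q : ℕ, q.Prime → q ∣ N → q ∈ S) → NewOrdinaryU p N₀ N S)
    [Finite (IsLocalRing.ResidueField 𝒪)] [CharZero 𝒪]
    (hp : p.Prime) (hp2 : p ≠ 2) (hp𝒪 : (p : 𝒪) ∈ IsLocalRing.maximalIdeal 𝒪)
    (hN : p ∣ N ∧ ¬ p ^ 2 ∣ N)
    (hNS : ∀ q : ℕ, q.Prime → q ∣ N → q ∈ S)
    (H : CuspForm.HeckeGaloisRepDatum N (↑S : Set ℕ) 𝒪 θ T)
    (hres : (GaloisRepAdic.ofResidualGaloisRep H.ρ.residual).IsOrdinaryAt p) :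
    H.ρ.IsOrdinaryAt p := by
  obtain ⟨N₀, hN₀⟩ := hN.1
  have hN₀0 : N₀ ≠ 0 := by
    rintro rfl
    exact NeZero.ne N (by rw [hN₀, mul_zero])
  haveI : NeZero N₀ := ⟨hN₀0⟩
  have hpN₀ : ¬ p ∣ N₀ := by
    rintro ⟨c, hc⟩
    exact hN.2 ⟨c, by rw [hN₀, hc]; ring⟩
  exact s33_of_ordinaryPointsU
    (ordinaryPointsU_of_old_new (hold p N₀ N S hp hp2 hN₀ hpN₀ hNS)
      (hnew p N₀ N S hp hp2 hN₀ hpN₀ hNS)) hp hp2 hp𝒪 hN hNS H hres

end Fermat.Agent.S33
end MergeWrap_S33_UForm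

section MergeWrap_S33_NewWire -- from S33/NewWire.lean

/-!
# S33, the new part: `NewOrdinaryU` from Tate lattices with a split part (owner: helper11)

`NewSplitLattices p N₀ N S` (target of P-TATE): for every point `χ` of the Hecke algebra of level
`N = p N₀` which does not occur at level `N₀` there is a `FrobLattice` `L` (of some level `N'`, for
the primes outside some `S' ⊇ S`, `p ∈ S'`) with the eigenvalues of `χ` which has a split part at
`p` (`S33.HasSplitPart`).

`newOrdinaryU_of_newSplitLattices` : `NewSplitLattices p N₀ N S → NewOrdinaryU p N₀ N S`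
(helper62's embedding `S32.exists_embedding_of_frobLattice` + `isOrdinaryAt_of_hasSplitPart`).
-/

set_option autoImplicit false
set_option linter.style.haveILetI false

namespace Fermat.Agent.S33

open Polynomial IsLocalRing Fermat.Agent.F3 Fermat.Agent.TraceRigidity Fermat.Agent.S30

/-- For every new point there is a Tate lattice with a split part at `p`. -/
def NewSplitLattices (p N₀ N : ℕ) [NeZero N₀] [NeZero N] (S : Finset ℕ) : Prop :=
  ∀ (𝒪' : Type) [CommRing 𝒪'] [IsDomain 𝒪'] [IsDiscreteValuationRing 𝒪']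
    [IsAdicComplete (IsLocalRing.maximalIdeal 𝒪') 𝒪'] [Finite (IsLocalRing.ResidueField 𝒪')]
    [CharZero 𝒪'] (_hp𝒪' : (p : 𝒪') ∈ IsLocalRing.maximalIdeal 𝒪')
    (χ : CuspForm.heckeAlgebra N 2 (↑S : Set ℕ) →+* 𝒪'),
    ¬ OccursAtLevel N₀ N S χ →
      ∃ (N' : ℕ) (S' : Finset ℕ), p ∈ S' ∧ S ⊆ S' ∧
        ∃ L : FrobLattice p N' S' 𝒪' (heckeEigenvalue χ), HasSplitPart L

variable {p N₀ N : ℕ} [NeZero N₀] [NeZero N] {S : Finset ℕ}

/-- **The new part of S33 from the split Tate lattices.** -/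
theorem newOrdinaryU_of_newSplitLattices (hp : p.Prime) (hp2 : p ≠ 2)
    (hNS : ∀ q : ℕ, q.Prime → q ∣ N → q ∈ S) (h : NewSplitLattices p N₀ N S) :
    NewOrdinaryU p N₀ N S := by
  haveI : Fact p.Prime := ⟨hp⟩
  intro 𝒪' _ _ _ _ _ _ hp𝒪' χ hχ ρ₀ hρ₀ b g hg _
  obtain ⟨N', S', hpS', hSS', L, hL⟩ := h 𝒪' hp𝒪' χ hχ
  let E : CycloCharData p 𝒪' := Fermat.Agent.Cyclo.cycloCharData (p := p) (𝒪 := 𝒪') hp𝒪'
  have hfrob : ∀ ℓ : ℕ, ℓ.Prime → ℓ ∉ S' →
      ∀ A : ValuationSubring (AlgebraicClosure ℚ), A.LiesOverPrime ℓ →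
        ∀ σ : AlgebraicClosure ℚ ≃ₐ[ℚ] AlgebraicClosure ℚ, A.IsFrobeniusAt σ ℓ →
          LinearMap.charpoly (ρ₀.ρ σ) = X ^ 2 - C (heckeEigenvalue χ ℓ) * X + C ((ℓ : 𝒪')) := by
    intro ℓ hℓ hℓS' A hA σ hσ
    have hℓS : ℓ ∉ (↑S : Set ℕ) := fun h => hℓS' (hSS' (Finset.mem_coe.1 h))
    have hℓN : ¬ ℓ ∣ N := fun h => hℓS (Finset.mem_coe.2 (hNS ℓ hℓ h))
    rw [heckeEigenvalue_eq χ hℓ hℓN hℓS]
    exact hρ₀ ℓ hℓ hℓN hℓS A hA σ hσ
  obtain ⟨f, hf, hfe, hfs⟩ :=
    Fermat.Agent.S32.exists_embedding_of_frobLattice frobDensityLite hpS' (heckeEigenvalue χ) L E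
      ρ₀ b g hg hfrob
  exact isOrdinaryAt_of_hasSplitPart hp hp2 hp𝒪' L hL ρ₀ f hf hfe hfs S
    (det_frob_of_charpoly χ ρ₀ hNS hρ₀)

end Fermat.Agent.S33
end MergeWrap_S33_NewWire

section MergeWrap_S33_NewTateJ -- from S33/NewTateJ.lean

/-!
# S33, the new part, P-TATE for `J₀(M)`: from the torsion to the split Tate lattices
(owner: helper11)

* `exists_frobLattice_split` : from the interface propositions of cluster A at level `M`, a nonzero
  compatible eigen-class of `χ` killed by `newUAt i` and `TorsionSplitAt M i`, a `FrobLattice` of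
  `χ` with a split part at `p = i.1` (`S33.HasSplitPart`).
* `newSplitLattices_of_torsion` : `NewEigenclassAt M S i → TorsionSplitAt M i →
  NewSplitLattices p (M / p) M S`.
* `newOrdinaryU_of_torsion` : hence `NewOrdinaryU p (M / p) M S` (`S33/NewWire.lean`).
-/

set_option autoImplicit false
set_option linter.unusedSectionVars false
set_option linter.style.haveILetI false

noncomputable section

namespace Fermat.Agent.S33

open ModularCurve AlgebraicCurve IsLocalRing
open scoped TensorProduct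
open Fermat.Agent.S30 Fermat.Agent.S30Tate

local notation "Qb" => (AlgebraicClosure ℚ)

/-- **P-TATE for `J₀(M)`.** -/
theorem exists_frobLattice_split (M : ℕ) [NeZero M]
    (hFin : F3.TorsionFinite M)
    (hUnr : F3.TorsionUnramified M) (hFrob : F3.TorsionFrobQuadratic M)
    (hOpen : F3.TorsionOpenStab M) (hComm : F3.HeckeGaloisComm M)
    (i : Fermat.Agent.S35.NewIdx M 0) (S : Finset ℕ) (hpS : i.1 ∈ S)
    (hNS : ∀ q : ℕ, q.Prime → q ∣ M → q ∈ S)
    (𝒪 : Type) [CommRing 𝒪] [IsDomain 𝒪] [IsDiscreteValuationRing 𝒪]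
    [IsAdicComplete (maximalIdeal 𝒪) 𝒪] [Finite (ResidueField 𝒪)] [CharZero 𝒪]
    (hp𝒪 : (i.1 : 𝒪) ∈ maximalIdeal 𝒪) (χ : CuspForm.heckeAlgebra M 2 (↑S : Set ℕ) →+* 𝒪)
    -- the eigen-class
    (x : (n : ℕ) → 𝒪 ⊗[ℤ] F3.Jtors M (i.1 ^ n))
    (hx0 : ∃ n, x n ≠ 0)
    (hcompat : ∀ n, (mulPTors M i.1 n).baseChange 𝒪 (x (n + 1)) = x n)
    (heig : ∀ (n ℓ : ℕ) (hℓ : ℓ.Prime) (hℓN : ¬ ℓ ∣ M) (hℓS : ℓ ∉ (↑S : Set ℕ)),
      (F3.heckeTors M (i.1 ^ n) ⟨ℓ, hℓ⟩).baseChange 𝒪 (x n) =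
        χ (CuspForm.heckeAlgebra.T hℓ hℓN hℓS) • x n)
    (hux : ∀ n, (newUAt i ∘ₗ (F3.Jtors M (i.1 ^ n)).subtype).baseChange 𝒪 (x n) = 0)
    -- the split classes
    (hT : TorsionSplitAt M i) :
    ∃ L : FrobLattice i.1 M S 𝒪 (heckeEigenvalue χ), HasSplitPart L := by
  have hp : i.1.Prime := i.prime
  obtain ⟨Λ, _, _, _, _, _, ρ, hcont, hunr, hfrob, hsplit⟩ :=
    exists_eigenLattice_split (O := 𝒪) (G := GQ) (J := JZero M) (ι := HeckeIdx M S)
      hp hp𝒪
      (fun j => heckeOperatorBar M ⟨j.1, j.2.1⟩)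
      (fun j => χ (CuspForm.heckeAlgebra.T j.2.1 j.2.2.1 j.2.2.2))
      (fun j σ y => hComm ⟨j.1, j.2.1⟩ σ y)
      (hFin i.1 hp.pos)
      (fun n => mulPTors M i.1 n)
      (fun n y => mulPTors_coe M i.1 n y)
      (fun j n => F3.heckeTors M (i.1 ^ n) ⟨j.1, j.2.1⟩)
      (fun j n y => rfl)
      x hx0 hcompat
      (fun j n => heig n j.1 j.2.1 j.2.2.1 j.2.2.2)
      (newUAt i) (fun σ y h => newUAt_smul i σ y h) hux
  refine ⟨{
    Λ := Λ
    ρ := ρ
    cont := ?_
    unram := ?_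
    frob := ?_ }, ?_⟩
  · -- adic continuity
    intro n
    have hpos : 0 < i.1 ^ n := pow_pos hp.pos n
    haveI : Finite {y : JZero M // i.1 ^ n • y = 0} := (hFin (i.1 ^ n) hpos).to_subtype
    choose L hLfin hL using
      fun y : {y : JZero M // i.1 ^ n • y = 0} => hOpen (i.1 ^ n) hpos y.1 y.2
    haveI : ∀ y, FiniteDimensional ℚ (L y) := hLfin
    refine ⟨⨆ y, L y, inferInstance, fun σ hσ v => ?_⟩
    have hfix : ∀ y : JZero M, i.1 ^ n • y = 0 → σ • y = y := fun y hy =>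
      hL ⟨y, hy⟩ σ (fun z hz => hσ z (le_iSup L ⟨y, hy⟩ hz))
    exact hcont n σ hfix v
  · -- unramified
    intro q hq hqN hqp P hP σ hσ
    exact hunr σ (fun n y hy =>
      hUnr (i.1 ^ n) q hq (not_dvd_mul_pow hp hq hqN hqp n) P hP σ hσ y hy)
  · -- Frobenius relation
    intro ℓ hℓ hℓS A hA σ hσ
    have hℓS' : ℓ ∉ (↑S : Set ℕ) := fun h => hℓS (Finset.mem_coe.mp h)
    have hℓN : ¬ ℓ ∣ M := fun h => hℓS (hNS ℓ hℓ h)
    have hℓp : ℓ ≠ i.1 := fun h => hℓS (h ▸ hpS)
    rw [heckeEigenvalue_eq χ hℓ hℓN hℓS']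
    exact hfrob σ (⟨ℓ, hℓ, hℓN, hℓS'⟩ : HeckeIdx M S) ℓ (fun n y hy =>
      hFrob (i.1 ^ n) ℓ hℓ (not_dvd_mul_pow hp hℓ hℓN hℓp n) A hA σ hσ y hy)
  · -- the split part
    intro P hP
    obtain ⟨Sp, hG1, hG2⟩ := hT P hP
    obtain ⟨Lsp, hsat, hb, hc⟩ := hsplit Sp
    exact ⟨Lsp, hsat, fun τ hτ v => hb τ (fun n y hy huy => hG1 τ hτ n y hy huy) v,
      fun σ hσ hinv v hv => hc σ (fun s hs hps => hG2 σ hσ hinv s hs hps) v hv⟩

/-- **The split Tate lattices of the new points**, from the two geometric targets. -/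
theorem newSplitLattices_of_torsion (M : ℕ) [NeZero M] (S : Finset ℕ)
    (i : Fermat.Agent.S35.NewIdx M 0) (hpS : i.1 ∈ S)
    (hNS : ∀ q : ℕ, q.Prime → q ∣ M → q ∈ S)
    (hE : NewEigenclassAt M S i) (hT : TorsionSplitAt M i) :
    haveI := i.neZero_N
    NewSplitLattices i.1 (M / i.1) M S := by
  haveI := i.neZero_N
  intro 𝒪' _ _ _ _ _ _ hp𝒪' χ hχ
  obtain ⟨x, hx0, hcompat, heig, hux⟩ := hE 𝒪' hp𝒪' χ hχ
  obtain ⟨L, hL⟩ := exists_frobLattice_split M
    (Fermat.Agent.F3TF.torsionFinite M)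
    (Fermat.Agent.GaussInt.torsionUnramified_of_keyLemmaAt
      (Fermat.Agent.GaussInt.keyLemmaAt_all M))
    (Fermat.Agent.GaussIntFP.torsionFrobQuadratic_of_keyLemmaAt
      (Fermat.Agent.GaussInt.keyLemmaAt_all M) (Fermat.Agent.F3W.heckeInputs_all M))
    (Fermat.Agent.F3.torsionOpenStab M) (Fermat.Agent.F3G.heckeGaloisComm M)
    i S hpS hNS 𝒪' hp𝒪' χ x hx0 hcompat heig hux hT
  exact ⟨M, S, hpS, Finset.Subset.refl S, L, hL⟩

/-- **The new part of S33** from the two geometric targets. -/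
theorem newOrdinaryU_of_torsion (M : ℕ) [NeZero M] (S : Finset ℕ)
    (i : Fermat.Agent.S35.NewIdx M 0) (hp2 : i.1 ≠ 2) (hpS : i.1 ∈ S)
    (hNS : ∀ q : ℕ, q.Prime → q ∣ M → q ∈ S)
    (hE : NewEigenclassAt M S i) (hT : TorsionSplitAt M i) :
    haveI := i.neZero_N
    NewOrdinaryU i.1 (M / i.1) M S :=
  haveI := i.neZero_N
  newOrdinaryU_of_newSplitLattices i.prime hp2 hNS
    (newSplitLattices_of_torsion M S i hpS hNS hE hT)

end Fermat.Agent.S33
end
end MergeWrap_S33_NewTateJ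

section MergeWrap_S33_FlatOrd -- from S33/FlatOrd.lean

/-!
# S33, old part: flat + residually ordinary ⇒ ordinary (helper57)

`A` a discrete valuation ring with finite residue field, `p` odd, `ρ : GaloisRepAdic A` flat at
`p` with determinant residually nontrivial on inertia (`IDN`).  If the residual representation is
ordinary at `p`, then `ρ` is ordinary at `p`.

Proof: residual ordinarity gives `U + 𝔪 V ≠ V` for the inertia span `U` (`FFL.inertiaSpan`);
FFL-ORD (`FFL.exists_inertia_invariant_functional`, with `FFL.exactProp`) gives a nonzero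
inertia-invariant functional; `S33.isOrdinaryAt_of_invariant_functional` concludes.
-/

set_option autoImplicit false
set_option linter.style.haveILetI false
set_option linter.unusedSectionVars false

namespace Fermat.Agent.S33

open IsLocalRing TensorProduct Fermat.Agent.FFL

local notation "GQ" => (AlgebraicClosure ℚ ≃ₐ[ℚ] AlgebraicClosure ℚ)
local notation "Qb" => (AlgebraicClosure ℚ)

variable {A : Type} [CommRing A] [IsDomain A] [IsDiscreteValuationRing A]

/-- `1 ⊗ m = 0` in the residual representation for `m ∈ 𝔪 V`. -/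
theorem one_tmul_eq_zero_of_mem (ρ : GaloisRepAdic A) {m : ρ.V}
    (hm : m ∈ maximalIdeal A • (⊤ : Submodule A ρ.V)) :
    (1 : ResidueField A) ⊗ₜ[A] m = 0 := by
  refine Submodule.smul_induction_on
    (p := fun x => (1 : ResidueField A) ⊗ₜ[A] x = (0 : ResidueField A ⊗[A] ρ.V)) hm ?_ ?_
  · intro a ha w _
    rw [TensorProduct.tmul_smul, TensorProduct.smul_tmul', Algebra.smul_def,
      IsLocalRing.ResidueField.algebraMap_eq, (IsLocalRing.residue_eq_zero_iff a).mpr ha,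
      zero_mul, TensorProduct.zero_tmul]
  · intro x y hx hy
    rw [TensorProduct.tmul_add, hx, hy, add_zero]

/-- Residual ordinarity at a place `P` implies that the inertia span is not everything modulo the
maximal ideal. -/
theorem inertiaSpan_sup_ne_top (ρ : GaloisRepAdic A) (P : ValuationSubring Qb)
    (hres : ∃ L : Submodule (ResidueField A) (ResidueField A ⊗[A] ρ.V),
      (∃ b : Module.Basis (Fin 2) (ResidueField A) (ResidueField A ⊗[A] ρ.V),
        L = Submodule.span (ResidueField A) {b 0}) ∧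
      ∀ σ ∈ P.inertiaSubgroupIn ℚ, ∀ v : ResidueField A ⊗[A] ρ.V,
        (ρ.ρ σ).baseChange (ResidueField A) v - v ∈ L) :
    inertiaSpan P ρ ⊔ maximalIdeal A • (⊤ : Submodule A ρ.V) ≠ ⊤ := by
  obtain ⟨L, ⟨b, hb⟩, hI⟩ := hres
  intro htop
  -- the image of `U` lies in `L`
  have hU : ∀ u ∈ inertiaSpan P ρ, (1 : ResidueField A) ⊗ₜ[A] u ∈ L := by
    intro u hu
    unfold inertiaSpan at hu
    induction hu using Submodule.span_induction with
    | mem x hx =>
      obtain ⟨σ, hσ, w, rfl⟩ := hx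
      have := hI σ hσ ((1 : ResidueField A) ⊗ₜ[A] w)
      rw [LinearMap.baseChange_tmul, ← TensorProduct.tmul_sub] at this
      exact this
    | zero =>
      rw [TensorProduct.tmul_zero]
      exact L.zero_mem
    | add x y _ _ hx hy =>
      rw [TensorProduct.tmul_add]
      exact L.add_mem hx hy
    | smul a x _ hx =>
      rw [TensorProduct.tmul_smul, TensorProduct.smul_tmul', Algebra.smul_def, mul_one,
        ← mul_one (algebraMap A (ResidueField A) a), ← smul_eq_mul, ← TensorProduct.smul_tmul']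
      exact L.smul_mem _ hx
  have hall : ∀ x : ResidueField A ⊗[A] ρ.V, x ∈ L := by
    intro x
    induction x using TensorProduct.induction_on with
    | zero => exact L.zero_mem
    | tmul c v =>
      have hv : v ∈ inertiaSpan P ρ ⊔ maximalIdeal A • (⊤ : Submodule A ρ.V) := by
        rw [htop]; exact Submodule.mem_top
      obtain ⟨u, hu, m, hm, rfl⟩ := Submodule.mem_sup.1 hv
      have h1 : c ⊗ₜ[A] (u + m) = c • ((1 : ResidueField A) ⊗ₜ[A] u) := by
        rw [TensorProduct.tmul_add, TensorProduct.smul_tmul', smul_eq_mul, mul_one]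
        have h2 : c ⊗ₜ[A] m = c • ((1 : ResidueField A) ⊗ₜ[A] m) := by
          rw [TensorProduct.smul_tmul', smul_eq_mul, mul_one]
        rw [h2, one_tmul_eq_zero_of_mem ρ hm, smul_zero, add_zero]
      rw [h1]
      exact L.smul_mem _ (hU u hu)
    | add x y hx hy => exact L.add_mem hx hy
  -- contradiction: `b 1 ∉ span {b 0}`
  have h1 : b 1 ∈ Submodule.span (ResidueField A) {b 0} := hb ▸ hall (b 1)
  obtain ⟨c, hc⟩ := Submodule.mem_span_singleton.1 h1
  have h2 := congrArg (fun x => b.repr x 1) hc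
  simp only [map_smul, Module.Basis.repr_self, Finsupp.smul_apply, smul_eq_mul] at h2
  rw [Finsupp.single_eq_of_ne (by decide), Finsupp.single_eq_same, mul_zero] at h2
  exact zero_ne_one h2

/-- **Flat + residually ordinary ⇒ ordinary** (`p` odd, over a discrete valuation ring with
finite residue field). -/
theorem isOrdinaryAt_of_isFlatAt {p : ℕ} (hp : p.Prime) (hp2 : p ≠ 2)
    [Finite (ResidueField A)] (ρ : GaloisRepAdic A) (hfl : ρ.IsFlatAt p) (hd : IDN ρ p)
    (hres : (GaloisRepAdic.ofResidualGaloisRep ρ.residual).IsOrdinaryAt p) :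
    ρ.IsOrdinaryAt p := by
  refine isOrdinaryAt_of_invariant_functional ρ p hd (fun P hP => ?_)
  refine exists_inertia_invariant_functional (exactProp hp hp2 P hP) ρ hfl ?_
  obtain ⟨L, hb, -, hI⟩ := hres P hP
  exact inertiaSpan_sup_ne_top ρ P ⟨L, hb, hI⟩

end Fermat.Agent.S33
end MergeWrap_S33_FlatOrd

section MergeWrap_S33_OldSupplier -- from S33/OldSupplier.lean

/-!
# S33, the old supplier (owner: helper62)

`oldOrdinaryU : OldOrdinaryU p N₀ N S` for `N = p * N₀`, `p ∤ N₀`, `p` odd: a representation `ρ₀`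
over a complete discrete valuation ring with the Frobenius characteristic polynomials of a point
`χ` of the Hecke algebra of level `N` which occurs at level `N₀`, four of whose matrices form a
basis of `M₂`, is ordinary at `p` if it is residually ordinary at `p`.

Proof: `ρ₀` has the Frobenius characteristic polynomials of a point of level `N₀`, so it is flat
at `p` (`S32.isFlatAt_point` with S19 at level `N₀`); flat + residually ordinary ⇒ ordinary
(helper57, `S33.isOrdinaryAt_of_isFlatAt`, FFL).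

`s33_of_newOrdinaryU`: the frozen S33 (same binders) from the new supplier only.
-/

set_option autoImplicit false
set_option linter.style.haveILetI false
set_option linter.unusedSectionVars false
set_option linter.unusedVariables false

namespace Fermat.Agent.S33

open Polynomial TensorProduct IsLocalRing Fermat.Agent.F3 Fermat.Agent.TraceRigidity
  Fermat.Agent.S34 Fermat.Agent.S30

local notation "GQ'" => (AlgebraicClosure ℚ ≃ₐ[ℚ] AlgebraicClosure ℚ)

/-- The frozen statement of S19, as a theorem. -/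
theorem s19Statement : Fermat.Agent.S32.S19Statement :=
  fun M _ ℓ _ hℓM k => Fermat.Agent.S19.result M ℓ hℓM k

/-- **The old supplier**, from S19. -/
theorem oldOrdinaryU_of_s19 (h19 : Fermat.Agent.S32.S19Statement)
    {p N₀ N : ℕ} [NeZero N₀] [NeZero N] {S : Finset ℕ}
    (hp : p.Prime) (hp2 : p ≠ 2) (hN : N = p * N₀) (hpN₀ : ¬ p ∣ N₀)
    (hNS : ∀ q : ℕ, q.Prime → q ∣ N → q ∈ S) : OldOrdinaryU p N₀ N S := by
  classical
  intro 𝒪' _ _ _ _ _ _ hp𝒪' χ hocc ρ₀ hρ₀ b g hg hres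
  obtain ⟨χ₀, hχ₀⟩ := hocc
  have hpS : p ∈ S := hNS p hp ⟨N₀, hN⟩
  have hN₀N : N₀ ∣ N := ⟨p, by rw [hN, mul_comm]⟩
  have hN₀S : ∀ q : ℕ, q.Prime → q ∣ N₀ → q ∈ S := fun q hq h =>
    hNS q hq (dvd_trans h hN₀N)
  have hfrob₀ : ∀ ℓ : ℕ, ℓ.Prime → ℓ ∉ S →
      ∀ A : ValuationSubring (AlgebraicClosure ℚ), A.LiesOverPrime ℓ →
        ∀ σ : GQ', A.IsFrobeniusAt σ ℓ →
          LinearMap.charpoly (ρ₀.ρ σ) =
            X ^ 2 - C (heckeEigenvalue χ₀ ℓ) * X + C ((ℓ : 𝒪')) := by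
    intro ℓ hℓ hℓS A hA σ hσ
    have hℓN : ¬ ℓ ∣ N := fun h => hℓS (hNS ℓ hℓ h)
    have hℓN₀ : ¬ ℓ ∣ N₀ := fun h => hℓS (hN₀S ℓ hℓ h)
    have hℓS' : ℓ ∉ (↑S : Set ℕ) := fun h => hℓS (Finset.mem_coe.1 h)
    rw [hρ₀ ℓ hℓ hℓN hℓS' A hA σ hσ, heckeEigenvalue_eq χ₀ hℓ hℓN₀ hℓS',
      hχ₀ ℓ hℓ hℓN hℓN₀ hℓS']
  have hfl : ρ₀.IsFlatAt p :=
    Fermat.Agent.S32.isFlatAt_point h19 hp hp𝒪' hpN₀ hpS hN₀S χ₀ ρ₀ hfrob₀ b g hg
  have hidn : IDN ρ₀ p :=
    idn_of_det_frob ρ₀ hp hp2 hp𝒪' S (det_frob_of_charpoly χ ρ₀ hNS hρ₀)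
  exact isOrdinaryAt_of_isFlatAt hp hp2 ρ₀ hfl hidn hres

/-- **The old supplier** (unconditional). -/
theorem oldOrdinaryU {p N₀ N : ℕ} [NeZero N₀] [NeZero N] {S : Finset ℕ}
    (hp : p.Prime) (hp2 : p ≠ 2) (hN : N = p * N₀) (hpN₀ : ¬ p ∣ N₀)
    (hNS : ∀ q : ℕ, q.Prime → q ∣ N → q ∈ S) : OldOrdinaryU p N₀ N S :=
  oldOrdinaryU_of_s19 s19Statement hp hp2 hN hpN₀ hNS

variable {p : ℕ} {N : ℕ} [NeZero N] {S : Finset ℕ}
  {𝒪 : Type} [CommRing 𝒪] [IsDomain 𝒪] [IsDiscreteValuationRing 𝒪]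
  [IsAdicComplete (IsLocalRing.maximalIdeal 𝒪) 𝒪]
  {θ : CuspForm.heckeAlgebra N 2 (↑S : Set ℕ) →+* IsLocalRing.ResidueField 𝒪}
  {T : Type} [CommRing T] [IsLocalRing T] [IsNoetherianRing T]
  [IsAdicComplete (IsLocalRing.maximalIdeal T) T] [Algebra 𝒪 T] [IsLocalHom (algebraMap 𝒪 T)]
  [Module.Finite 𝒪 T] [Module.Free 𝒪 T]

/-- **S33 from the new supplier only** (binders of the frozen statement). -/
theorem s33_of_newOrdinaryU
    (hnew : ∀ (p N₀ N : ℕ) [NeZero N₀] [NeZero N] (S : Finset ℕ), p.Prime → p ≠ 2 →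
      N = p * N₀ → ¬ p ∣ N₀ → (∀ q : ℕ, q.Prime → q ∣ N → q ∈ S) → NewOrdinaryU p N₀ N S)
    [Finite (IsLocalRing.ResidueField 𝒪)] [CharZero 𝒪]
    (hp : p.Prime) (hp2 : p ≠ 2) (hp𝒪 : (p : 𝒪) ∈ IsLocalRing.maximalIdeal 𝒪)
    (hN : p ∣ N ∧ ¬ p ^ 2 ∣ N)
    (hNS : ∀ q : ℕ, q.Prime → q ∣ N → q ∈ S)
    (H : CuspForm.HeckeGaloisRepDatum N (↑S : Set ℕ) 𝒪 θ T)
    (hres : (GaloisRepAdic.ofResidualGaloisRep H.ρ.residual).IsOrdinaryAt p) :
    H.ρ.IsOrdinaryAt p :=
  s33_of_old_new_U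
    (fun p N₀ N _ _ S hp hp2 hN hpN₀ hNS => oldOrdinaryU hp hp2 hN hpN₀ hNS)
    hnew hp hp2 hp𝒪 hN hNS H hres

end Fermat.Agent.S33
end MergeWrap_S33_OldSupplier

section MergeWrap_S33_NewFinal -- from S33/NewFinal.lean

/-!
# S33: the final wiring (owner: helper11)

* `torsionSplitAt_of_splitG` : `TorsionSplitAt M i` from helper94's form `SplitG1`, `SplitG2`
  (`Lib/BadRed/Bridge/PullSplit.lean`) at the level `N₀ * p`, `N₀ = M / p` (level casts).
* `s33_of_targets` : the frozen S33 (same binders) from the two geometric targets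
  `NewEigenclassAt` (P-NEW) and `TorsionSplitAt` (P-BR); the old part is helper62's
  `S33.oldOrdinaryU`.
* `s33_of_splitG` : the same with `SplitG1`, `SplitG2` in place of `TorsionSplitAt`.
-/

set_option autoImplicit false
set_option linter.unusedSectionVars false
set_option linter.style.haveILetI false

noncomputable section

namespace Fermat.Agent.S33

open ModularCurve AlgebraicCurve IsLocalRing Fermat.Agent.F3Deg Fermat.Agent.F3DegW
  Fermat.Agent.BadRed Fermat.Agent.BadRed.PullAux Fermat.Agent.S35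
open Fermat.Agent.AtkinLehner (ALData)

local notation "Qb" => (AlgebraicClosure ℚ)

/-! ### level casts -/

theorem newOrdinaryU_cast {p N₀ N₀' N : ℕ} [NeZero N₀] [NeZero N₀'] [NeZero N] {S : Finset ℕ}
    (h : N₀ = N₀') (H : NewOrdinaryU p N₀ N S) : NewOrdinaryU p N₀' N S := by
  subst h
  exact H

theorem torsionSplitAt_cast {M M' : ℕ} [NeZero M] [NeZero M'] (h : M' = M)
    (i : NewIdx M 0) (i' : NewIdx M' 0) (hi : i'.1 = i.1) (H : TorsionSplitAt M' i') :
    TorsionSplitAt M i := by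
  subst h
  obtain rfl : i' = i := Subtype.ext hi
  exact H

theorem pushAlphaAt_eq_zero_iff {M N₁ N₁' q q' : ℕ} [NeZero M] [NeZero N₁] [NeZero N₁']
    [NeZero q] [NeZero q']
    (h : M = N₁ * q) (h' : M = N₁' * q') (e : N₁ = N₁') (eq : q = q') (y : JZero M) :
    pushAlphaAt h y = 0 ↔ pushAlphaAt h' y = 0 := by
  subst e
  subst eq
  exact Iff.rfl

theorem pushAlphaAt_rfl {N₁ q : ℕ} [NeZero N₁] [NeZero q] [NeZero (N₁ * q)]
    (y : JZero (N₁ * q)) :
    pushAlphaAt (rfl : N₁ * q = N₁ * q) y = pushAlpha N₁ q y := rfl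

/-! ### the adapter -/

/-- `TorsionSplitAt` at the level `N₀ * p` from `SplitG1`, `SplitG2`. -/
theorem torsionSplitAt_mul {p N₀ : ℕ} [NeZero N₀] [NeZero p] (i : NewIdx (N₀ * p) 0)
    (hi : i.1 = p)
    (h : ∀ A : ValuationSubring Qb, A.LiesOverPrime p →
      ∃ Sp : AddSubgroup (JZero (N₀ * p)),
        SplitG1 p N₀ i.data i.level_eq_data A Sp ∧ SplitG2 p (N₀ * p) A Sp) :
    TorsionSplitAt (N₀ * p) i := by
  have hp : p.Prime := hi ▸ i.prime
  haveI := i.neZero_N
  haveI := i.neZero_q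
  have hdiv : N₀ * p / i.1 = N₀ := by
    rw [hi]
    exact Nat.mul_div_cancel N₀ hp.pos
  have hA : ∀ z : JZero (N₀ * p), i.degA z = 0 ↔ pushAlpha N₀ p z = 0 := by
    intro z
    have h1 := pushAlphaAt_eq_zero_iff (M := N₀ * p) i.level_eq
      (rfl : N₀ * p = N₀ * p) hdiv hi z
    rw [pushAlphaAt_rfl] at h1
    exact h1
  intro P hP
  obtain ⟨Sp, hG1, hG2⟩ := h P (hi ▸ hP)
  refine ⟨Sp, fun τ hτ n y hy hu => ?_, fun σ hσ hinv s hs hps => ?_⟩
  · rw [newUAt_eq_zero_iff] at hu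
    rw [hi] at hy
    exact hG1 n y hy ((hA y).1 hu.1) ((hA _).1 hu.2) τ hτ
  · rw [hi] at hps
    have h1 := hG2 s hs hps σ hσ (p - 1) (fun ζ hζ => by
      rw [hinv ζ (by rw [hi]; exact hζ)]
      apply inv_eq_of_mul_eq_one_right
      rw [← pow_succ', Nat.sub_add_cancel hp.one_le, hζ])
    rw [h1, ← succ_nsmul, Nat.sub_add_cancel hp.one_le, hps]

/-- **The adapter**: `TorsionSplitAt M i` from `SplitG1`, `SplitG2` at the level `(M / p) * p`. -/
theorem torsionSplitAt_of_splitG (M : ℕ) [NeZero M] (i : NewIdx M 0) (hi2 : i.1 ≠ 2)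
    (h : ∀ (p N₀ : ℕ) [NeZero N₀] [NeZero p] (D : ALData) (hM : N₀ * p = D.Q * D.R),
      p.Prime → p ≠ 2 → ¬ p ∣ N₀ → D.Q = p → D.R = N₀ →
      ∀ A : ValuationSubring Qb, A.LiesOverPrime p →
        ∃ Sp : AddSubgroup (JZero (N₀ * p)),
          SplitG1 p N₀ D hM A Sp ∧ SplitG2 p (N₀ * p) A Sp) :
    TorsionSplitAt M i := by
  haveI := i.neZero_N
  haveI := i.neZero_q
  have hM : M / i.1 * i.1 = M := i.level_eq.symm
  have hdiv : (M / i.1 * i.1) / i.1 = M / i.1 := Nat.mul_div_cancel _ i.prime.pos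
  have hdvd : i.1 ∣ M / i.1 * i.1 := dvd_mul_left _ _
  have hsq : ¬ i.1 ^ 2 ∣ M / i.1 * i.1 := by
    rw [hM]
    exact i.not_sq_dvd
  set i' : NewIdx (M / i.1 * i.1) 0 := pIdx i.prime hdvd hsq with hi'
  refine torsionSplitAt_cast hM i i' rfl ?_
  refine torsionSplitAt_mul i' rfl fun A hA => ?_
  have hR : i'.data.R = M / i.1 := by
    rw [i'.data_R]
    exact hdiv
  exact h i.1 (M / i.1) i'.data i'.level_eq_data i.prime hi2 i.not_dvd_N i'.data_Q hR A hA

/-! ### the final wiring -/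

variable {p : ℕ} {N : ℕ} [NeZero N] {S : Finset ℕ}
  {𝒪 : Type} [CommRing 𝒪] [IsDomain 𝒪] [IsDiscreteValuationRing 𝒪]
  [IsAdicComplete (IsLocalRing.maximalIdeal 𝒪) 𝒪]
  {θ : CuspForm.heckeAlgebra N 2 (↑S : Set ℕ) →+* IsLocalRing.ResidueField 𝒪}
  {T : Type} [CommRing T] [IsLocalRing T] [IsNoetherianRing T]
  [IsAdicComplete (IsLocalRing.maximalIdeal T) T] [Algebra 𝒪 T] [IsLocalHom (algebraMap 𝒪 T)]
  [Module.Finite 𝒪 T] [Module.Free 𝒪 T]

/-- **S33 from the two geometric targets** (binders of the frozen statement). -/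
theorem s33_of_targets
    (hE : ∀ (M : ℕ) [NeZero M] (S : Finset ℕ) (i : NewIdx M 0), i.1 ≠ 2 →
      (∀ q : ℕ, q.Prime → q ∣ M → q ∈ S) → NewEigenclassAt M S i)
    (hT : ∀ (M : ℕ) [NeZero M] (i : NewIdx M 0), i.1 ≠ 2 → TorsionSplitAt M i)
    [Finite (IsLocalRing.ResidueField 𝒪)] [CharZero 𝒪]
    (hp : p.Prime) (hp2 : p ≠ 2) (hp𝒪 : (p : 𝒪) ∈ IsLocalRing.maximalIdeal 𝒪)
    (hN : p ∣ N ∧ ¬ p ^ 2 ∣ N)
    (hNS : ∀ q : ℕ, q.Prime → q ∣ N → q ∈ S)
    (H : CuspForm.HeckeGaloisRepDatum N (↑S : Set ℕ) 𝒪 θ T)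
    (hres : (GaloisRepAdic.ofResidualGaloisRep H.ρ.residual).IsOrdinaryAt p) :
    H.ρ.IsOrdinaryAt p := by
  refine s33_of_newOrdinaryU (fun p N₀ N _ _ S hp hp2 hN hpN₀ hNS => ?_) hp hp2 hp𝒪 hN hNS H hres
  have hpN : p ∣ N := ⟨N₀, hN⟩
  have hp2N : ¬ p ^ 2 ∣ N := by
    rintro ⟨c, hc⟩
    apply hpN₀
    refine ⟨c, ?_⟩
    have h1 : p * N₀ = p * (p * c) := by rw [← hN, hc]; ring
    exact Nat.eq_of_mul_eq_mul_left hp.pos h1
  set i : NewIdx N 0 := pIdx hp hpN hp2N with hi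
  haveI : NeZero (N / p) := i.neZero_N
  have hdiv : N / p = N₀ := by
    rw [hN]
    exact Nat.mul_div_cancel_left N₀ hp.pos
  have h1 : NewOrdinaryU p (N / p) N S :=
    newOrdinaryU_of_torsion N S i hp2 (hNS p hp hpN) hNS (hE N S i hp2 hNS) (hT N i hp2)
  exact newOrdinaryU_cast hdiv h1

/-- **S33 from P-NEW and P-BR in helper94's form.** -/
theorem s33_of_splitG
    (hE : ∀ (M : ℕ) [NeZero M] (S : Finset ℕ) (i : NewIdx M 0), i.1 ≠ 2 →
      (∀ q : ℕ, q.Prime → q ∣ M → q ∈ S) → NewEigenclassAt M S i)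
    (hBR : ∀ (p N₀ : ℕ) [NeZero N₀] [NeZero p] (D : ALData) (hM : N₀ * p = D.Q * D.R),
      p.Prime → p ≠ 2 → ¬ p ∣ N₀ → D.Q = p → D.R = N₀ →
      ∀ A : ValuationSubring Qb, A.LiesOverPrime p →
        ∃ Sp : AddSubgroup (JZero (N₀ * p)),
          SplitG1 p N₀ D hM A Sp ∧ SplitG2 p (N₀ * p) A Sp)
    [Finite (IsLocalRing.ResidueField 𝒪)] [CharZero 𝒪]
    (hp : p.Prime) (hp2 : p ≠ 2) (hp𝒪 : (p : 𝒪) ∈ IsLocalRing.maximalIdeal 𝒪)
    (hN : p ∣ N ∧ ¬ p ^ 2 ∣ N)
    (hNS : ∀ q : ℕ, q.Prime → q ∣ N → q ∈ S)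
    (H : CuspForm.HeckeGaloisRepDatum N (↑S : Set ℕ) 𝒪 θ T)
    (hres : (GaloisRepAdic.ofResidualGaloisRep H.ρ.residual).IsOrdinaryAt p) :
    H.ρ.IsOrdinaryAt p :=
  s33_of_targets hE
    (fun M _ i hi2 => torsionSplitAt_of_splitG M i hi2
      (fun p N₀ _ _ D hM hp h2 hpN₀ hQ hR A hA => hBR p N₀ D hM hp h2 hpN₀ hQ hR A hA))
    hp hp2 hp𝒪 hN hNS H hres

end Fermat.Agent.S33
end
end MergeWrap_S33_NewFinal

section MergeWrap_S33_Final -- from S33/Final.lean

/-!
# S33 from the split classes at the Atkin–Lehner data with auxiliary level (owner: helper11)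

`PBRTarget` (the output of P-BR, helper46): for every odd prime `p`, every `N₀` prime to `p` and
every Atkin–Lehner datum `D` with `D.Q = p`, `D.R = N₀` and `AuxOK D`, and every place `A ∣ p`,
a subgroup `Sp ≤ J₀(N₀ p)` with helper94's `SplitG1`, `SplitG2`.

* `splitG_of_pbrTarget` : the same without `AuxOK` (for `p = 3`, `2 ∤ N₀` pull back from the level
  `2 N₀ p`: helper94's `split_pull_two`);
* `s33_of_pbrTarget` : the frozen S33 (same binders) from `PBRTarget`
  (new eigen-classes: helper69's `newEigenclassAt`; old part: helper62's `oldOrdinaryU`).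
-/

set_option autoImplicit false
set_option linter.unusedSectionVars false
set_option linter.style.haveILetI false

noncomputable section

namespace Fermat.Agent.S33

open ModularCurve AlgebraicCurve IsLocalRing Fermat.Agent.BadRed Fermat.Agent.BadRed.PullAux
  Fermat.Agent.S35
open Fermat.Agent.AtkinLehner (ALData)

local notation "Qb" => (AlgebraicClosure ℚ)

/-- **The target of P-BR.** -/
def PBRTarget : Prop :=
  ∀ (p N₀ : ℕ) [NeZero N₀] [NeZero p] (D : ALData) (hM : N₀ * p = D.Q * D.R),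
    p.Prime → p ≠ 2 → ¬ p ∣ N₀ → D.Q = p → D.R = N₀ → AuxLevel.AuxOK D →
    ∀ A : ValuationSubring Qb, A.LiesOverPrime p →
      ∃ Sp : AddSubgroup (JZero (N₀ * p)),
        SplitG1 p N₀ D hM A Sp ∧ SplitG2 p (N₀ * p) A Sp

/-- The split classes at all data, from the data with auxiliary level. -/
theorem splitG_of_pbrTarget (h : PBRTarget)
    (p N₀ : ℕ) [NeZero N₀] [NeZero p] (D : ALData) (hM : N₀ * p = D.Q * D.R)
    (hp : p.Prime) (hp2 : p ≠ 2) (hpN₀ : ¬ p ∣ N₀) (hQ : D.Q = p) (hR : D.R = N₀)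
    (A : ValuationSubring Qb) (hA : A.LiesOverPrime p) :
    ∃ Sp : AddSubgroup (JZero (N₀ * p)),
      SplitG1 p N₀ D hM A Sp ∧ SplitG2 p (N₀ * p) A Sp := by
  by_cases haux : AuxLevel.AuxOK D
  · exact h p N₀ D hM hp hp2 hpN₀ hQ hR haux A hA
  · -- `p = 3` and `2 ∤ N₀`
    have h3 : p = 3 ∧ ¬ 2 ∣ N₀ := by
      by_contra hcon
      apply haux
      refine ⟨fun hQ2 => absurd (hQ ▸ hQ2) hp2, fun hQ3 => ?_⟩
      by_contra h2
      exact hcon ⟨hQ ▸ hQ3, hR ▸ h2⟩
    obtain ⟨hp3, h2N⟩ := h3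
    have hN₀ : 0 < N₀ := Nat.pos_of_ne_zero (NeZero.ne N₀)
    haveI : NeZero (N₀ * 2) := ⟨by positivity⟩
    have hpN₀2 : ¬ p ∣ N₀ * 2 := by
      intro hd
      rcases (Nat.Prime.dvd_mul hp).1 hd with h1 | h1
      · exact hpN₀ h1
      · rw [hp3] at h1
        exact absurd h1 (by norm_num)
    have hp2' : ¬ p ∣ 2 := by
      rw [hp3]
      norm_num
    obtain ⟨D', hQ', hR'⟩ := ALData.exists_of_coprime hp.pos (show 0 < N₀ * 2 by positivity)
      ((Nat.Prime.coprime_iff_not_dvd hp).2 hpN₀2)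
    have hM' : N₀ * 2 * p = D'.Q * D'.R := by
      rw [hQ', hR']
      ring
    have haux' : AuxLevel.AuxOK D' := by
      refine ⟨fun hQ2 => absurd (hQ' ▸ hQ2) hp2, fun _ => ?_⟩
      rw [hR']
      exact dvd_mul_left 2 N₀
    obtain ⟨Sp', hG1, hG2⟩ := h p (N₀ * 2) D' hM' hp hp2 hpN₀2 hQ' hR' haux' A hA
    exact split_pull_two hp hpN₀ hp2' D D' hM hM' (by rw [hQ', hQ]) (by rw [hR', hR]) A Sp'
      hG1 hG2

variable {p : ℕ} {N : ℕ} [NeZero N] {S : Finset ℕ}
  {𝒪 : Type} [CommRing 𝒪] [IsDomain 𝒪] [IsDiscreteValuationRing 𝒪]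
  [IsAdicComplete (IsLocalRing.maximalIdeal 𝒪) 𝒪]
  {θ : CuspForm.heckeAlgebra N 2 (↑S : Set ℕ) →+* IsLocalRing.ResidueField 𝒪}
  {T : Type} [CommRing T] [IsLocalRing T] [IsNoetherianRing T]
  [IsAdicComplete (IsLocalRing.maximalIdeal T) T] [Algebra 𝒪 T] [IsLocalHom (algebraMap 𝒪 T)]
  [Module.Finite 𝒪 T] [Module.Free 𝒪 T]

/-- **S33 from the target of P-BR** (binders of the frozen statement). -/
theorem s33_of_pbrTarget (h : PBRTarget)
    [Finite (IsLocalRing.ResidueField 𝒪)] [CharZero 𝒪]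
    (hp : p.Prime) (hp2 : p ≠ 2) (hp𝒪 : (p : 𝒪) ∈ IsLocalRing.maximalIdeal 𝒪)
    (hN : p ∣ N ∧ ¬ p ^ 2 ∣ N)
    (hNS : ∀ q : ℕ, q.Prime → q ∣ N → q ∈ S)
    (H : CuspForm.HeckeGaloisRepDatum N (↑S : Set ℕ) 𝒪 θ T)
    (hres : (GaloisRepAdic.ofResidualGaloisRep H.ρ.residual).IsOrdinaryAt p) :
    H.ρ.IsOrdinaryAt p :=
  s33_of_splitG (fun M _ S i _ hMS => newEigenclassAt M S hMS i)
    (fun p N₀ _ _ D hM hp hp2 hpN₀ hQ hR A hA =>
      splitG_of_pbrTarget h p N₀ D hM hp hp2 hpN₀ hQ hR A hA)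
    hp hp2 hp𝒪 hN hNS H hres

end Fermat.Agent.S33
end
end MergeWrap_S33_Final

section MergeWrap_S33_PBR -- from S33/PBR.lean

set_option autoImplicit false
set_option linter.unusedVariables false
set_option linter.unusedSectionVars false
set_option linter.style.haveILetI false
set_option synthInstance.maxHeartbeats 400000
set_option maxHeartbeats 1000000

/-!
# S33: the target of P-BR from the parts (helper11)

`PBRTarget` (`S33/Final.lean`) from helper46's `pbr_of_parts` (bridge), helper66's `w1_split`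
((W1)) and the one remaining input, the modular instance of (COV) (`CovTarget`).
-/

noncomputable section

namespace Fermat.Agent.S33

open ModularCurve AlgebraicCurve Fermat.Agent.F3 Fermat.Agent.AtkinLehner Fermat.Agent.BadRed

local notation "Qb" => (AlgebraicClosure ℚ)

/-- **The modular instance of (COV)**, at all data with auxiliary level. -/
def CovTarget : Prop :=
  ∀ (p N₀ : ℕ) [NeZero N₀] [NeZero p] (D : ALData) (hM : N₀ * p = D.Q * D.R),
    p.Prime → p ≠ 2 → ¬ p ∣ N₀ → D.Q = p → D.R = N₀ → AuxLevel.AuxOK D →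
    ∀ A : ValuationSubring Qb, A.LiesOverPrime p →
      ∀ ζ : Qb, IsPrimitiveRoot ζ p → PNew.CovInstStatement D A p (ζ - 1)

/-- **P-BR** from the modular instance of (COV). -/
theorem pbrTarget_of_covTarget (h : CovTarget) : PBRTarget := by
  intro p N₀ _ _ D hM hp hp2 hpN hQ hR haux A hA
  refine PNew.pbr_of_parts (D := D) (hM := hM) (A := A) hp hQ hA ?_ ?_
  · intro g hg _ hnew hred _
    exact PNew.w1_split D hM hp hpN hQ hR A hA hg hnew hred
  · intro ζ hζ
    exact h p N₀ D hM hp hp2 hpN hQ hR haux A hA ζ hζ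

end Fermat.Agent.S33
end
end MergeWrap_S33_PBR

section MergeWrap_S33_CovInstH -- from S33/CovInstH.lean

set_option autoImplicit false
set_option linter.unusedVariables false
set_option linter.unusedSectionVars false
set_option linter.style.haveILetI false
set_option synthInstance.maxHeartbeats 400000
set_option maxHeartbeats 1000000

/-!
# S33: the modular instance of (COV) (helper11)

`covTarget : CovTarget`: the modular nodal package `fwModularNodal` of cluster T with the abstract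
`PCov.pCovMain_of_nonempty` and the cyclotomic uniformiser `ζ - 1` (`PNew.isCycloUnif_sub_one`).
-/

noncomputable section

namespace Fermat.Agent.S33

open IntermediateField ModularCurve AlgebraicCurve Fermat.Agent.F3 Fermat.Agent.F3G
  Fermat.Agent.GaussInt Fermat.Agent.AtkinLehner Fermat.Agent.Deuring Fermat.Agent.RR
  Fermat.Agent.BadRed

local notation "Qb" => (AlgebraicClosure ℚ)

attribute [local instance] fwFintype

/-- the modular instance of (COV) at the prime `D.Q`. -/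
theorem covInst_of_auxOK (D : ALData) (hQ : D.Q.Prime) (haux : AuxLevel.AuxOK D)
    (A : ValuationSubring Qb) (hA : A.LiesOverPrime D.Q) (ζ : Qb)
    (hζ : IsPrimitiveRoot ζ D.Q) : PNew.CovInstStatement D A D.Q (ζ - 1) := by
  haveI : NeZero D.Q := ⟨hQ.ne_zero⟩
  haveI : NeZero D.R := ⟨D.hR.ne'⟩
  haveI : NeZero (D.Q * D.R) := ⟨mul_ne_zero hQ.ne_zero D.hR.ne'⟩
  haveI : Fact D.Q.Prime := ⟨hQ⟩
  haveI : CharP (IsLocalRing.ResidueField A) D.Q :=
    Fermat.Agent.FrobTrace.charP_residueField A hA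
  haveI : IsAlgClosed (IsLocalRing.ResidueField A) := Fermat.Agent.GaussInt.isAlgClosed_residue A
  haveI : PerfectRing (IsLocalRing.ResidueField A) D.Q := inferInstance
  haveI := infinite_residue A
  have hqR := ALData_not_dvd D hQ
  have hS := isGaussSetup_gaussSetupBad D hQ hqR A hA
  have hL := hasLattice_gaussSetupBad D hQ hqR A hA
  have haux' : AuxLevelOK D.Q D.R := haux
  have hsep := fw_sep D A hQ hA hqR _ hS haux'
  haveI := fw_nonempty D A hQ hA _ hS
  refine ⟨fwModularNodal D A hQ hA hqR _ hS hL haux' hsep, ?_⟩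
  set sd := fwSeed D A hQ hA hqR _ hS hL haux' hsep with hsd
  have hNS : Nonempty (NodalNS sd.nodalSetup (genusFF Qb (modularFunctionFieldBar (D.Q * D.R)))) :=
    sd.nodalSetup.nonempty_nodalNS_of_lift sd.nodalSetup_genusRel sd.D₀ sd.R₁ sd.R₂
      sd.R₁_pos sd.R₂_pos sd.R₁_node sd.R₂_node sd.nodalSetup_hasLift
  have hp0 : ((D.Q : ℕ) : Qb) ≠ 0 := by exact_mod_cast hQ.ne_zero
  have hpA : (((D.Q : ℕ) : Qb))⁻¹ ∉ sd.nodalSetup.S₁.A := by
    have hAeq : sd.nodalSetup.S₁.A = A := hS.A_eq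
    rw [hAeq]
    intro h
    have h1 : ((D.Q : ℕ) : Qb) ∈ A.nonunits := hA
    rcases (A.mem_nonunits_iff_or).mp h1 with h2 | h2
    · exact hp0 h2
    · exact h2 h
  have hK : ∀ c : Qb, ∃ d : Qb, d ^ D.Q = c := fun c =>
    IsAlgClosed.exists_pow_nat_eq c hQ.pos
  exact PCov.pCovMain_of_nonempty sd.nodalSetup hNS D.Q (ζ - 1)
    (PNew.isCycloUnif_sub_one sd.nodalSetup hQ hζ hp0 hpA) hK sd.nodalSetup_genusRel

/-- **the modular instance of (COV)**, in the shape of `CovTarget`. -/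
theorem covTarget_h11 : CovTarget := by
  intro p N₀ _ _ D hM hp hp2 hpN hQ hR haux A hA ζ hζ
  have hQp : D.Q.Prime := hQ ▸ hp
  have hAQ : A.LiesOverPrime D.Q := hQ ▸ hA
  have hζQ : IsPrimitiveRoot ζ D.Q := hQ ▸ hζ
  have := covInst_of_auxOK D hQp haux A hAQ ζ hζQ
  rw [hQ] at this
  exact this

end Fermat.Agent.S33
end
end MergeWrap_S33_CovInstH
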